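/-
Cluster G (S36), block NORM, seat VAL-NORM (helper31), part 1: LOCAL BASES at a place.

`F / E` a finite extension of function fields over `k` (`IsRRField`), `P` a place of `E`, `s` a
finite set of places of `F` over `P`, `e_Q` the ramification indices.

* `val_sum_eq_of_dominant` : a strictly dominant term decides the valuation of a finite sum;
* `IsLocalFam s b` : a family `b_(Q,i)` (`Q ∈ s`, `i < e_Q`) with `ord_Q b_(Q,i) = i` and
  `ord_Q' b_(Q,i) ≥ e_Q'` for the other `Q' ∈ s`;   `exists_isLocalFam` (Riemann-Roch);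
* `IsLocalFam.key` : for coefficients `c_j ∈ O_P`, if `c_(Q,i₀)` is the first unit coefficient on
  the component `Q`, then `ord_Q (Σ c_j b_j) = i₀`;
* `IsLocalFam.linearIndependent`, `IsLocalFam.integral`, `IsLocalFam.triangular`.
-/
import Mathlib
import Fermat.Prelude.Def_AlgebraicCurve_DivisorPushPull
import Fermat.Agent.Lib.FF.Value
import Fermat.Agent.Lib.RR.MultGeneral
import Fermat.Agent.Lib.RR.NonSpecial

set_option autoImplicit false
set_option linter.unusedSectionVars false
set_option linter.style.haveILetI false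

noncomputable section

namespace Fermat.Agent.S36

open AlgebraicCurve Fermat.Agent.RR Fermat.Agent.FF WithZero

/-- a strictly dominant term decides the valuation of a finite sum. -/
theorem val_sum_eq_of_dominant {R Γ : Type*} [Ring R] [LinearOrderedCommGroupWithZero Γ]
    (v : Valuation R Γ) {ι : Type*} [DecidableEq ι] (t : Finset ι) (f : ι → R) (j₀ : ι)
    (hj₀ : j₀ ∈ t) (hne : v (f j₀) ≠ 0) (hlt : ∀ j ∈ t, j ≠ j₀ → v (f j) < v (f j₀)) :
    v (∑ j ∈ t, f j) = v (f j₀) := by
  rw [← Finset.add_sum_erase t f hj₀]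
  apply Valuation.map_add_eq_of_lt_left
  apply Valuation.map_sum_lt v hne
  intro j hj
  exact hlt j (Finset.mem_of_mem_erase hj) (Finset.ne_of_mem_erase hj)

section Restrict

variable {k E F : Type*} [Field k] [Field E] [Field F] [Algebra k E] [Algebra k F] [Algebra E F]
  [IsScalarTower k E F] [Algebra.IsIntegral E F]

/-- the valuation at `Q` of an element of `E` with `v_P ≤ 1`. -/
theorem val_algebraMap_le_one {P : Place k E} {Q : Place k F} (hQ : Q.restrict E = P) {c : E}
    (hc : P.adicValuation c ≤ 1) : Q.adicValuation (algebraMap E F c) ≤ 1 := by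
  rw [Place.adicValuation_le_one_iff] at hc ⊢
  rcases hc with rfl | hc
  · left
    exact map_zero _
  · right
    rw [Q.ord_restrict c, hQ]
    exact mul_nonneg (Int.natCast_nonneg _) hc

/-- the valuation at `Q` of an element of `E` with `v_P < 1`. -/
theorem val_algebraMap_le_exp {P : Place k E} {Q : Place k F} (hQ : Q.restrict E = P) {c : E}
    (hc : P.adicValuation c < 1) :
    Q.adicValuation (algebraMap E F c) ≤ exp (-(Q.ramificationIndex E : ℤ)) := by
  rw [Place.adicValuation_le_exp_iff]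
  rcases eq_or_ne c 0 with rfl | hc0
  · left
    exact map_zero _
  · right
    rw [P.adicValuation_eq_exp_neg_ord hc0, ← exp_zero, exp_lt_exp] at hc
    rw [Q.ord_restrict c, hQ, neg_neg]
    have h1 : (1 : ℤ) ≤ P.ord c := by omega
    calc (Q.ramificationIndex E : ℤ) = (Q.ramificationIndex E : ℤ) * 1 := (mul_one _).symm
      _ ≤ (Q.ramificationIndex E : ℤ) * P.ord c :=
        mul_le_mul_of_nonneg_left h1 (Int.natCast_nonneg _)

/-- the valuation at `Q` of an element of `E` with `v_P = 1`. -/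
theorem val_algebraMap_eq_one {P : Place k E} {Q : Place k F} (hQ : Q.restrict E = P) {c : E}
    (hc : P.adicValuation c = 1) : Q.adicValuation (algebraMap E F c) = 1 := by
  have hc0 : c ≠ 0 := by
    rintro rfl
    rw [map_zero] at hc
    exact zero_ne_one hc
  rw [P.adicValuation_eq_exp_neg_ord hc0, ← exp_zero, exp_inj] at hc
  have hc' : algebraMap E F c ≠ 0 := (map_ne_zero _).mpr hc0
  rw [Q.adicValuation_eq_exp_neg_ord hc', Q.ord_restrict c, hQ]
  have : P.ord c = 0 := by omega
  rw [this, mul_zero, neg_zero, exp_zero]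

end Restrict

section Fam

variable {k E F : Type*} [Field k] [Field E] [Field F] [Algebra k E] [Algebra k F] [Algebra E F]
  [IsScalarTower k E F] [Algebra.IsIntegral E F]

/-- the index set of a local basis: pairs `(Q, i)` with `Q ∈ s`, `i < e_Q`. -/
abbrev LocIdx (E : Type*) {k F : Type*} [Field k] [Field E] [Field F] [Algebra k F]
    [Algebra E F] (s : Finset (Place k F)) : Type _ :=
  Σ Q : {Q : Place k F // Q ∈ s}, Fin ((Q : Place k F).ramificationIndex E)

/-- a local family: `ord_Q b_(Q,i) = i`, `ord_Q' b_(Q,i) ≥ e_Q'` for `Q' ≠ Q`. -/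
structure IsLocalFam (s : Finset (Place k F)) (b : LocIdx E s → F) : Prop where
  self : ∀ j : LocIdx E s, (j.1 : Place k F).adicValuation (b j) = exp (-((j.2 : ℕ) : ℤ))
  other : ∀ (j : LocIdx E s) (Q : {Q : Place k F // Q ∈ s}), Q ≠ j.1 →
    (Q : Place k F).adicValuation (b j) ≤ exp (-(((Q : Place k F).ramificationIndex E : ℕ) : ℤ))

/-- approximation: a function with prescribed order at `Q ∈ s` and lower bounds on `s`. -/
theorem exists_ord_eq_on (hF : IsRRField k F) [Infinite k] (s : Finset (Place k F))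
    (m : Place k F → ℕ) (Q : Place k F) (hQ : Q ∈ s) :
    ∃ f : F, f ≠ 0 ∧ Q.ord f = m Q ∧ ∀ Q' ∈ s, (m Q' : ℤ) ≤ Q'.ord f := by
  classical
  haveI : Infinite (Place k F) := infinite_place hF
  obtain ⟨Q₀, hQ₀⟩ := Infinite.exists_notMem_finset s
  set N : ℤ := 2 * (genusFF k F : ℤ) + ∑ Q' ∈ s, (m Q' : ℤ) with hN
  set D : Divisor k F := Finsupp.single Q₀ N - ∑ Q' ∈ s, Finsupp.single Q' (m Q' : ℤ) with hD
  have hDs : ∀ Q' ∈ s, D Q' = -(m Q' : ℤ) := by
    intro Q' hQ'
    have hne : Q₀ ≠ Q' := fun h => hQ₀ (h ▸ hQ')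
    rw [hD, Finsupp.sub_apply, Finsupp.single_apply, if_neg hne, Finsupp.finsetSum_apply,
      zero_sub]
    congr 1
    rw [Finset.sum_eq_single Q']
    · exact Finsupp.single_eq_same
    · intro Q'' _ hne'
      exact Finsupp.single_eq_of_ne (Ne.symm hne')
    · intro h
      exact absurd hQ' h
  have hdeg : Divisor.degree D = 2 * (genusFF k F : ℤ) := by
    rw [hD, map_sub, map_sum, degree_single_one hF]
    have : ∀ Q' ∈ s, Divisor.degree (Finsupp.single Q' (m Q' : ℤ)) = (m Q' : ℤ) :=
      fun Q' _ => degree_single_one hF Q' _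
    rw [Finset.sum_congr rfl this, hN]
    ring
  obtain ⟨f, hf, hf0, hford⟩ := Fermat.Agent.RRMult.exists_ord_eq hF (D := D) (le_of_eq hdeg.symm) Q
  refine ⟨f, hf0, ?_, fun Q' hQ' => ?_⟩
  · rw [hford, hDs Q hQ, neg_neg]
  · have h1 := (mem_riemannRochSpace_iff.mp hf Q').resolve_left hf0
    rw [hDs Q' hQ', neg_neg] at h1
    exact h1

/-- local families exist. -/
theorem exists_isLocalFam (hF : IsRRField k F) [Infinite k] (s : Finset (Place k F)) :
    ∃ b : LocIdx E s → F, IsLocalFam (E := E) s b := by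
  classical
  have key : ∀ j : LocIdx E s, ∃ f : F,
      (j.1 : Place k F).adicValuation f = exp (-((j.2 : ℕ) : ℤ)) ∧
      ∀ Q : {Q : Place k F // Q ∈ s}, Q ≠ j.1 →
        (Q : Place k F).adicValuation f ≤
          exp (-(((Q : Place k F).ramificationIndex E : ℕ) : ℤ)) := by
    intro j
    obtain ⟨f, hf0, hfQ, hfs⟩ := exists_ord_eq_on hF s
      (fun Q' => if Q' = (j.1 : Place k F) then (j.2 : ℕ) else Q'.ramificationIndex E)
      (j.1 : Place k F) j.1.2
    refine ⟨f, ?_, fun Q hQ => ?_⟩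
    · rw [Place.adicValuation_eq_exp_neg_ord _ hf0, hfQ, if_pos rfl]
    · rw [Place.adicValuation_le_exp_iff]
      right
      have h1 := hfs (Q : Place k F) Q.2
      have hne : (Q : Place k F) ≠ (j.1 : Place k F) := fun h => hQ (Subtype.ext h)
      rw [if_neg hne] at h1
      rw [neg_neg]
      exact h1
  choose b hb1 hb2 using key
  exact ⟨b, ⟨hb1, hb2⟩⟩

variable {s : Finset (Place k F)} {b : LocIdx E s → F}

theorem IsLocalFam.le_one (hb : IsLocalFam (E := E) s b) (j : LocIdx E s)
    (Q : {Q : Place k F // Q ∈ s}) : (Q : Place k F).adicValuation (b j) ≤ 1 := by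
  by_cases hQ : Q = j.1
  · rw [hQ, hb.self j, ← exp_zero, exp_le_exp]
    omega
  · refine (hb.other j Q hQ).trans ?_
    rw [← exp_zero, exp_le_exp]
    omega

/-- **the key valuation computation**: the first unit coefficient on the component `Q` decides
the order at `Q`. -/
theorem IsLocalFam.key (hb : IsLocalFam (E := E) s b) {P : Place k E}
    (hs : ∀ Q ∈ s, Q.restrict E = P) (c : LocIdx E s → E)
    (hc : ∀ j, P.adicValuation (c j) ≤ 1) (j₀ : LocIdx E s)
    (hj₀ : P.adicValuation (c j₀) = 1)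
    (hmin : ∀ i : Fin ((j₀.1 : Place k F).ramificationIndex E), i < j₀.2 →
      P.adicValuation (c ⟨j₀.1, i⟩) < 1) :
    (j₀.1 : Place k F).adicValuation (∑ j, algebraMap E F (c j) * b j) =
      exp (-((j₀.2 : ℕ) : ℤ)) := by
  classical
  have h0 : (j₀.1 : Place k F).adicValuation (algebraMap E F (c j₀) * b j₀) =
      exp (-((j₀.2 : ℕ) : ℤ)) := by
    rw [map_mul, val_algebraMap_eq_one (hs _ j₀.1.2) hj₀, one_mul, hb.self j₀]
  rw [val_sum_eq_of_dominant (j₀.1 : Place k F).adicValuation Finset.univ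
    (fun j => algebraMap E F (c j) * b j) j₀ (Finset.mem_univ _) ?_ ?_]
  · exact h0
  · rw [h0]
    exact exp_ne_zero
  · intro j _ hne
    rw [h0]
    obtain ⟨Q₀, i₀⟩ := j₀
    obtain ⟨Q, i⟩ := j
    have hi₀ : ((i₀ : ℕ) : ℤ) < ((Q₀ : Place k F).ramificationIndex E : ℤ) := by
      exact_mod_cast i₀.2
    by_cases hQ : Q = Q₀
    · subst hQ
      have hii : i ≠ i₀ := fun h => hne (by rw [h])
      rcases lt_or_gt_of_ne hii with hlt | hgt
      · -- earlier index: the coefficient is a non-unit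
        have h1 := val_algebraMap_le_exp (hs _ Q.2) (hmin i hlt)
        have h2 := hb.le_one ⟨Q, i⟩ Q
        calc (Q : Place k F).adicValuation (algebraMap E F (c ⟨Q, i⟩) * b ⟨Q, i⟩)
            = (Q : Place k F).adicValuation (algebraMap E F (c ⟨Q, i⟩)) *
                (Q : Place k F).adicValuation (b ⟨Q, i⟩) := map_mul _ _ _
          _ ≤ exp (-((Q : Place k F).ramificationIndex E : ℤ)) * 1 := mul_le_mul' h1 h2
          _ = exp (-((Q : Place k F).ramificationIndex E : ℤ)) := mul_one _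
          _ < exp (-((i₀ : ℕ) : ℤ)) := by
            rw [exp_lt_exp]
            omega
      · -- later index
        have h1 := val_algebraMap_le_one (hs _ Q.2) (hc ⟨Q, i⟩)
        have h2 := hb.self ⟨Q, i⟩
        calc (Q : Place k F).adicValuation (algebraMap E F (c ⟨Q, i⟩) * b ⟨Q, i⟩)
            = (Q : Place k F).adicValuation (algebraMap E F (c ⟨Q, i⟩)) *
                (Q : Place k F).adicValuation (b ⟨Q, i⟩) := map_mul _ _ _
          _ ≤ 1 * exp (-((i : ℕ) : ℤ)) := mul_le_mul' h1 (le_of_eq h2)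
          _ = exp (-((i : ℕ) : ℤ)) := one_mul _
          _ < exp (-((i₀ : ℕ) : ℤ)) := by
            rw [exp_lt_exp]
            have : (i₀ : ℕ) < (i : ℕ) := hgt
            omega
    · -- another component
      have h1 := val_algebraMap_le_one (hs _ Q₀.2) (hc ⟨Q, i⟩)
      have h2 := hb.other ⟨Q, i⟩ Q₀ (fun h => hQ h.symm)
      calc (Q₀ : Place k F).adicValuation (algebraMap E F (c ⟨Q, i⟩) * b ⟨Q, i⟩)
          = (Q₀ : Place k F).adicValuation (algebraMap E F (c ⟨Q, i⟩)) *
              (Q₀ : Place k F).adicValuation (b ⟨Q, i⟩) := map_mul _ _ _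
        _ ≤ 1 * exp (-((Q₀ : Place k F).ramificationIndex E : ℤ)) := mul_le_mul' h1 h2
        _ = exp (-((Q₀ : Place k F).ramificationIndex E : ℤ)) := one_mul _
        _ < exp (-((i₀ : ℕ) : ℤ)) := by
          rw [exp_lt_exp]
          omega

/-- the first unit coefficient on a component. -/
theorem IsLocalFam.key_exists (hb : IsLocalFam (E := E) s b) {P : Place k E}
    (hs : ∀ Q ∈ s, Q.restrict E = P) (c : LocIdx E s → E)
    (hc : ∀ j, P.adicValuation (c j) ≤ 1) (j : LocIdx E s)
    (hj : P.adicValuation (c j) = 1) :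
    ∃ i₀ : Fin ((j.1 : Place k F).ramificationIndex E), i₀ ≤ j.2 ∧
      (j.1 : Place k F).adicValuation (∑ j, algebraMap E F (c j) * b j) =
        exp (-((i₀ : ℕ) : ℤ)) := by
  classical
  obtain ⟨Q, i⟩ := j
  set T : Finset (Fin ((Q : Place k F).ramificationIndex E)) :=
    Finset.univ.filter (fun i' => P.adicValuation (c ⟨Q, i'⟩) = 1) with hT
  have hiT : i ∈ T := by
    rw [hT, Finset.mem_filter]
    exact ⟨Finset.mem_univ _, hj⟩
  obtain ⟨i₀, hi₀T, hi₀min⟩ := Finset.exists_min_image T (fun i' => i') ⟨i, hiT⟩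
  refine ⟨i₀, hi₀min i hiT, ?_⟩
  rw [hT, Finset.mem_filter] at hi₀T
  refine hb.key hs c hc ⟨Q, i₀⟩ hi₀T.2 (fun i' hi' => ?_)
  refine lt_of_le_of_ne (hc _) (fun h1 => ?_)
  have : i' ∈ T := by
    rw [hT, Finset.mem_filter]
    exact ⟨Finset.mem_univ _, h1⟩
  exact absurd (hi₀min i' this) (not_le.mpr hi')

/-- normalisation of a nonzero family of coefficients by its largest coefficient. -/
theorem exists_normalise (P : Place k E) {J : Type*} [Finite J] (g : J → E) (i0 : J)
    (hi0 : g i0 ≠ 0) :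
    ∃ jm : J, g jm ≠ 0 ∧ (∀ j, P.adicValuation (g j) ≤ P.adicValuation (g jm)) ∧
      (∀ j, P.adicValuation (g j / g jm) ≤ 1) ∧ P.adicValuation (g jm / g jm) = 1 := by
  haveI : Nonempty J := ⟨i0⟩
  obtain ⟨jm, hjm⟩ := Finite.exists_max (fun j => P.adicValuation (g j))
  have hgm : g jm ≠ 0 := by
    intro h
    have h1 := hjm i0
    rw [h, map_zero] at h1
    exact hi0 ((map_eq_zero _).mp (le_antisymm h1 zero_le))
  refine ⟨jm, hgm, hjm, fun j => ?_, ?_⟩
  · rw [map_div₀]
    exact div_le_one_of_le₀ (hjm j) zero_le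
  · rw [div_self hgm, map_one]

theorem sum_div_eq (g : LocIdx E s → E) (b : LocIdx E s → F) (a : E) :
    ∑ j, algebraMap E F (g j / a) * b j =
      algebraMap E F a⁻¹ * ∑ j, algebraMap E F (g j) * b j := by
  rw [Finset.mul_sum]
  refine Finset.sum_congr rfl (fun j _ => ?_)
  rw [← mul_assoc, ← map_mul, div_eq_mul_inv, mul_comm (g j)]

/-- a local family is linearly independent over `E`. -/
theorem IsLocalFam.linearIndependent (hb : IsLocalFam (E := E) s b) {P : Place k E}
    (hs : ∀ Q ∈ s, Q.restrict E = P) : LinearIndependent E b := by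
  classical
  rw [Fintype.linearIndependent_iff]
  intro g hg
  by_contra hne
  push Not at hne
  obtain ⟨i0, hi0⟩ := hne
  obtain ⟨jm, hgm, -, hc, hcm⟩ := exists_normalise P g i0 hi0
  obtain ⟨i₀, -, hval⟩ := hb.key_exists hs (fun j => g j / g jm) hc jm hcm
  have hsum : ∑ j, algebraMap E F (g j) * b j = 0 := by
    rw [← hg]
    refine Finset.sum_congr rfl (fun j _ => ?_)
    rw [Algebra.smul_def]
  rw [sum_div_eq, hsum, mul_zero, map_zero] at hval
  exact exp_ne_zero hval.symm

/-- the coefficients of an element which is integral at all `Q ∈ s` are integral at `P`. -/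
theorem IsLocalFam.integral (hb : IsLocalFam (E := E) s b) {P : Place k E}
    (hs : ∀ Q ∈ s, Q.restrict E = P) (g : LocIdx E s → E)
    (hx : ∀ Q : {Q : Place k F // Q ∈ s},
      (Q : Place k F).adicValuation (∑ j, algebraMap E F (g j) * b j) ≤ 1) :
    ∀ j, P.adicValuation (g j) ≤ 1 := by
  classical
  by_contra hne
  push Not at hne
  obtain ⟨i0, hi0⟩ := hne
  have hi0' : g i0 ≠ 0 := by
    rintro h
    rw [h, map_zero] at hi0
    exact absurd hi0 (not_lt.mpr zero_le)
  obtain ⟨jm, hgm, hjm, hc, hcm⟩ := exists_normalise P g i0 hi0'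
  obtain ⟨i₀, -, hval⟩ := hb.key_exists hs (fun j => g j / g jm) hc jm hcm
  have h1 : 1 < P.adicValuation (g jm) := lt_of_lt_of_le hi0 (hjm i0)
  have hinv : P.adicValuation (g jm)⁻¹ < 1 := by
    rw [map_inv₀]
    exact inv_lt_one_of_one_lt₀ h1
  have h2 := val_algebraMap_le_exp (hs _ jm.1.2) hinv
  have h3 : (jm.1 : Place k F).adicValuation (∑ j, algebraMap E F (g j / g jm) * b j) ≤
      exp (-((jm.1 : Place k F).ramificationIndex E : ℤ)) := by
    rw [sum_div_eq, map_mul]
    calc _ ≤ exp (-((jm.1 : Place k F).ramificationIndex E : ℤ)) * 1 :=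
          mul_le_mul' h2 (hx jm.1)
      _ = _ := mul_one _
  rw [hval, exp_le_exp] at h3
  have h4 : ((i₀ : ℕ) : ℤ) < ((jm.1 : Place k F).ramificationIndex E : ℤ) := by
    exact_mod_cast i₀.2
  omega

/-- **triangularity**: if `x = Σ g_l b_l` has `ord_Q x ≥ i + 1` and `ord_Q' x ≥ e_Q'` for the
other `Q' ∈ s`, then the unit coefficients of `x` sit at the indices `(Q, i')` with `i' > i`. -/
theorem IsLocalFam.triangular (hb : IsLocalFam (E := E) s b) {P : Place k E}
    (hs : ∀ Q ∈ s, Q.restrict E = P) (g : LocIdx E s → E) (j : LocIdx E s)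
    (hself : (j.1 : Place k F).adicValuation (∑ l, algebraMap E F (g l) * b l) ≤
      exp (-(((j.2 : ℕ) : ℤ) + 1)))
    (hother : ∀ Q : {Q : Place k F // Q ∈ s}, Q ≠ j.1 →
      (Q : Place k F).adicValuation (∑ l, algebraMap E F (g l) * b l) ≤
        exp (-(((Q : Place k F).ramificationIndex E : ℕ) : ℤ)))
    (l : LocIdx E s) (hl : P.adicValuation (g l) = 1) :
    l.1 = j.1 ∧ (j.2 : ℕ) < (l.2 : ℕ) := by
  classical
  have hint : ∀ l, P.adicValuation (g l) ≤ 1 := by
    refine hb.integral hs g (fun Q => ?_)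
    by_cases hQ : Q = j.1
    · rw [hQ]
      refine hself.trans ?_
      rw [← exp_zero, exp_le_exp]
      omega
    · refine (hother Q hQ).trans ?_
      rw [← exp_zero, exp_le_exp]
      omega
  obtain ⟨Q, i⟩ := j
  obtain ⟨Q', i'⟩ := l
  obtain ⟨i₀, hi₀l, hval⟩ := hb.key_exists hs g hint ⟨Q', i'⟩ hl
  have hi₀ : ((i₀ : ℕ) : ℤ) < ((Q' : Place k F).ramificationIndex E : ℤ) := by
    exact_mod_cast i₀.2
  have h2 : (i₀ : ℕ) ≤ (i' : ℕ) := hi₀l
  dsimp only at hself hother hval ⊢
  by_cases hQ : Q' = Q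
  · subst hQ
    refine ⟨rfl, ?_⟩
    have h1 := hself
    rw [hval, exp_le_exp] at h1
    omega
  · exfalso
    have h1 := hother Q' hQ
    rw [hval, exp_le_exp] at h1
    omega

end Fam

end Fermat.Agent.S36
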