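/-
Cluster G (S36), block NORM, seat VAL-NORM (helper31), part 2: VALUES OF NORMS at places,
GENERAL case (no separability, any infinite constant field), and the reduction of the
characteristic polynomial.

`F / E` a finite extension of function fields over an infinite field `k` (`IsRRField`), `P` a
place of `E`, `s` a finite set of places of `F` over `P` with `Σ_{Q ∈ s} e_Q = [F : E]`
(then `s` is the whole fibre), `h ∈ F` regular at all `Q ∈ s`.  Then

* `valNorm`     : `N_{F/E}(h)` is regular at `P` and `N(h)(P) = ∏_{Q ∈ s} h(Q) ^ e_Q`;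
* `valCharpoly` : the characteristic polynomial of `h` over `E` has coefficients in `O_P` and
                  reduces to `∏_{Q ∈ s} (X - h(Q)) ^ e_Q`.

No separability assumption (wild and purely inseparable cases included).
Proof: a local basis `b_(Q,i)` (`ValNormBasis.lean`); the matrix of `h` is integral and reduces to
a triangular matrix with diagonal entries `h(Q)`.
-/
import Mathlib
import Fermat.Agent.S36.Norm.ValNormBasis

set_option autoImplicit false
set_option linter.unusedSectionVars false
set_option linter.style.haveILetI false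

noncomputable section

namespace Fermat.Agent.S36

open AlgebraicCurve Fermat.Agent.RR Fermat.Agent.FF WithZero Polynomial

/-! ### triangular matrices indexed by a sigma type -/

section Tri

variable {ι : Type*} [Fintype ι] [DecidableEq ι] {n : ι → ℕ} {R : Type*} [CommRing R]

/-- the rank function of the lexicographic order on `Σ i, Fin (n i)`. -/
def sigmaRk (j : Σ i, Fin (n i)) : ℕ ×ₗ ℕ :=
  toLex (((Fintype.equivFin ι j.1 : Fin (Fintype.card ι)) : ℕ), (j.2 : ℕ))

theorem sigmaRk_injective : Function.Injective (sigmaRk (ι := ι) (n := n)) := by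
  rintro ⟨a, i⟩ ⟨a', i'⟩ h
  have h1 : (((Fintype.equivFin ι a : Fin (Fintype.card ι)) : ℕ), (i : ℕ)) =
      (((Fintype.equivFin ι a' : Fin (Fintype.card ι)) : ℕ), (i' : ℕ)) := toLex.injective h
  have h2 : a = a' := (Fintype.equivFin ι).injective (Fin.ext (congrArg Prod.fst h1))
  subst h2
  have h3 : i = i' := Fin.ext (congrArg Prod.snd h1)
  rw [h3]

/-- a matrix which is triangular for an injective rank function. -/
theorem det_charpoly_of_rank {J : Type*} [Fintype J] [DecidableEq J] {α : Type*}
    [LinearOrder α] (rk : J → α) (hrk : Function.Injective rk) (M : Matrix J J R)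
    (hM : ∀ l j : J, rk l < rk j → M l j = 0) :
    M.det = ∏ j, M j j ∧ M.charpoly = ∏ j, (X - C (M j j)) := by
  classical
  let e : J ≃ Set.range rk := Equiv.ofInjective rk hrk
  letI : Fintype (Set.range rk) := Fintype.ofEquiv J e
  have hup : ((Matrix.reindex e e M).transpose).IsUpperTriangular := by
    intro x y hxy
    have hlt : y < x := hxy
    show M (e.symm y) (e.symm x) = 0
    apply hM
    have hx : rk (e.symm x) = x := by
      have := Equiv.apply_ofInjective_symm hrk x
      exact this
    have hy : rk (e.symm y) = y := by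
      have := Equiv.apply_ofInjective_symm hrk y
      exact this
    rw [hx, hy]
    exact hlt
  have hdet : ((Matrix.reindex e e M).transpose).det =
      ∏ i, ((Matrix.reindex e e M).transpose) i i := Matrix.det_of_isUpperTriangular hup
  have hchar : ((Matrix.reindex e e M).transpose).charpoly =
      ∏ i, (X - C (((Matrix.reindex e e M).transpose) i i)) :=
    Matrix.charpoly_of_isUpperTriangular _ hup
  rw [Matrix.det_transpose, Matrix.det_reindex_self] at hdet
  rw [Matrix.charpoly_transpose, Matrix.charpoly_reindex] at hchar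
  constructor
  · rw [hdet]
    exact Fintype.prod_equiv e.symm _ _ (fun x => rfl)
  · rw [hchar]
    exact Fintype.prod_equiv e.symm _ _ (fun x => rfl)

/-- a matrix which is triangular inside the blocks has the expected determinant and
characteristic polynomial. -/
theorem det_charpoly_of_sigma_triangular
    (M : Matrix (Σ i, Fin (n i)) (Σ i, Fin (n i)) R)
    (hM : ∀ l j : Σ i, Fin (n i), l ≠ j → ¬ (l.1 = j.1 ∧ (j.2 : ℕ) < (l.2 : ℕ)) → M l j = 0) :
    M.det = ∏ j, M j j ∧ M.charpoly = ∏ j, (X - C (M j j)) := by
  refine det_charpoly_of_rank sigmaRk sigmaRk_injective M (fun l j hlt => ?_)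
  apply hM l j
  · intro h
    rw [h] at hlt
    exact lt_irrefl _ hlt
  · rintro ⟨h1, h2⟩
    have : sigmaRk j < sigmaRk l := by
      unfold sigmaRk
      rw [Prod.Lex.toLex_lt_toLex]
      right
      exact ⟨congrArg (fun x => ((Fintype.equivFin ι x : Fin (Fintype.card ι)) : ℕ)) h1.symm,
        h2⟩
    exact lt_asymm hlt this

end Tri

/-! ### the matrix of `h` in a local basis -/

section Main

variable {k E F : Type*} [Field k] [Field E] [Field F] [Algebra k E] [Algebra k F] [Algebra E F]
  [IsScalarTower k E F] [FiniteDimensional E F]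

theorem mem_of_val_le_one (P : Place k E) {c : E} (hc : P.adicValuation c ≤ 1) :
    c ∈ P.toValuationSubring := by
  rw [Place.adicValuation_le_one_iff] at hc
  rcases hc with rfl | hc
  · exact zero_mem _
  · exact Fermat.Agent.S24Res.mem_of_ord_nonneg P hc

theorem valueHom_eq_zero_of_val_lt (hE : IsRRField k E) (P : Place k E)
    (a : P.toValuationSubring) (ha : P.adicValuation (a : E) < 1) : valueHom hE P a = 0 := by
  rw [valueHom_eq_zero_iff]
  by_contra hnot
  have hu : IsUnit a := by
    by_contra hnu
    exact hnot ((IsLocalRing.mem_maximalIdeal a).mpr hnu)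
  rw [(P.adicValuation_coe_eq_one_iff a).mpr hu] at ha
  exact lt_irrefl _ ha

theorem val_sub_value_le (hF : IsRRField k F) (Q : Place k F) {h : F}
    (hh : h ∈ Q.toValuationSubring) :
    Q.adicValuation (h - algebraMap k F (valueAt hF Q h)) ≤ exp (-(1 : ℤ)) := by
  have hmem : h - algebraMap k F (valueAt hF Q h) ∈ Q.toValuationSubring :=
    sub_mem hh (Q.algebraMap_mem' _)
  have h0 : valueAt hF Q (h - algebraMap k F (valueAt hF Q h)) = 0 := by
    rw [valueAt_sub hF Q hh (Q.algebraMap_mem' _), valueAt_algebraMap, sub_self]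
  rw [valueAt_eq_zero_iff hF Q hmem] at h0
  rw [Place.adicValuation_le_exp_iff, neg_neg]
  rcases h0 with h0 | h0
  · exact Or.inl h0
  · exact Or.inr h0

open Classical in
/-- **the matrix of `h`** in a local basis at `P`: it has entries in `O_P`, and it reduces to a
matrix which is triangular inside the blocks, with diagonal entries the values `h(Q)`. -/
theorem exists_local_matrix (hE : IsRRField k E) (hF : IsRRField k F) [Infinite k]
    (P : Place k E) (s : Finset (Place k F)) (hs : ∀ Q ∈ s, Q.restrict E = P)
    (hsum : ∑ Q ∈ s, Q.ramificationIndex E = Module.finrank E F)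
    (h : F) (hh : ∀ Q ∈ s, h ∈ Q.toValuationSubring) :
    ∃ (bas : Module.Basis (LocIdx E s) E F)
      (M₀ : Matrix (LocIdx E s) (LocIdx E s) P.toValuationSubring),
      (∀ l j, ((M₀ l j : P.toValuationSubring) : E) = Algebra.leftMulMatrix bas h l j) ∧
      (∀ j, valueHom hE P (M₀ j j) = valueAt hF (j.1 : Place k F) h) ∧
      (∀ l j, l ≠ j → ¬ (l.1 = j.1 ∧ (j.2 : ℕ) < (l.2 : ℕ)) → valueHom hE P (M₀ l j) = 0) := by
  classical
  obtain ⟨b, hb⟩ := exists_isLocalFam (E := E) hF s
  have hli := hb.linearIndependent hs
  have hcard : Fintype.card (LocIdx E s) = Module.finrank E F := by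
    rw [Fintype.card_sigma, ← hsum]
    simp only [Fintype.card_fin]
    exact Finset.sum_coe_sort s (fun Q => Q.ramificationIndex E)
  rcases isEmpty_or_nonempty (LocIdx E s) with hemp | hne
  · -- degenerate case: impossible, since `[F : E] > 0`
    exfalso
    have h1 : Fintype.card (LocIdx E s) = 0 := Fintype.card_eq_zero
    have h2 : 0 < Module.finrank E F := Module.finrank_pos
    omega
  let bas : Module.Basis (LocIdx E s) E F := basisOfLinearIndependentOfCardEqFinrank hli hcard
  have hbas : ∀ j, bas j = b j := fun j => by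
    show (basisOfLinearIndependentOfCardEqFinrank hli hcard) j = b j
    rw [coe_basisOfLinearIndependentOfCardEqFinrank]
  have hrepr : ∀ x : F, ∑ j, algebraMap E F (bas.repr x j) * b j = x := by
    intro x
    conv_rhs => rw [← bas.sum_repr x]
    refine Finset.sum_congr rfl (fun j _ => ?_)
    rw [Algebra.smul_def, hbas]
  have hv : ∀ Q : {Q : Place k F // Q ∈ s}, (Q : Place k F).adicValuation h ≤ 1 :=
    fun Q => Place.adicValuation_le_one_of_mem _ (hh Q Q.2)
  have hint : ∀ l j, P.adicValuation (bas.repr (h * b j) l) ≤ 1 := by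
    intro l j
    refine hb.integral hs (fun l => bas.repr (h * b j) l) (fun Q => ?_) l
    rw [hrepr, map_mul]
    calc _ ≤ (1 : ℤᵐ⁰) * 1 := mul_le_mul' (hv Q) (hb.le_one j Q)
      _ = 1 := one_mul 1
  refine ⟨bas, fun l j => ⟨bas.repr (h * b j) l, mem_of_val_le_one P (hint l j)⟩,
    fun l j => ?_, ?_⟩
  · rw [Algebra.leftMulMatrix_eq_repr_mul, hbas]
  -- the reduction
  have key : ∀ l j : LocIdx E s, ¬ (l.1 = j.1 ∧ (j.2 : ℕ) < (l.2 : ℕ)) →
      valueHom hE P ⟨bas.repr (h * b j) l, mem_of_val_le_one P (hint l j)⟩ =
        if l = j then valueAt hF (j.1 : Place k F) h else 0 := by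
    intro l j hlj
    set a : k := valueAt hF (j.1 : Place k F) h with ha
    -- the element `y = (h - a) b_j` and its coordinates
    set y : F := (h - algebraMap k F a) * b j with hy
    have hycoord : ∀ l', bas.repr y l' =
        bas.repr (h * b j) l' - algebraMap k E a * (if l' = j then 1 else 0) := by
      intro l'
      have h1 : y = h * b j - (algebraMap k E a) • bas j := by
        rw [hy, sub_mul, Algebra.smul_def, hbas, ← IsScalarTower.algebraMap_apply]
      rw [h1, map_sub, map_smul, Module.Basis.repr_self, Finsupp.sub_apply, Finsupp.smul_apply,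
        Finsupp.single_apply, smul_eq_mul]
      congr 2
      by_cases hl' : j = l'
      · rw [if_pos hl', if_pos hl'.symm]
      · rw [if_neg hl', if_neg (fun h => hl' h.symm)]
    have hyself : (j.1 : Place k F).adicValuation
        (∑ l', algebraMap E F (bas.repr y l') * b l') ≤ exp (-(((j.2 : ℕ) : ℤ) + 1)) := by
      rw [hrepr, hy, map_mul, hb.self j]
      calc _ ≤ exp (-(1 : ℤ)) * exp (-((j.2 : ℕ) : ℤ)) :=
            mul_le_mul' (val_sub_value_le hF _ (hh _ j.1.2)) le_rfl
        _ = exp (-(((j.2 : ℕ) : ℤ) + 1)) := by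
            rw [← exp_add]
            congr 1
            ring
    have hyother : ∀ Q : {Q : Place k F // Q ∈ s}, Q ≠ j.1 →
        (Q : Place k F).adicValuation (∑ l', algebraMap E F (bas.repr y l') * b l') ≤
          exp (-(((Q : Place k F).ramificationIndex E : ℕ) : ℤ)) := by
      intro Q hQ
      rw [hrepr, hy, map_mul]
      have h1 : (Q : Place k F).adicValuation (h - algebraMap k F a) ≤ 1 :=
        Place.adicValuation_le_one_of_mem _ (sub_mem (hh Q Q.2) ((Q : Place k F).algebraMap_mem' _))
      calc _ ≤ 1 * exp (-(((Q : Place k F).ramificationIndex E : ℕ) : ℤ)) :=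
            mul_le_mul' h1 (hb.other j Q hQ)
        _ = _ := one_mul _
    have htri := hb.triangular hs (fun l' => bas.repr y l') j hyself hyother l
    have hyint : ∀ l', P.adicValuation (bas.repr y l') ≤ 1 := by
      refine hb.integral hs (fun l' => bas.repr y l') (fun Q => ?_)
      by_cases hQ : Q = j.1
      · rw [hQ]
        refine hyself.trans ?_
        rw [← exp_zero, exp_le_exp]
        omega
      · refine (hyother Q hQ).trans ?_
        rw [← exp_zero, exp_le_exp]
        omega
    have hlt : P.adicValuation (bas.repr y l) < 1 :=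
      lt_of_le_of_ne (hyint l) (fun h1 => hlj (htri h1))
    have h0 := valueHom_eq_zero_of_val_lt hE P ⟨bas.repr y l, mem_of_val_le_one P (hyint l)⟩ hlt
    have hsplit : (⟨bas.repr y l, mem_of_val_le_one P (hyint l)⟩ : P.toValuationSubring) =
        ⟨bas.repr (h * b j) l, mem_of_val_le_one P (hint l j)⟩ -
          algebraMap k P.toValuationSubring a * (if l = j then 1 else 0) := by
      apply Subtype.ext
      have hc := hycoord l
      show (bas.repr y l : E) = _
      rw [hc]
      by_cases hl : l = j
      · rw [if_pos hl, if_pos hl]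
        rfl
      · rw [if_neg hl, if_neg hl, mul_zero, mul_zero, sub_zero]
        show _ = ((⟨bas.repr (h * b j) l, mem_of_val_le_one P (hint l j)⟩ - 0 :
          P.toValuationSubring) : E)
        rw [sub_zero]
    have h0' : valueHom hE P (⟨bas.repr (h * b j) l, mem_of_val_le_one P (hint l j)⟩ -
          algebraMap k P.toValuationSubring a * (if l = j then 1 else 0)) = 0 := by
      have := h0
      rw [show (⟨bas.repr y l, mem_of_val_le_one P (hyint l)⟩ : P.toValuationSubring) = _ from
        hsplit] at this
      exact this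
    rw [RingHom.map_sub, RingHom.map_mul, valueHom_algebraMap, sub_eq_zero] at h0'
    rw [h0']
    by_cases hl : l = j
    · rw [if_pos hl, if_pos hl, map_one, mul_one]
    · rw [if_neg hl, if_neg hl, map_zero, mul_zero]
  constructor
  · intro j
    have := key j j (fun h1 => lt_irrefl _ h1.2)
    rw [if_pos rfl] at this
    exact this
  · intro l j hne hlj
    have := key l j hlj
    rw [if_neg hne] at this
    exact this

/-- products over `LocIdx E s` of a function of the place. -/
theorem prod_locIdx {M : Type*} [CommMonoid M] (s : Finset (Place k F)) (f : Place k F → M) :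
    ∏ j : LocIdx E s, f (j.1 : Place k F) = ∏ Q ∈ s, f Q ^ Q.ramificationIndex E := by
  classical
  rw [Fintype.prod_sigma]
  simp only [Finset.prod_const, Finset.card_univ, Fintype.card_fin]
  exact Finset.prod_coe_sort s (fun Q => f Q ^ Q.ramificationIndex E)

/-- **VALUES OF NORMS.**  `F / E` a finite extension of function fields over an infinite field
`k`, `P` a place of `E`, `s` a set of places of `F` over `P` with `Σ e_Q = [F : E]`, and `h`
regular at all `Q ∈ s`.  Then `N_{F/E}(h)` is regular at `P`, with value
`∏_{Q ∈ s} h(Q) ^ e_Q`. -/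
theorem valNorm (hE : IsRRField k E) (hF : IsRRField k F) [Infinite k]
    (P : Place k E) (s : Finset (Place k F)) (hs : ∀ Q ∈ s, Q.restrict E = P)
    (hsum : ∑ Q ∈ s, Q.ramificationIndex E = Module.finrank E F)
    (h : F) (hh : ∀ Q ∈ s, h ∈ Q.toValuationSubring) :
    Algebra.norm E h ∈ P.toValuationSubring ∧
      valueAt hE P (Algebra.norm E h) = ∏ Q ∈ s, valueAt hF Q h ^ Q.ramificationIndex E := by
  classical
  obtain ⟨bas, M₀, hM, hdiag, hoff⟩ := exists_local_matrix hE hF P s hs hsum h hh
  have hmat : Algebra.leftMulMatrix bas h = P.toValuationSubring.subtype.mapMatrix M₀ := by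
    ext l j
    rw [RingHom.mapMatrix_apply, Matrix.map_apply, ← hM]
    rfl
  have hnorm : Algebra.norm E h = ((M₀.det : P.toValuationSubring) : E) := by
    rw [Algebra.norm_eq_matrix_det bas h, hmat, ← RingHom.map_det]
    rfl
  have hmem : Algebra.norm E h ∈ P.toValuationSubring := by
    rw [hnorm]
    exact M₀.det.2
  refine ⟨hmem, ?_⟩
  rw [valueAt_of_mem hE P hmem]
  have h1 : (⟨Algebra.norm E h, hmem⟩ : P.toValuationSubring) = M₀.det := Subtype.ext hnorm
  rw [h1, RingHom.map_det]
  have h2 := (det_charpoly_of_sigma_triangular ((valueHom hE P).mapMatrix M₀) (fun l j hne hlj => by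
    rw [RingHom.mapMatrix_apply, Matrix.map_apply]
    exact hoff l j hne hlj)).1
  rw [h2]
  have h3 : ∀ j : LocIdx E s, ((valueHom hE P).mapMatrix M₀) j j =
      valueAt hF (j.1 : Place k F) h := fun j => by
    rw [RingHom.mapMatrix_apply, Matrix.map_apply]
    exact hdiag j
  rw [Finset.prod_congr rfl (fun j _ => h3 j)]
  exact prod_locIdx s (fun Q => valueAt hF Q h)

/-- **VALUES OF CHARACTERISTIC POLYNOMIALS.**  Same situation: the characteristic polynomial of
(multiplication by) `h` over `E` has coefficients in `O_P`, and it reduces at `P` to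
`∏_{Q ∈ s} (X - h(Q)) ^ e_Q`. -/
theorem valCharpoly (hE : IsRRField k E) (hF : IsRRField k F) [Infinite k]
    (P : Place k E) (s : Finset (Place k F)) (hs : ∀ Q ∈ s, Q.restrict E = P)
    (hsum : ∑ Q ∈ s, Q.ramificationIndex E = Module.finrank E F)
    (h : F) (hh : ∀ Q ∈ s, h ∈ Q.toValuationSubring) :
    ∃ Φ₀ : Polynomial P.toValuationSubring,
      Φ₀.Monic ∧ Φ₀.natDegree = Module.finrank E F ∧
      Φ₀.map P.toValuationSubring.subtype = (Algebra.lmul E F h).charpoly ∧
      Φ₀.map (valueHom hE P) = ∏ Q ∈ s, (X - C (valueAt hF Q h)) ^ Q.ramificationIndex E := by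
  classical
  obtain ⟨bas, M₀, hM, hdiag, hoff⟩ := exists_local_matrix hE hF P s hs hsum h hh
  have hmat : Algebra.leftMulMatrix bas h = P.toValuationSubring.subtype.mapMatrix M₀ := by
    ext l j
    rw [RingHom.mapMatrix_apply, Matrix.map_apply, ← hM]
    rfl
  have hcard : Fintype.card (LocIdx E s) = Module.finrank E F := by
    rw [Module.finrank_eq_card_basis bas]
  refine ⟨M₀.charpoly, Matrix.charpoly_monic M₀, ?_, ?_, ?_⟩
  · rw [Matrix.charpoly_natDegree_eq_dim, hcard]
  · rw [← Matrix.charpoly_map, ← RingHom.mapMatrix_apply, ← hmat]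
    have : Algebra.leftMulMatrix bas h = LinearMap.toMatrix bas bas (Algebra.lmul E F h) := rfl
    rw [this, LinearMap.charpoly_toMatrix]
  · rw [← Matrix.charpoly_map, ← RingHom.mapMatrix_apply]
    have h2 := (det_charpoly_of_sigma_triangular ((valueHom hE P).mapMatrix M₀)
      (fun l j hne hlj => by
        rw [RingHom.mapMatrix_apply, Matrix.map_apply]
        exact hoff l j hne hlj)).2
    rw [h2]
    have h3 : ∀ j : LocIdx E s, ((valueHom hE P).mapMatrix M₀) j j =
        valueAt hF (j.1 : Place k F) h := fun j => by
      rw [RingHom.mapMatrix_apply, Matrix.map_apply]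
      exact hdiag j
    rw [Finset.prod_congr rfl (fun j _ => by rw [h3 j])]
    exact prod_locIdx s (fun Q => X - C (valueAt hF Q h))

end Main

end Fermat.Agent.S36
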