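/-
Cluster G (S36), block NORM (helper31): VALUES OF NORMS, `ValAt` forms and the case of a
rational base field `E = K(x)`.

* `vnx_valAt_iff`            : `ValAt Q f c ↔ f ∈ O_Q ∧ valueAt Q f = c`;
* `vnx_valAt_algebraMap_iff` : `ValAt Q (a : F) c ↔ ValAt (Q.restrict E) a c` for `a ∈ E`;
* `vnx_valAt_norm`           : the general VAL-NORM (`valNorm`, no separability) in `ValAt` form;
* `vnx_valAt_norm_poles`, `vnx_valAt_norm_zeros` : for `x ∈ F` transcendental and `h ∈ F` with
  values `c Q` at the poles (zeros) `Q` of `x`, the norm `N_{F/K(x)}(h)`, seen in `F`, takes the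
  value `∏_Q c Q ^ |ord_Q x|` at EVERY pole (zero) of `x`.
-/
import Mathlib
import Fermat.Agent.S36.Norm.ValNormGen
import Fermat.Agent.Lib.BadRed.Nodal.Setup
import Fermat.Agent.Lib.GenusEq.PoleFibres
import Fermat.Agent.Lib.RR.Hurwitz.FibreDeg

set_option autoImplicit false
set_option linter.unusedSectionVars false
set_option linter.style.haveILetI false

noncomputable section

namespace Fermat.Agent.S36

open AlgebraicCurve Fermat.Agent.RR Fermat.Agent.FF IntermediateField
open Fermat.Agent.BadRed (ValAt)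

section Basic

variable {K F : Type*} [Field K] [Field F] [Algebra K F]

/-- `ValAt` in terms of `valueAt`. -/
theorem vnx_valAt_iff (hF : IsRRField K F) (Q : Place K F) (f : F) (c : K) :
    ValAt Q f c ↔ f ∈ Q.toValuationSubring ∧ valueAt hF Q f = c := by
  constructor
  · rintro (h | h)
    · rw [h]
      exact ⟨Q.algebraMap_mem' c, valueAt_algebraMap hF Q c⟩
    · have hm : f - algebraMap K F c ∈ Q.toValuationSubring :=
        Fermat.Agent.S24Res.mem_of_ord_nonneg Q h.le
      have hf : f ∈ Q.toValuationSubring := by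
        have := add_mem hm (Q.algebraMap_mem' c)
        rwa [sub_add_cancel] at this
      exact ⟨hf, valueAt_eq_of_ord_pos hF Q h⟩
  · rintro ⟨hf, hv⟩
    exact (valueAt_eq_iff hF Q hf c).mp hv

end Basic

section Tower

variable {K E F : Type*} [Field K] [Field E] [Field F] [Algebra K E] [Algebra K F] [Algebra E F]
  [IsScalarTower K E F] [FiniteDimensional E F]

/-- values of functions coming from the subfield. -/
theorem vnx_valAt_algebraMap_iff (Q : Place K F) (a : E) (c : K) :
    ValAt Q (algebraMap E F a) c ↔ ValAt (Q.restrict E) a c := by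
  have h1 : algebraMap K F c = algebraMap E F (algebraMap K E c) :=
    IsScalarTower.algebraMap_apply K E F c
  have he : 0 < Q.ramificationIndex E := Q.ramificationIndex_pos (F := E)
  unfold ValAt
  rw [h1, ← map_sub, Q.ord_restrict (F := E)]
  constructor
  · rintro (h | h)
    · exact Or.inl ((algebraMap E F).injective h)
    · right
      by_contra hcon
      push Not at hcon
      have : (Q.ramificationIndex E : ℤ) * (Q.restrict E).ord (a - algebraMap K E c) ≤ 0 :=
        mul_nonpos_of_nonneg_of_nonpos (Int.natCast_nonneg _) hcon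
      omega
  · rintro (h | h)
    · exact Or.inl (congrArg _ h)
    · right
      have : (0 : ℤ) < Q.ramificationIndex E := by exact_mod_cast he
      exact mul_pos this h

/-- **VAL-NORM, general case** (no separability, any infinite constant field), `ValAt` form. -/
theorem vnx_valAt_norm (hE : IsRRField K E) (hF : IsRRField K F) [Infinite K]
    (P : Place K E) (s : Finset (Place K F)) (hs : ∀ Q ∈ s, Q.restrict E = P)
    (hsum : ∑ Q ∈ s, Q.ramificationIndex E = Module.finrank E F)
    (h : F) (c : Place K F → K) (hf : ∀ Q ∈ s, ValAt Q h (c Q)) :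
    ValAt P (Algebra.norm E h) (∏ Q ∈ s, c Q ^ Q.ramificationIndex E) := by
  have hmem : ∀ Q ∈ s, h ∈ Q.toValuationSubring :=
    fun Q hQ => ((vnx_valAt_iff hF Q h (c Q)).mp (hf Q hQ)).1
  obtain ⟨h1, h2⟩ := valNorm hE hF P s hs hsum h hmem
  rw [vnx_valAt_iff hE]
  refine ⟨h1, ?_⟩
  rw [h2]
  exact Finset.prod_congr rfl fun Q hQ => by
    rw [((vnx_valAt_iff hF Q h (c Q)).mp (hf Q hQ)).2]

/-- **VAL-NORM over a rational subfield `E = K(t)`, at the pole of `t`** (generic form):
`s` = the poles of `t` in `F`.  The norm of `h`, seen in `F`, takes the value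
`∏_{Q ∈ s} h(Q) ^ (-ord_Q t)` at every pole of `t`. -/
theorem vnx_valAt_norm_poles_gen (hE : IsRRField K E) (hF : IsRRField K F) [Infinite K]
    {t : E} (ht : Transcendental K t) (htop : K⟮t⟯ = ⊤)
    (s : Finset (Place K F)) (hs : ∀ Q, Q ∈ s ↔ Q.ord (algebraMap E F t) < 0)
    (hdeg : ∑ Q ∈ s, (-(Q.ord (algebraMap E F t))).toNat = Module.finrank E F)
    (h : F) (c : Place K F → K) (hf : ∀ Q ∈ s, ValAt Q h (c Q)) :
    ∀ Q₀ ∈ s, ValAt Q₀ (algebraMap E F (Algebra.norm E h))
      (∏ Q ∈ s, c Q ^ (-(Q.ord (algebraMap E F t))).toNat) := by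
  obtain ⟨P, hP⟩ := Fermat.Agent.GenusEq.poleFibres_exists_isCoord hE ht htop
  have hres : ∀ Q ∈ s, Q.restrict E = P ∧
      Q.ramificationIndex E = (-(Q.ord (algebraMap E F t))).toNat := by
    intro Q hQ
    have h1 := (hs Q).mp hQ
    have h2 := Q.ord_restrict (F := E) t
    have he : 0 < Q.ramificationIndex E := Q.ramificationIndex_pos (F := E)
    have h3 : (Q.restrict E).ord t < 0 := by
      by_contra hcon
      push Not at hcon
      have : (0 : ℤ) ≤ (Q.ramificationIndex E : ℤ) * (Q.restrict E).ord t :=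
        mul_nonneg (Int.natCast_nonneg _) hcon
      omega
    have h4 : Q.restrict E = P := by
      by_contra hne
      have := hP.ord_nonneg _ hne
      omega
    refine ⟨h4, ?_⟩
    rw [h2, h4, hP.ord_pole]
    have : -((Q.ramificationIndex E : ℤ) * -1) = (Q.ramificationIndex E : ℤ) := by ring
    rw [this, Int.toNat_natCast]
  have hsum : ∑ Q ∈ s, Q.ramificationIndex E = Module.finrank E F := by
    rw [← hdeg]
    exact Finset.sum_congr rfl fun Q hQ => (hres Q hQ).2
  have key := vnx_valAt_norm hE hF P s (fun Q hQ => (hres Q hQ).1) hsum h c hf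
  intro Q₀ hQ₀
  rw [vnx_valAt_algebraMap_iff, (hres Q₀ hQ₀).1]
  have e : ∏ Q ∈ s, c Q ^ (-(Q.ord (algebraMap E F t))).toNat =
      ∏ Q ∈ s, c Q ^ Q.ramificationIndex E :=
    Finset.prod_congr rfl fun Q hQ => by rw [(hres Q hQ).2]
  rw [e]
  exact key

end Tower

section Rational

variable {K F : Type*} [Field K] [Field F] [Algebra K F]

/-- the generator of `K(x)` generates `K(x)`. -/
theorem vnx_adjoin_gen_eq_top (x : F) :
    (K⟮AdjoinSimple.gen K x⟯ : IntermediateField K K⟮x⟯) = ⊤ := by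
  apply IntermediateField.map_injective (K⟮x⟯.val)
  rw [IntermediateField.adjoin_map, Set.image_singleton, ← AlgHom.fieldRange_eq_map,
    IntermediateField.fieldRange_val]
  rfl

theorem vnx_transcendental_gen {x : F} (hx : Transcendental K x) :
    Transcendental K (AdjoinSimple.gen K x) := by
  intro h
  apply hx
  have := (isAlgebraic_algHom_iff (K⟮x⟯.val) (K⟮x⟯.val).toRingHom.injective).mpr h
  exact this

/-- `K(x)` satisfies the standing hypotheses of the Riemann-Roch library. -/
theorem vnx_isRRField_adjoin [IsAlgClosed K] {x : F} (hx : Transcendental K x) :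
    IsRRField K K⟮x⟯ := by
  have htop := vnx_adjoin_gen_eq_top (K := K) x
  haveI : FiniteDimensional K⟮AdjoinSimple.gen K x⟯ K⟮x⟯ :=
    Fermat.Agent.GenusEq.poleFibres_finiteDimensional_of_top htop
  haveI : Algebra.IsSeparable K⟮AdjoinSimple.gen K x⟯ K⟮x⟯ := by
    rw [Algebra.isSeparable_def]
    intro a
    have ha : a ∈ K⟮AdjoinSimple.gen K x⟯ := by
      rw [htop]
      exact IntermediateField.mem_top
    exact isSeparable_algebraMap (⟨a, ha⟩ : K⟮AdjoinSimple.gen K x⟯)
  exact isRRField_of_separable (vnx_transcendental_gen hx)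

/-- the degree of the pole divisor, as a sum over the poles. -/
theorem vnx_sum_poles (hF : IsRRField K F) {x : F} (hx : Transcendental K x)
    [FiniteDimensional K⟮x⟯ F] (s : Finset (Place K F)) (hs : ∀ Q, Q ∈ s ↔ Q.ord x < 0) :
    ∑ Q ∈ s, (-(Q.ord x)).toNat = Module.finrank K⟮x⟯ F := by
  have h1 := Fermat.Agent.RRHur.degree_poleDiv_eq_finrank hF hx
  have h2 : Divisor.degree (poleDiv hF x) = ∑ Q ∈ s, poleDiv hF x Q := by
    apply Fermat.Agent.RRHur.fibreDeg_degree_eq_sum_of_subset hF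
    intro Q hQ
    rw [Finsupp.mem_support_iff, poleDiv_apply] at hQ
    rw [hs]
    by_contra hcon
    push Not at hcon
    exact hQ (max_eq_right (by omega))
  rw [h2] at h1
  have h3 : ∑ Q ∈ s, poleDiv hF x Q = ((∑ Q ∈ s, (-(Q.ord x)).toNat : ℕ) : ℤ) := by
    rw [Nat.cast_sum]
    refine Finset.sum_congr rfl fun Q hQ => ?_
    have := (hs Q).mp hQ
    rw [poleDiv_apply, max_eq_left (by omega), Int.toNat_of_nonneg (by omega)]
  rw [h3] at h1
  exact_mod_cast h1

/-- **VAL-NORM over `K(x)` at the poles of `x`**: if `h` takes the value `c Q` at every pole `Q`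
of `x`, then `N_{F/K(x)}(h)`, seen in `F`, takes the value `∏_Q c Q ^ (-ord_Q x)` at every pole
of `x`. -/
theorem vnx_valAt_norm_poles [IsAlgClosed K] (hF : IsRRField K F) {x : F}
    (hx : Transcendental K x) [FiniteDimensional K⟮x⟯ F]
    (s : Finset (Place K F)) (hs : ∀ Q, Q ∈ s ↔ Q.ord x < 0)
    (h : F) (c : Place K F → K) (hf : ∀ Q ∈ s, ValAt Q h (c Q)) :
    ∀ Q₀ ∈ s, ValAt Q₀ (algebraMap K⟮x⟯ F (Algebra.norm K⟮x⟯ h))
      (∏ Q ∈ s, c Q ^ (-(Q.ord x)).toNat) := by
  haveI : Infinite K := IsAlgClosed.instInfinite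
  exact vnx_valAt_norm_poles_gen (vnx_isRRField_adjoin hx) hF (vnx_transcendental_gen hx)
    (vnx_adjoin_gen_eq_top x) s hs (vnx_sum_poles hF hx s hs) h c hf

/-- **VAL-NORM over `K(x)` at the zeros of `x`**: if `h` takes the value `c Q` at every zero `Q`
of `x`, then `N_{F/K(x)}(h)`, seen in `F`, takes the value `∏_Q c Q ^ (ord_Q x)` at every zero
of `x`. -/
theorem vnx_valAt_norm_zeros [IsAlgClosed K] (hF : IsRRField K F) {x : F}
    (hx : Transcendental K x) [FiniteDimensional K⟮x⟯ F]
    (s : Finset (Place K F)) (hs : ∀ Q, Q ∈ s ↔ 0 < Q.ord x)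
    (h : F) (c : Place K F → K) (hf : ∀ Q ∈ s, ValAt Q h (c Q)) :
    ∀ Q₀ ∈ s, ValAt Q₀ (algebraMap K⟮x⟯ F (Algebra.norm K⟮x⟯ h))
      (∏ Q ∈ s, c Q ^ (Q.ord x).toNat) := by
  haveI : Infinite K := IsAlgClosed.instInfinite
  have hx' : Transcendental K x⁻¹ := fun halg => hx (by simpa using halg.inv)
  have hadj : K⟮x⁻¹⟯ = K⟮x⟯ := adjoin_simple_inv_eq x
  haveI : FiniteDimensional K⟮x⁻¹⟯ F := by rw [hadj]; infer_instance
  have hs' : ∀ Q, Q ∈ s ↔ Q.ord x⁻¹ < 0 := by
    intro Q
    rw [hs, Place.ord_inv]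
    omega
  have hsum := vnx_sum_poles hF hx' s hs'
  rw [finrank_adjoin_simple_inv_eq] at hsum
  -- the element `t = gen⁻¹` of `K(x)`
  have ht : Transcendental K (AdjoinSimple.gen K x)⁻¹ := fun halg =>
    vnx_transcendental_gen hx (by simpa using halg.inv)
  have htop : (K⟮(AdjoinSimple.gen K x)⁻¹⟯ : IntermediateField K K⟮x⟯) = ⊤ := by
    rw [adjoin_simple_inv_eq]
    exact vnx_adjoin_gen_eq_top x
  have hmap : algebraMap K⟮x⟯ F (AdjoinSimple.gen K x)⁻¹ = x⁻¹ := by
    rw [map_inv₀, AdjoinSimple.algebraMap_gen]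
  have key := vnx_valAt_norm_poles_gen (vnx_isRRField_adjoin hx) hF ht htop s
    (by intro Q; rw [hmap]; exact hs' Q) (by rw [hmap]; exact hsum) h c hf
  intro Q₀ hQ₀
  have := key Q₀ hQ₀
  rw [hmap] at this
  have e : ∏ Q ∈ s, c Q ^ (-(Q.ord x⁻¹)).toNat = ∏ Q ∈ s, c Q ^ (Q.ord x).toNat :=
    Finset.prod_congr rfl fun Q _ => by rw [Place.ord_inv, neg_neg]
  rw [e] at this
  exact this

end Rational

end Fermat.Agent.S36
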