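/-
Cluster G (S36), block NORM (helper31): VALUES OF NORMS over an ABSTRACT rational base field.

`E = K(t)` (any field `E` with an element `t` such that `K⟮t⟯ = ⊤`), `F / E` finite (no
separability), `K` algebraically closed.  For `h ∈ F` with values `c Q` at the poles (zeros) `Q`
of `t` in `F`, the norm `N_{F/E}(h)`, seen in `F`, takes the value `∏_Q c Q ^ |ord_Q t|` at EVERY
pole (zero) of `t`:  `vne_valAt_norm_poles`, `vne_valAt_norm_zeros`.

Same conventions as `Lib/HP/NormOrd.lean` (`hgen : K⟮x⟯ = ⊤`, `hx : algebraMap E F x = ..`).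
-/
import Mathlib
import Fermat.Agent.S36.Norm.ValNormX

set_option autoImplicit false
set_option linter.unusedSectionVars false
set_option linter.style.haveILetI false

noncomputable section

namespace Fermat.Agent.S36

open AlgebraicCurve Fermat.Agent.RR Fermat.Agent.FF IntermediateField
open Fermat.Agent.BadRed (ValAt)

variable {K E F : Type*} [Field K] [Field E] [Field F] [Algebra K E] [Algebra K F] [Algebra E F]
  [IsScalarTower K E F]

/-- a rational function field satisfies the standing hypotheses of the Riemann-Roch library. -/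
theorem vne_isRRField_of_top [IsAlgClosed K] {t : E} (ht : Transcendental K t)
    (htop : K⟮t⟯ = ⊤) : IsRRField K E := by
  haveI : FiniteDimensional K⟮t⟯ E :=
    Fermat.Agent.GenusEq.poleFibres_finiteDimensional_of_top htop
  haveI : Algebra.IsSeparable K⟮t⟯ E := by
    rw [Algebra.isSeparable_def]
    intro a
    have ha : a ∈ K⟮t⟯ := by
      rw [htop]
      exact IntermediateField.mem_top
    exact isSeparable_algebraMap (⟨a, ha⟩ : K⟮t⟯)
  exact isRRField_of_separable ht

/-- the image of `E = K(t)` in `F` is `K(t_F)`. -/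
theorem vne_adjoin_eq_fieldRange {t : E} (htop : K⟮t⟯ = ⊤) :
    K⟮algebraMap E F t⟯ = (IsScalarTower.toAlgHom K E F).fieldRange := by
  have h1 : (K⟮t⟯).map (IsScalarTower.toAlgHom K E F) =
      K⟮(IsScalarTower.toAlgHom K E F) t⟯ := by
    rw [adjoin_map, Set.image_singleton]
  rw [htop, ← AlgHom.fieldRange_eq_map] at h1
  rw [h1]
  rfl

theorem vne_transcendental_map {t : E} (ht : Transcendental K t) :
    Transcendental K (algebraMap E F t) := by
  intro h
  exact ht ((isAlgebraic_algHom_iff (IsScalarTower.toAlgHom K E F)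
    (IsScalarTower.toAlgHom K E F).toRingHom.injective).mp h)

/-- `[F : K(t_F)] = [F : E]` for `E = K(t)`. -/
theorem vne_finrank_eq {t : E} (htop : K⟮t⟯ = ⊤) :
    Module.finrank K⟮algebraMap E F t⟯ F = Module.finrank E F := by
  have hmem : ∀ a : E, algebraMap E F a ∈ K⟮algebraMap E F t⟯ := by
    intro a
    rw [vne_adjoin_eq_fieldRange htop]
    exact ⟨a, rfl⟩
  have hsurj : ∀ b : K⟮algebraMap E F t⟯, ∃ a : E, algebraMap E F a = (b : F) := by
    intro b
    have hb : (b : F) ∈ (IsScalarTower.toAlgHom K E F).fieldRange :=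
      vne_adjoin_eq_fieldRange (F := F) htop ▸ b.2
    obtain ⟨a, ha⟩ := hb
    exact ⟨a, ha⟩
  let f : E →+* K⟮algebraMap E F t⟯ :=
    { toFun := fun a => ⟨algebraMap E F a, hmem a⟩
      map_one' := Subtype.ext (map_one _)
      map_mul' := fun a b => Subtype.ext (map_mul _ a b)
      map_zero' := Subtype.ext (map_zero _)
      map_add' := fun a b => Subtype.ext (map_add _ a b) }
  have hf : Function.Bijective f := by
    constructor
    · intro a b hab
      exact (algebraMap E F).injective (congrArg Subtype.val hab)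
    · intro b
      obtain ⟨a, ha⟩ := hsurj b
      exact ⟨a, Subtype.ext ha⟩
  symm
  exact Algebra.finrank_eq_of_equiv_equiv (RingEquiv.ofBijective f hf) (RingEquiv.refl F)
    (by ext a; rfl)

theorem vne_finiteDimensional {t : E} (htop : K⟮t⟯ = ⊤) [FiniteDimensional E F] :
    FiniteDimensional K⟮algebraMap E F t⟯ F := by
  apply Module.finite_of_finrank_pos
  rw [vne_finrank_eq htop]
  exact Module.finrank_pos

variable [FiniteDimensional E F]

/-- **VAL-NORM over `E = K(t)` at the poles of `t`.** -/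
theorem vne_valAt_norm_poles [IsAlgClosed K] (hF : IsRRField K F) {t : E}
    (ht : Transcendental K t) (htop : K⟮t⟯ = ⊤)
    (s : Finset (Place K F)) (hs : ∀ Q, Q ∈ s ↔ Q.ord (algebraMap E F t) < 0)
    (h : F) (c : Place K F → K) (hf : ∀ Q ∈ s, ValAt Q h (c Q)) :
    ∀ Q₀ ∈ s, ValAt Q₀ (algebraMap E F (Algebra.norm E h))
      (∏ Q ∈ s, c Q ^ (-(Q.ord (algebraMap E F t))).toNat) := by
  haveI : Infinite K := IsAlgClosed.instInfinite
  haveI := vne_finiteDimensional (F := F) htop
  have htF : Transcendental K (algebraMap E F t) := vne_transcendental_map ht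
  have hdeg := vnx_sum_poles hF htF s hs
  rw [vne_finrank_eq htop] at hdeg
  exact vnx_valAt_norm_poles_gen (vne_isRRField_of_top ht htop) hF ht htop s hs hdeg h c hf

/-- **VAL-NORM over `E = K(t)` at the zeros of `t`.** -/
theorem vne_valAt_norm_zeros [IsAlgClosed K] (hF : IsRRField K F) {t : E}
    (ht : Transcendental K t) (htop : K⟮t⟯ = ⊤)
    (s : Finset (Place K F)) (hs : ∀ Q, Q ∈ s ↔ 0 < Q.ord (algebraMap E F t))
    (h : F) (c : Place K F → K) (hf : ∀ Q ∈ s, ValAt Q h (c Q)) :
    ∀ Q₀ ∈ s, ValAt Q₀ (algebraMap E F (Algebra.norm E h))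
      (∏ Q ∈ s, c Q ^ (Q.ord (algebraMap E F t)).toNat) := by
  have ht' : Transcendental K t⁻¹ := fun halg => ht (by simpa using halg.inv)
  have htop' : K⟮t⁻¹⟯ = ⊤ := by
    rw [adjoin_simple_inv_eq]
    exact htop
  have hmap : algebraMap E F t⁻¹ = (algebraMap E F t)⁻¹ := map_inv₀ _ t
  have key := vne_valAt_norm_poles hF ht' htop' s
    (by intro Q; rw [hmap, Place.ord_inv, hs]; omega) h c hf
  intro Q₀ hQ₀
  have := key Q₀ hQ₀
  have e : ∏ Q ∈ s, c Q ^ (-(Q.ord (algebraMap E F t⁻¹))).toNat =
      ∏ Q ∈ s, c Q ^ (Q.ord (algebraMap E F t)).toNat :=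
    Finset.prod_congr rfl fun Q _ => by rw [hmap, Place.ord_inv, neg_neg]
  rw [e] at this
  exact this

end Fermat.Agent.S36
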