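/-
Cluster G (S36), block NORM, seat NORM-HOR (helper87), ABSTRACT part.  Nothing modular.

* `normRed_hor`: `E ⊆ F` finite, `O` a valuation ring of `F` with residue map `ρ : O → Fk` (onto,
  kills the non-units), `Ek → Fk` a field with `ρ (O ∩ E) ⊆ Ek` and `[F : E] = [Fk : Ek]`.  Then for
  `t ∈ O`:  `N_{F/E} t ∈ O` and `ρ (N_{F/E} t) = N_{Fk/Ek} (ρ t)`.
  (`normRed_multi` of `S36/Norm/Multi.lean` with ONE valuation; used for `w_P` over the circle
  valuation of level `q M₀`: `Fk = k(H_P)`, `Ek = k(W)` resp. `k(Zc)`.)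

The residue field of an extension of a valuation, by the fundamental inequality:
`K₀ ⊆ E` finite, `Ov` a valuation ring of `K₀` with residue map `ρ₀ : Ov → k₀`, finitely many
pairwise distinct valuation rings `O i` of `E` over `Ov` with residue maps `ρ i : O i → Fk i`
(compatible with `ρ₀`: `SqueezeSetup`).

* `sum_finrank_le_of_range`: for `k₀`-subspaces `V i ⊆ ρ i (O i)` of finite dimension:
  `∑ i, dim (V i) ≤ [E : K₀]`  (`BadRed.sum_card_le_finrank`);
* `resField_squeeze`: if moreover `[E : K₀] ≤ ∑ i, dim (V i)`, then `ρ i (O i) ⊆ V i` for all `i`.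
-/
import Mathlib
import Fermat.Agent.S36.Norm.Multi
import Fermat.Agent.Lib.BadRed.FundIneq

set_option autoImplicit false
set_option linter.unusedSectionVars false

noncomputable section

namespace Fermat.Agent.S36

section Hor

variable {E F : Type*} [Field E] [Field F] [Algebra E F]
  (O : ValuationSubring F) {Fk : Type*} [Field Fk] (ρ : O →+* Fk)
  {Ek : Type*} [Field Ek] [Algebra Ek Fk]

/-- the restriction of `ρ` to `O ∩ E`. -/
def horRes : O.comap (algebraMap E F) →+* Fk :=
  ρ.comp (((algebraMap E F).comp (O.comap (algebraMap E F)).subtype).codRestrict O.toSubring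
    (fun y => y.2))

theorem horRes_apply (y : O.comap (algebraMap E F)) :
    horRes (E := E) O ρ y = ρ ⟨algebraMap E F (y : E), y.2⟩ := rfl

variable {O ρ}

/-- the residue map of `O ∩ E` with values in `Ek`. -/
def horResTo (hR1 : ∀ (y : E) (hy : algebraMap E F y ∈ O),
      ρ ⟨algebraMap E F y, hy⟩ ∈ (algebraMap Ek Fk).range) :
    O.comap (algebraMap E F) →+* Ek :=
  ((RingEquiv.ofLeftInverse (f := algebraMap Ek Fk)
      (g := Function.invFun (algebraMap Ek Fk))
      (Function.leftInverse_invFun (algebraMap Ek Fk).injective)).symm : _ →+* Ek).comp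
    ((horRes (E := E) O ρ).codRestrict (algebraMap Ek Fk).range (fun y => hR1 (y : E) y.2))

theorem algebraMap_horResTo (hR1 : ∀ (y : E) (hy : algebraMap E F y ∈ O),
      ρ ⟨algebraMap E F y, hy⟩ ∈ (algebraMap Ek Fk).range) (y : O.comap (algebraMap E F)) :
    algebraMap Ek Fk (horResTo hR1 y) = ρ ⟨algebraMap E F (y : E), y.2⟩ := by
  unfold horResTo
  set e := RingEquiv.ofLeftInverse (f := algebraMap Ek Fk)
      (g := Function.invFun (algebraMap Ek Fk))
      (Function.leftInverse_invFun (algebraMap Ek Fk).injective) with he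
  set z : (algebraMap Ek Fk).range :=
    (horRes (E := E) O ρ).codRestrict (algebraMap Ek Fk).range (fun y => hR1 (y : E) y.2) y with hz
  have h1 : algebraMap Ek Fk (e.symm z) = (e (e.symm z) : Fk) := rfl
  show algebraMap Ek Fk (e.symm z) = _
  rw [h1, RingEquiv.apply_symm_apply]
  rfl

/-- **NORM-HOR, abstract form**: the norm of an integral element reduces to the norm of its
reduction, when the residue field of the restriction is `Ek` and the degree does not drop. -/
theorem normRed_hor [Module.Finite E F] [Module.Finite Ek Fk]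
    (hρ : Function.Surjective ρ) (hker : ∀ y : O, ¬ IsUnit y → ρ y = 0)
    (hR1 : ∀ (y : E) (hy : algebraMap E F y ∈ O),
      ρ ⟨algebraMap E F y, hy⟩ ∈ (algebraMap Ek Fk).range)
    (hrank : Module.finrank E F = Module.finrank Ek Fk)
    (t : F) (ht : t ∈ O) :
    ∃ h : algebraMap E F (Algebra.norm E t) ∈ O,
      ρ ⟨algebraMap E F (Algebra.norm E t), h⟩ =
        algebraMap Ek Fk (Algebra.norm Ek (ρ ⟨t, ht⟩)) := by
  classical
  have H : MultiNormSetup (ι := Unit) (Fk := fun _ => Fk) (O.comap (algebraMap E F))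
      (fun _ => O) (horResTo hR1) (fun _ => ρ) := by
    refine ⟨fun _ y => Iff.rfl, ?_, ?_, ?_⟩
    · intro _ y hy hy'
      exact (algebraMap_horResTo hR1 ⟨y, hy⟩).symm
    · intro y hy
      apply (algebraMap Ek Fk).injective
      rw [algebraMap_horResTo, map_zero]
      apply hker
      intro hu
      apply hy
      have hv : O.valuation (algebraMap E F (y : E)) = 1 :=
        (ValuationSubring.valuation_eq_one_iff O ⟨algebraMap E F (y : E), y.2⟩).mp hu
      have hy0 : (y : E) ≠ 0 := by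
        intro h0
        rw [h0, map_zero, map_zero] at hv
        exact zero_ne_one hv
      have hinv : (y : E)⁻¹ ∈ O.comap (algebraMap E F) := by
        show algebraMap E F (y : E)⁻¹ ∈ O
        rw [map_inv₀, ← ValuationSubring.valuation_le_one_iff, map_inv₀, hv, inv_one]
      refine ⟨⟨y, ⟨(y : E)⁻¹, hinv⟩, ?_, ?_⟩, rfl⟩
      · apply Subtype.ext
        exact mul_inv_cancel₀ hy0
      · apply Subtype.ext
        exact inv_mul_cancel₀ hy0
    · intro i β
      obtain ⟨b, hb⟩ := hρ β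
      refine ⟨(b : F), fun _ => b.2, hb, ?_⟩
      intro l hl
      exact absurd (Subsingleton.elim l i) hl
  have hrank' : Module.finrank E F = ∑ _i : Unit, Module.finrank Ek Fk := by
    rw [hrank]
    simp
  obtain ⟨h, hh⟩ := normRed_multi (ι := Unit) (Fk := fun _ => Fk) H hrank' t (fun _ => ht)
  refine ⟨h, ?_⟩
  have h1 := algebraMap_horResTo hR1 ⟨Algebra.norm E t, h⟩
  rw [← h1, hh]
  simp

end Hor

open Fermat.Agent.BadRed

section Squeeze

variable {K₀ E : Type*} [Field K₀] [Field E] [Algebra K₀ E] [FiniteDimensional K₀ E]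
  {ι : Type*} [Fintype ι]
  {Ov : ValuationSubring K₀} {O : ι → ValuationSubring E}
  {k₀ : Type*} [Field k₀] {ρ₀ : Ov →+* k₀}
  {Fk : ι → Type*} [∀ i, Field (Fk i)] [∀ i, Algebra k₀ (Fk i)]
  {ρ : ∀ i, O i →+* Fk i}

/-- the hypotheses on the residue maps. -/
structure SqueezeSetup (Ov : ValuationSubring K₀) (O : ι → ValuationSubring E)
    (ρ₀ : Ov →+* k₀) (ρ : ∀ i, O i →+* Fk i) : Prop where
  /-- the `O i` lie over `Ov` -/
  liesOver : ∀ i, LiesOverV Ov (O i)
  /-- the `O i` are pairwise distinct -/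
  injective : Function.Injective O
  /-- `ρ₀` is onto -/
  surj₀ : Function.Surjective ρ₀
  /-- the kernel of `ρ₀` consists of non-units -/
  ker₀ : ∀ a : Ov, ρ₀ a = 0 → (a : K₀) ∈ Ov.nonunits
  /-- `ρ i` kills the non-units -/
  ker : ∀ i (y : O i), (y : E) ∈ (O i).nonunits → ρ i y = 0
  /-- compatibility -/
  compat : ∀ i (a : K₀) (ha : a ∈ Ov) (ha' : algebraMap K₀ E a ∈ O i),
    ρ i ⟨algebraMap K₀ E a, ha'⟩ = algebraMap k₀ (Fk i) (ρ₀ ⟨a, ha⟩)
  /-- infinitely many constants with pairwise distinct residues -/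
  consts : ∃ c : ℕ → K₀, (∀ m, c m ∈ Ov) ∧ ∀ m m', m ≠ m' → c m - c m' ∉ Ov.nonunits

/-- lifts of a `k₀`-independent family of residues are residually independent. -/
theorem resIndep_of_lift (H : SqueezeSetup Ov O ρ₀ ρ) (i : ι) {κ : Type*} [Fintype κ]
    (β : κ → Fk i) (hβ : LinearIndependent k₀ β) (x : κ → E) (hx : ∀ l, x l ∈ O i)
    (hxβ : ∀ l, ρ i ⟨x l, hx l⟩ = β l) : ResIndep Ov (O i) x := by
  classical
  refine ⟨hx, fun a ha hsum l => ?_⟩
  have hmem : ∀ l, algebraMap K₀ E (a l) ∈ O i := fun l => ((H.liesOver i).mem_iff _).mpr (ha l)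
  have hs : (∑ l, algebraMap K₀ E (a l) * x l) ∈ O i := (O i).nonunits_le hsum
  have h0 := H.ker i ⟨_, hs⟩ hsum
  have h1 : (⟨∑ l, algebraMap K₀ E (a l) * x l, hs⟩ : O i) =
      ∑ l, (⟨algebraMap K₀ E (a l), hmem l⟩ : O i) * ⟨x l, hx l⟩ := by
    apply Subtype.ext
    have : ((∑ l, (⟨algebraMap K₀ E (a l), hmem l⟩ : O i) * ⟨x l, hx l⟩ : O i) : E)
        = ∑ l, (((⟨algebraMap K₀ E (a l), hmem l⟩ : O i) * ⟨x l, hx l⟩ : O i) : E) :=
      map_sum (O i).subtype _ _
    rw [this]
    rfl
  rw [h1, map_sum] at h0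
  have h2 : ∑ l, ρ₀ ⟨a l, ha l⟩ • β l = 0 := by
    rw [← h0]
    refine Finset.sum_congr rfl (fun l _ => ?_)
    rw [map_mul, H.compat i _ (ha l), hxβ, Algebra.smul_def]
  have h3 := Fintype.linearIndependent_iff.mp hβ _ h2 l
  exact H.ker₀ ⟨a l, ha l⟩ h3

/-- **fundamental inequality, subspace form**. -/
theorem sum_finrank_le_of_range (H : SqueezeSetup Ov O ρ₀ ρ)
    (V : ∀ i, Submodule k₀ (Fk i)) [inst : ∀ i, Module.Finite k₀ (V i)]
    (hV : ∀ i, ∀ β ∈ V i, ∃ y : O i, ρ i y = β) :
    ∑ i, Module.finrank k₀ (V i) ≤ Module.finrank K₀ E := by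
  classical
  obtain ⟨c, hc, hcu⟩ := H.consts
  set b : ∀ i, Module.Basis (Fin (Module.finrank k₀ (V i))) k₀ (V i) :=
    fun i => Module.finBasis k₀ (V i) with hb
  have hli : ∀ i, LinearIndependent k₀ (fun l => ((b i l : V i) : Fk i)) := fun i =>
    (b i).linearIndependent.map' (V i).subtype (Submodule.ker_subtype _)
  choose y hy using fun (p : Σ i, Fin (Module.finrank k₀ (V i))) =>
    hV p.1 ((b p.1 p.2 : V p.1) : Fk p.1) (b p.1 p.2).2
  have hres : ∀ i, ResIndep Ov (O i) (fun l => ((y ⟨i, l⟩ : O i) : E)) := fun i =>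
    resIndep_of_lift H i _ (hli i) _ (fun l => (y ⟨i, l⟩).2) (fun l => hy ⟨i, l⟩)
  have := sum_card_le_finrank Ov O H.liesOver H.injective c hc hcu
    (fun i => Fin (Module.finrank k₀ (V i))) (fun i l => ((y ⟨i, l⟩ : O i) : E)) hres
  simpa using this

/-- **the squeeze**: if the subspaces `V i ⊆ ρ i (O i)` have total dimension `≥ [E : K₀]`, they are
the full residue fields. -/
theorem resField_squeeze (H : SqueezeSetup Ov O ρ₀ ρ)
    (V : ∀ i, Submodule k₀ (Fk i)) [∀ i, Module.Finite k₀ (V i)]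
    (hV : ∀ i, ∀ β ∈ V i, ∃ y : O i, ρ i y = β)
    (hdeg : Module.finrank K₀ E ≤ ∑ i, Module.finrank k₀ (V i))
    (i : ι) (y : O i) : ρ i y ∈ V i := by
  classical
  by_contra hy
  set V' : ∀ j, Submodule k₀ (Fk j) :=
    Function.update V i (V i ⊔ Submodule.span k₀ {ρ i y}) with hV'
  have hV'i : V' i = V i ⊔ Submodule.span k₀ {ρ i y} := by
    rw [hV', Function.update_self]
  have hV'j : ∀ j, j ≠ i → V' j = V j := by
    intro j hj
    rw [hV', Function.update_of_ne hj]
  have hfin : ∀ j, Module.Finite k₀ (V' j) := by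
    intro j
    by_cases hj : j = i
    · subst hj
      rw [hV'i]
      infer_instance
    · rw [hV'j j hj]
      infer_instance
  have hmem : ∀ j, ∀ β ∈ V' j, ∃ z : O j, ρ j z = β := by
    intro j β hβ
    by_cases hj : j = i
    · subst hj
      rw [hV'i, Submodule.mem_sup] at hβ
      obtain ⟨β₁, hβ₁, β₂, hβ₂, rfl⟩ := hβ
      obtain ⟨z₁, hz₁⟩ := hV j β₁ hβ₁
      obtain ⟨a, rfl⟩ := Submodule.mem_span_singleton.mp hβ₂
      obtain ⟨a', rfl⟩ := H.surj₀ a
      have ha' : algebraMap K₀ E (a' : K₀) ∈ O j := ((H.liesOver j).mem_iff _).mpr a'.2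
      refine ⟨z₁ + ⟨algebraMap K₀ E (a' : K₀), ha'⟩ * y, ?_⟩
      rw [map_add, map_mul, hz₁, H.compat j _ a'.2, Algebra.smul_def]
    · rw [hV'j j hj] at hβ
      exact hV j β hβ
  have hle := sum_finrank_le_of_range (inst := hfin) H V' hmem
  have hlt : ∑ j, Module.finrank k₀ (V j) < ∑ j, Module.finrank k₀ (V' j) := by
    refine Finset.sum_lt_sum (fun j _ => ?_) ⟨i, Finset.mem_univ i, ?_⟩
    · by_cases hj : j = i
      · subst hj
        have := hfin j
        refine Submodule.finrank_mono ?_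
        rw [hV'i]
        exact le_sup_left
      · rw [hV'j j hj]
    · have := hfin i
      refine Submodule.finrank_lt_finrank_of_lt ?_
      rw [hV'i]
      refine lt_of_le_of_ne le_sup_left (fun h => hy ?_)
      rw [h]
      exact Submodule.mem_sup_right (Submodule.mem_span_singleton_self _)
  omega

end Squeeze

end Fermat.Agent.S36
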