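/-
Cluster G (S36), block NORM (helper31): VALUES OF NORMS at a TOTALLY RAMIFIED place, general case
(no separability), and products of norms.

* `vnt_valAt_norm_totRam`  : `Q` over `P`, `e(Q | P) = [F : E]`, `h(Q) = c`  ⟹  `N_{F/E}(h)(P) = c ^ [F : E]`;
* `vnt_valAt_norm_totRam'` : the same, the norm seen in `F`, at `Q`;
* `vnt_valAt_mul`, `vnt_valAt_prod`, `vnt_valAt_pow` : values of products and powers.

Used for `N_{Fk_m / Fk0}(h_m)(P) = h_m(P_m) ^ e_m` (Igusa pair, Step 3 of the blueprint).
-/
import Mathlib
import Fermat.Agent.S36.Norm.ValNormX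

set_option autoImplicit false
set_option linter.unusedSectionVars false
set_option linter.style.haveILetI false

noncomputable section

namespace Fermat.Agent.S36

open AlgebraicCurve Fermat.Agent.RR Fermat.Agent.FF IntermediateField
open Fermat.Agent.BadRed (ValAt)

section Alg

variable {K F : Type*} [Field K] [Field F] [Algebra K F]

/-- values of products. -/
theorem vnt_valAt_mul (hF : IsRRField K F) (Q : Place K F) {f g : F} {a b : K}
    (hf : ValAt Q f a) (hg : ValAt Q g b) : ValAt Q (f * g) (a * b) := by
  rw [vnx_valAt_iff hF] at hf hg ⊢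
  refine ⟨mul_mem hf.1 hg.1, ?_⟩
  rw [valueAt_mul hF Q hf.1 hg.1, hf.2, hg.2]

/-- the value of `1`. -/
theorem vnt_valAt_one (Q : Place K F) : ValAt Q (1 : F) (1 : K) :=
  Or.inl (map_one _).symm

/-- values of powers. -/
theorem vnt_valAt_pow (hF : IsRRField K F) (Q : Place K F) {f : F} {a : K}
    (hf : ValAt Q f a) (n : ℕ) : ValAt Q (f ^ n) (a ^ n) := by
  induction n with
  | zero =>
    rw [pow_zero, pow_zero]
    exact vnt_valAt_one Q
  | succ n ih =>
    rw [pow_succ, pow_succ]
    exact vnt_valAt_mul hF Q ih hf

/-- values of finite products. -/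
theorem vnt_valAt_prod (hF : IsRRField K F) (Q : Place K F) {ι : Type*} (s : Finset ι)
    (f : ι → F) (a : ι → K) (hf : ∀ i ∈ s, ValAt Q (f i) (a i)) :
    ValAt Q (∏ i ∈ s, f i) (∏ i ∈ s, a i) := by
  classical
  induction s using Finset.induction_on with
  | empty =>
    rw [Finset.prod_empty, Finset.prod_empty]
    exact vnt_valAt_one Q
  | insert i s hi ih =>
    rw [Finset.prod_insert hi, Finset.prod_insert hi]
    exact vnt_valAt_mul hF Q (hf i (Finset.mem_insert_self i s))
      (ih fun j hj => hf j (Finset.mem_insert_of_mem hj))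

/-- a nonzero value is the value of a unit: the order is `0`. -/
theorem vnt_ord_eq_zero (hF : IsRRField K F) (Q : Place K F) {f : F} {a : K}
    (hf : ValAt Q f a) (ha : a ≠ 0) : Q.ord f = 0 := by
  rcases hf with h | h
  · rw [h]
    exact Fermat.Agent.S24Res.ord_algebraMap Q a
  · have hmem : f - algebraMap K F a ∈ Q.toValuationSubring :=
      Fermat.Agent.S24Res.mem_of_ord_nonneg Q h.le
    have hf' : f ∈ Q.toValuationSubring := by
      have := add_mem hmem (Q.algebraMap_mem' a)
      rwa [sub_add_cancel] at this
    have hv : valueAt hF Q f = a := valueAt_eq_of_ord_pos hF Q h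
    by_contra hne
    have h0 : valueAt hF Q f = 0 := by
      rw [valueAt_eq_zero_iff hF Q hf']
      by_cases hf0 : f = 0
      · exact Or.inl hf0
      · right
        have hnn : 0 ≤ Q.ord f := by
          have := (Place.adicValuation_le_one_iff Q).mp
            (Place.adicValuation_le_one_of_mem Q hf')
          rcases this with h1 | h1
          · exact absurd h1 hf0
          · exact h1
        omega
    exact ha (hv ▸ h0)

end Alg

section Tower

variable {K E F : Type*} [Field K] [Field E] [Field F] [Algebra K E] [Algebra K F] [Algebra E F]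
  [IsScalarTower K E F] [FiniteDimensional E F]

/-- **VAL-NORM at a totally ramified place** (general case). -/
theorem vnt_valAt_norm_totRam (hE : IsRRField K E) (hF : IsRRField K F) [Infinite K]
    (P : Place K E) (Q : Place K F) (hQ : Q.restrict E = P)
    (he : Q.ramificationIndex E = Module.finrank E F) (h : F) (c : K) (hc : ValAt Q h c) :
    ValAt P (Algebra.norm E h) (c ^ Module.finrank E F) := by
  classical
  have key := vnx_valAt_norm hE hF P {Q}
    (fun Q' hQ' => by rw [Finset.mem_singleton] at hQ'; rw [hQ']; exact hQ)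
    (by rw [Finset.sum_singleton]; exact he) h (fun _ => c)
    (fun Q' hQ' => by rw [Finset.mem_singleton] at hQ'; rw [hQ']; exact hc)
  rw [Finset.prod_singleton, he] at key
  exact key

/-- **VAL-NORM at a totally ramified place**, the norm seen in `F`. -/
theorem vnt_valAt_norm_totRam' (hE : IsRRField K E) (hF : IsRRField K F) [Infinite K]
    (Q : Place K F) (he : Q.ramificationIndex E = Module.finrank E F) (h : F) (c : K)
    (hc : ValAt Q h c) :
    ValAt Q (algebraMap E F (Algebra.norm E h)) (c ^ Module.finrank E F) := by
  rw [vnx_valAt_algebraMap_iff]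
  exact vnt_valAt_norm_totRam hE hF (Q.restrict E) Q rfl he h c hc

end Tower

end Fermat.Agent.S36
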