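/-
Cluster G (S36), block NORM, seat NORM-HOR (helper87), ABSTRACT part III: the TOWER squeeze.

`K₀ ⊆ E ⊆ F` finite, `Ov` a valuation ring of `K₀`, finitely many valuation rings `O i` of `F`
over `Ov` with residue maps `ρ i : O i → Fk i` ONTO, COMPLETE: `[F : K₀] ≤ ∑ i, [Fk i : k₀]`,
and with pairwise distinct restrictions to `E`.  Then for every `i` the residue field
`R i = ρ i (O i ∩ E)` of the restriction satisfies `[Fk i : R i] = [F : E]`
(`tower_squeeze`), hence the norm formula `ρ i (N_{F/E} t) = N_{Fk i / R i} (ρ i t)`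
(`normRed_tower`).
-/
import Mathlib
import Fermat.Agent.S36.Norm.HorAbs

set_option autoImplicit false
set_option linter.unusedSectionVars false

noncomputable section

namespace Fermat.Agent.S36

open Fermat.Agent.BadRed

section Tower

variable {K₀ E F : Type*} [Field K₀] [Field E] [Field F] [Algebra K₀ E] [Algebra E F]
  [Algebra K₀ F] [IsScalarTower K₀ E F]
  {ι : Type*} [Fintype ι]
  {Ov : ValuationSubring K₀} {O : ι → ValuationSubring F}
  {k₀ : Type*} [Field k₀] {ρ₀ : Ov →+* k₀}
  {Fk : ι → Type*} [∀ i, Field (Fk i)] [∀ i, Algebra k₀ (Fk i)]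
  {ρ : ∀ i, O i →+* Fk i}

/-- a ring homomorphism to a field kills only non-units. -/
theorem mem_nonunits_of_map_eq_zero {L M : Type*} [Field L] [Field M] {B : ValuationSubring L}
    (f : B →+* M) (y : B) (hy : f y = 0) : (y : L) ∈ B.nonunits := by
  rw [ValuationSubring.coe_mem_nonunits_iff]
  intro hu
  exact (hu.map f).ne_zero hy

variable (E) in
/-- the residue field of the restriction of `O i` to `E`, a subfield of `Fk i`. -/
def towerResField (H : SqueezeSetup Ov O ρ₀ ρ) (i : ι) : IntermediateField k₀ (Fk i) where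
  carrier := {β | ∃ (y : E) (hy : algebraMap E F y ∈ O i), ρ i ⟨algebraMap E F y, hy⟩ = β}
  mul_mem' := by
    rintro _ _ ⟨y, hy, rfl⟩ ⟨z, hz, rfl⟩
    have hyz : algebraMap E F (y * z) ∈ O i := by
      rw [map_mul]
      exact (O i).mul_mem _ _ hy hz
    refine ⟨y * z, hyz, ?_⟩
    rw [← map_mul]
    congr 1
    apply Subtype.ext
    exact map_mul _ _ _
  add_mem' := by
    rintro _ _ ⟨y, hy, rfl⟩ ⟨z, hz, rfl⟩
    have hyz : algebraMap E F (y + z) ∈ O i := by
      rw [map_add]
      exact (O i).add_mem _ _ hy hz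
    refine ⟨y + z, hyz, ?_⟩
    rw [← map_add]
    congr 1
    apply Subtype.ext
    exact map_add _ _ _
  algebraMap_mem' := by
    intro c
    obtain ⟨a, rfl⟩ := H.surj₀ c
    have ha : algebraMap K₀ F (a : K₀) ∈ O i := ((H.liesOver i).mem_iff _).mpr a.2
    have ha' : algebraMap E F (algebraMap K₀ E (a : K₀)) ∈ O i := by
      rw [← IsScalarTower.algebraMap_apply]
      exact ha
    refine ⟨algebraMap K₀ E (a : K₀), ha', ?_⟩
    rw [← H.compat i (a : K₀) a.2 ha]
    congr 1
    apply Subtype.ext
    exact (IsScalarTower.algebraMap_apply K₀ E F _).symm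
  inv_mem' := by
    rintro _ ⟨y, hy, rfl⟩
    by_cases h0 : ρ i ⟨algebraMap E F y, hy⟩ = 0
    · rw [h0, inv_zero]
      have h00 : algebraMap E F 0 ∈ O i := by
        rw [map_zero]
        exact (O i).zero_mem
      refine ⟨0, h00, ?_⟩
      have : (⟨algebraMap E F 0, h00⟩ : O i) = 0 := by
        apply Subtype.ext
        exact map_zero _
      rw [this, map_zero]
    · have hnn : algebraMap E F y ∉ (O i).nonunits := fun hn => h0 (H.ker i _ hn)
      have hu : IsUnit (⟨algebraMap E F y, hy⟩ : O i) := by
        rw [← not_not (a := IsUnit _)]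
        intro hnu
        exact hnn ((ValuationSubring.coe_mem_nonunits_iff (A := O i)).mpr hnu)
      have hv : (O i).valuation (algebraMap E F y) = 1 :=
        (ValuationSubring.valuation_eq_one_iff (O i) ⟨algebraMap E F y, hy⟩).mp hu
      have hinv : algebraMap E F y⁻¹ ∈ O i := by
        rw [map_inv₀, ← ValuationSubring.valuation_le_one_iff, map_inv₀, hv, inv_one]
      refine ⟨y⁻¹, hinv, ?_⟩
      have hy0 : algebraMap E F y ≠ 0 := by
        intro h
        rw [h, map_zero] at hv
        exact zero_ne_one hv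
      have hmul : (⟨algebraMap E F y⁻¹, hinv⟩ : O i) * ⟨algebraMap E F y, hy⟩ = 1 := by
        apply Subtype.ext
        show algebraMap E F y⁻¹ * algebraMap E F y = 1
        rw [map_inv₀, inv_mul_cancel₀ hy0]
      have h1 := congrArg (ρ i) hmul
      rw [map_mul, map_one] at h1
      exact eq_inv_of_mul_eq_one_left h1

theorem mem_towerResField (H : SqueezeSetup Ov O ρ₀ ρ) (i : ι) (β : Fk i) :
    β ∈ towerResField E H i ↔
      ∃ (y : E) (hy : algebraMap E F y ∈ O i), ρ i ⟨algebraMap E F y, hy⟩ = β := Iff.rfl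

/-- the residue map of the restriction, with values in its residue field. -/
def towerRes (H : SqueezeSetup Ov O ρ₀ ρ) (i : ι) :
    (O i).comap (algebraMap E F) →+* ↥(towerResField E H i) :=
  (horRes (E := E) (O i) (ρ i)).codRestrict (towerResField E H i).toSubring
    (fun y => ⟨(y : E), y.2, rfl⟩)

theorem coe_towerRes (H : SqueezeSetup Ov O ρ₀ ρ) (i : ι) (y : (O i).comap (algebraMap E F)) :
    ((towerRes H i y : ↥(towerResField E H i)) : Fk i) = ρ i ⟨algebraMap E F (y : E), y.2⟩ := rfl

theorem towerRes_surjective (H : SqueezeSetup Ov O ρ₀ ρ) (i : ι) :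
    Function.Surjective (towerRes (E := E) H i) := by
  rintro ⟨β, y, hy, rfl⟩
  exact ⟨⟨y, hy⟩, rfl⟩

/-- the setup of the restrictions to `E`, over `K₀`. -/
theorem squeezeSetup_bot (H : SqueezeSetup Ov O ρ₀ ρ)
    (hdist : Function.Injective fun i => (O i).comap (algebraMap E F)) :
    SqueezeSetup Ov (fun i => (O i).comap (algebraMap E F)) ρ₀ (fun i => towerRes (E := E) H i) where
  liesOver i := by
    have h := H.liesOver i
    unfold LiesOverV at h ⊢
    rw [← h]
    ext a
    show algebraMap E F (algebraMap K₀ E a) ∈ O i ↔ algebraMap K₀ F a ∈ O i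
    rw [← IsScalarTower.algebraMap_apply]
  injective := hdist
  surj₀ := H.surj₀
  ker₀ := H.ker₀
  ker i y hy := by
    apply Subtype.ext
    rw [coe_towerRes]
    show ρ i _ = 0
    apply H.ker i
    rw [ValuationSubring.mem_nonunits_iff] at hy ⊢
    have h1 : ((O i).comap (algebraMap E F)).valuation (y : E) < 1 := hy
    by_contra hcon
    rw [not_lt] at hcon
    have hv : (O i).valuation (algebraMap E F (y : E)) = 1 :=
      le_antisymm ((ValuationSubring.valuation_le_one_iff _ _).mpr y.2) hcon
    have hy0 : (y : E) ≠ 0 := by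
      intro h0
      rw [h0, map_zero, map_zero] at hv
      exact zero_ne_one hv
    have hinv : (y : E)⁻¹ ∈ (O i).comap (algebraMap E F) := by
      show algebraMap E F (y : E)⁻¹ ∈ O i
      rw [map_inv₀, ← ValuationSubring.valuation_le_one_iff, map_inv₀, hv, inv_one]
    have h2 : ((O i).comap (algebraMap E F)).valuation (y : E)⁻¹ ≤ 1 :=
      (ValuationSubring.valuation_le_one_iff _ _).mpr hinv
    rw [map_inv₀] at h2
    have h3 : (1 : _) ≤ ((O i).comap (algebraMap E F)).valuation (y : E) := by
      have hne : ((O i).comap (algebraMap E F)).valuation (y : E) ≠ 0 := by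
        rw [Ne, map_eq_zero]
        exact hy0
      exact (inv_le_one₀ (zero_lt_iff.mpr hne)).mp h2
    exact absurd h1 (not_lt.mpr h3)
  compat i a ha ha' := by
    apply Subtype.ext
    have ha'' : algebraMap K₀ F a ∈ O i := ((H.liesOver i).mem_iff _).mpr ha
    have h1 : ((algebraMap k₀ ↥(towerResField E H i) (ρ₀ ⟨a, ha⟩) : ↥(towerResField E H i)) :
        Fk i) = algebraMap k₀ (Fk i) (ρ₀ ⟨a, ha⟩) := rfl
    rw [h1, ← H.compat i a ha ha'']
    show ρ i ⟨algebraMap E F (algebraMap K₀ E a), ha'⟩ = ρ i ⟨algebraMap K₀ F a, ha''⟩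
    congr 1
    apply Subtype.ext
    exact (IsScalarTower.algebraMap_apply K₀ E F _).symm
  consts := H.consts

/-- the setup of `O i` over its restriction to `E`. -/
theorem squeezeSetup_top (H : SqueezeSetup Ov O ρ₀ ρ) (i : ι) :
    SqueezeSetup (ι := Unit) (Fk := fun _ => Fk i) ((O i).comap (algebraMap E F))
      (fun _ => O i) (towerRes (E := E) H i) (fun _ => ρ i) where
  liesOver _ := rfl
  injective _ _ _ := Subsingleton.elim _ _
  surj₀ := towerRes_surjective H i
  ker₀ y hy := mem_nonunits_of_map_eq_zero _ y hy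
  ker _ y hy := H.ker i y hy
  compat _ a ha ha' := rfl
  consts := by
    obtain ⟨c, hc, hcu⟩ := H.consts
    have hover : LiesOverV Ov ((O i).comap (algebraMap E F)) := by
      have h := H.liesOver i
      unfold LiesOverV at h ⊢
      rw [← h]
      ext a
      show algebraMap E F (algebraMap K₀ E a) ∈ O i ↔ algebraMap K₀ F a ∈ O i
      rw [← IsScalarTower.algebraMap_apply]
    refine ⟨fun m => algebraMap K₀ E (c m), fun m => (hover.mem_iff _).mpr (hc m), ?_⟩
    intro m m' hmm
    rw [← map_sub, hover.nonunits_iff]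
    exact hcu m m' hmm

/-- **the tower squeeze**: if the `O i` are complete over `Ov` (`[F : K₀] ≤ ∑ [Fk i : k₀]`) and
have pairwise distinct restrictions to `E`, then `[Fk i : R i] = [F : E]` for the residue field
`R i` of the restriction of `O i` to `E`. -/
theorem tower_squeeze [FiniteDimensional K₀ F] [∀ i, Module.Finite k₀ (Fk i)]
    (H : SqueezeSetup Ov O ρ₀ ρ)
    (hdist : Function.Injective fun i => (O i).comap (algebraMap E F))
    (hsurj : ∀ i, Function.Surjective (ρ i))
    (hcomplete : Module.finrank K₀ F ≤ ∑ i, Module.finrank k₀ (Fk i)) (i : ι) :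
    Module.finrank ↥(towerResField E H i) (Fk i) = Module.finrank E F := by
  classical
  have hFE : FiniteDimensional E F := FiniteDimensional.right K₀ E F
  have hEK : FiniteDimensional K₀ E := FiniteDimensional.left K₀ E F
  have hfinR : ∀ j, Module.Finite ↥(towerResField E H j) (Fk j) := fun j =>
    Module.Finite.of_restrictScalars_finite k₀ ↥(towerResField E H j) (Fk j)
  -- (a) the top inequalities
  have ha : ∀ j, Module.finrank ↥(towerResField E H j) (Fk j) ≤ Module.finrank E F := by
    intro j
    have hfin : ∀ _u : Unit, Module.Finite ↥(towerResField E H j)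
        ↥(⊤ : Submodule ↥(towerResField E H j) (Fk j)) := fun _ => inferInstance
    have h := sum_finrank_le_of_range (ι := Unit) (Fk := fun _ => Fk j) (inst := hfin)
      (squeezeSetup_top (E := E) H j) (fun _ => ⊤) (fun _ β _ => hsurj j β)
    simpa using h
  -- (b) the bottom inequality
  have hb : ∑ j, Module.finrank k₀ ↥(towerResField E H j) ≤ Module.finrank K₀ E := by
    have hfin : ∀ j, Module.Finite k₀ ↥(⊤ : Submodule k₀ ↥(towerResField E H j)) :=
      fun _ => inferInstance
    have h := sum_finrank_le_of_range (inst := hfin) (squeezeSetup_bot (E := E) H hdist)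
      (fun _ => ⊤) (fun j β _ => towerRes_surjective H j β)
    simpa using h
  -- (c), (d) the towers
  have hc : ∀ j, Module.finrank k₀ ↥(towerResField E H j) *
      Module.finrank ↥(towerResField E H j) (Fk j) = Module.finrank k₀ (Fk j) := fun j =>
    Module.finrank_mul_finrank k₀ ↥(towerResField E H j) (Fk j)
  have hd : Module.finrank K₀ E * Module.finrank E F = Module.finrank K₀ F :=
    Module.finrank_mul_finrank K₀ E F
  have hpos : ∀ j, 0 < Module.finrank k₀ ↥(towerResField E H j) := fun j => Module.finrank_pos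
  -- (e) arithmetic
  by_contra hne
  have hlt : Module.finrank ↥(towerResField E H i) (Fk i) < Module.finrank E F :=
    lt_of_le_of_ne (ha i) hne
  have h1 : ∑ j, Module.finrank k₀ (Fk j) <
      ∑ j, Module.finrank k₀ ↥(towerResField E H j) * Module.finrank E F := by
    refine Finset.sum_lt_sum (fun j _ => ?_) ⟨i, Finset.mem_univ i, ?_⟩
    · rw [← hc j]
      exact Nat.mul_le_mul_left _ (ha j)
    · rw [← hc i]
      exact Nat.mul_lt_mul_of_pos_left hlt (hpos i)
  rw [← Finset.sum_mul] at h1
  have h2 : (∑ j, Module.finrank k₀ ↥(towerResField E H j)) * Module.finrank E F ≤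
      Module.finrank K₀ E * Module.finrank E F := Nat.mul_le_mul_right _ hb
  omega

/-- **NORM-HOR, tower form**: under the hypotheses of the tower squeeze, the norm of an integral
element reduces to the norm of its reduction over the residue field of the restriction. -/
theorem normRed_tower [FiniteDimensional K₀ F] [∀ i, Module.Finite k₀ (Fk i)]
    (H : SqueezeSetup Ov O ρ₀ ρ)
    (hdist : Function.Injective fun i => (O i).comap (algebraMap E F))
    (hsurj : ∀ i, Function.Surjective (ρ i))
    (hcomplete : Module.finrank K₀ F ≤ ∑ i, Module.finrank k₀ (Fk i)) (i : ι)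
    (t : F) (ht : t ∈ O i) :
    ∃ h : algebraMap E F (Algebra.norm E t) ∈ O i,
      ρ i ⟨algebraMap E F (Algebra.norm E t), h⟩ =
        algebraMap ↥(towerResField E H i) (Fk i)
          (Algebra.norm ↥(towerResField E H i) (ρ i ⟨t, ht⟩)) := by
  have hFE : FiniteDimensional E F := FiniteDimensional.right K₀ E F
  have hfinR : Module.Finite ↥(towerResField E H i) (Fk i) :=
    Module.Finite.of_restrictScalars_finite k₀ ↥(towerResField E H i) (Fk i)
  refine normRed_hor (Ek := ↥(towerResField E H i)) (hsurj i) ?_ ?_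
    (tower_squeeze H hdist hsurj hcomplete i).symm t ht
  · intro y hy
    exact H.ker i y ((ValuationSubring.coe_mem_nonunits_iff (A := O i)).mpr hy)
  · intro y hy
    exact ⟨⟨ρ i ⟨algebraMap E F y, hy⟩, y, hy, rfl⟩, rfl⟩

end Tower

end Fermat.Agent.S36
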