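/-
Cluster G (S36), blocks W-P / NORM-HOR, seat SQUEEZE (helper96; sub-architects helper59, helper87).

**The residue fields of the restrictions of `w_P` to the two copies `π₁^* F₁ = α F₁` and
`π₂^* F₁ = β F₁` of `F₁ = F_{M₀ q}` in `F = F_{M₀ q²}` are `k(W̄) = k(X₁)` and `k(Z̄c) = k(X₂)`,
and the norm formulas (N3), (N3').**

ABSTRACT (`hsq_*`): `K ⊆ F₀ ⊆ F₁ ⊆ F`, `S : ValSetup K F k Fk`, `k` infinite;
  `hsq_base`          : the `SqueezeSetup` of `S` over the constants;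
  `hsq_mid`           : the `SqueezeSetup` of `S` over its restriction to `F₀`;
  `hsq_residue_mem`   : if the residue field of `S | F₀` is `k(Y)`, `[F : F₀] ≤ [Fk : k(Y)]`, and
                        `X` is the residue of an element of `F₁` with `[Fk : k(X)] = [F : F₁]`, then
                        the residue field of `S | F₁` is `k(X)` (tower squeeze);
  `hsq_normRed`       : `red (N_{F/F₁} t) = N_{Fk/k(X)} (red t)` for `t ∈ O`.
MODULAR (`wpsq_*`), `O : WPOut M₀ q A S0 P FkP`: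
  `wpsq_alpha_mem`, `wpsq_beta_mem` : `red_w (α y) ∈ k(X₁)`, `red_w (β y) ∈ k(X₂)`;
  `wpsq_alpha_surj`, `wpsq_beta_surj` : every element of `k(X₁)` (`k(X₂)`) is such a residue;
  `wpsq_normRed_alpha` **(N3)**, `wpsq_normRed_beta` **(N3')**.
-/
import Mathlib
import Fermat.Agent.S36.HPVal.Defs
import Fermat.Agent.S36.Norm.HorTower
import Fermat.Agent.Lib.HP.Deg
import Fermat.Agent.Lib.FrobTrace.Residue

set_option autoImplicit false
set_option linter.style.haveILetI false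
set_option linter.unusedSectionVars false
set_option synthInstance.maxHeartbeats 400000

noncomputable section

namespace Fermat.Agent.S36G

open ModularCurve AlgebraicCurve IntermediateField Fermat.Agent.F3 Fermat.Agent.F3G
  Fermat.Agent.GaussInt Fermat.Agent.Deuring Fermat.Agent.BadRed Fermat.Agent.HP
  Fermat.Agent.S36

local notation "Qb" => AlgebraicClosure ℚ

/-! ### the `SqueezeSetup` of a constant reduction -/

section Base

variable {K F k Fk : Type*} [Field K] [Field F] [Algebra K F] [Field k] [Field Fk] [Algebra k Fk]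

/-- a constant reduction `S` as a `SqueezeSetup` over the constants. -/
theorem hsq_base (S : ValSetup K F k Fk) [Infinite k] :
    SqueezeSetup (ι := Unit) (Fk := fun _ => Fk) S.A (fun _ => S.Ov) S.res (fun _ => S.ρ) where
  liesOver _ := by
    unfold LiesOverV
    ext c
    exact S.mem_Ov_iff c
  injective _ _ _ := Subsingleton.elim _ _
  surj₀ := S.res_surj
  ker₀ y hy := mem_nonunits_of_map_eq_zero _ y hy
  ker _ y hy := by
    rw [S.ρ_eq_zero_iff]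
    exact (ValuationSubring.coe_mem_nonunits_iff).mp hy
  compat _ a ha ha' := S.ρ_algebraMap a ha ha'
  consts := by
    classical
    let e : ℕ ↪ k := Infinite.natEmbedding k
    choose c hc using fun m => S.res_surj (e m)
    refine ⟨fun m => (c m : K), fun m => (c m).2, fun m m' hmm' hnu => ?_⟩
    have h1 : ((c m - c m' : S.A) : K) ∈ S.A.nonunits := hnu
    have h2 : ¬ IsUnit (c m - c m') := (ValuationSubring.coe_mem_nonunits_iff).mp h1
    have h3 : S.res (c m - c m') ≠ 0 := by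
      rw [map_sub, hc, hc, sub_ne_zero]
      exact fun h => hmm' (e.injective h)
    apply h3
    -- a non-unit of `A` is a non-unit of `Ov`, hence has residue `0`
    have hmem : algebraMap K F ((c m - c m' : S.A) : K) ∈ S.Ov :=
      (S.mem_Ov_iff _).mpr (c m - c m').2
    have hnonunit : ¬ IsUnit (⟨algebraMap K F ((c m - c m' : S.A) : K), hmem⟩ : S.Ov) := by
      intro hU
      apply h2
      have hv : S.Ov.valuation (algebraMap K F ((c m - c m' : S.A) : K)) = 1 :=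
        (ValuationSubring.valuation_eq_one_iff S.Ov _).mp hU
      have hne : ((c m - c m' : S.A) : K) ≠ 0 := by
        intro h0
        rw [h0, map_zero, map_zero] at hv
        exact zero_ne_one hv
      have hinv : (((c m - c m' : S.A) : K))⁻¹ ∈ S.A := by
        rw [← S.mem_Ov_iff, map_inv₀, ← ValuationSubring.valuation_le_one_iff, map_inv₀, hv,
          inv_one]
      refine ⟨⟨c m - c m', ⟨_, hinv⟩, ?_, ?_⟩, rfl⟩
      · apply Subtype.ext
        exact mul_inv_cancel₀ hne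
      · apply Subtype.ext
        exact inv_mul_cancel₀ hne
    have hz := (S.ρ_eq_zero_iff _).mpr hnonunit
    rw [S.ρ_algebraMap _ (c m - c m').2 hmem] at hz
    exact (map_eq_zero_iff _ (algebraMap k Fk).injective).mp hz

end Base

/-! ### the abstract squeeze over the middle copy -/

section Abs

variable {K F₀ F₁ F k Fk : Type*} [Field K] [Field F₀] [Field F₁] [Field F]
  [Algebra K F₀] [Algebra K F] [Field k] [Field Fk] [Algebra k Fk]
  [Algebra F₀ F₁] [Algebra F₁ F] [Algebra F₀ F] [IsScalarTower F₀ F₁ F] [IsScalarTower K F₀ F]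

/-- the residue field of the restriction of `S` to `F₀`, as an intermediate field of `Fk / k`. -/
def hsqRes0 (S : ValSetup K F k Fk) [Infinite k] : IntermediateField k Fk :=
  towerResField F₀ (hsq_base S) ()

theorem mem_hsqRes0 (S : ValSetup K F k Fk) [Infinite k] (β : Fk) :
    β ∈ hsqRes0 (F₀ := F₀) S ↔
      ∃ (y : F₀) (hy : algebraMap F₀ F y ∈ S.Ov), S.ρ ⟨algebraMap F₀ F y, hy⟩ = β := Iff.rfl

/-- `S` as a `SqueezeSetup` over its restriction to `F₀`. -/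
theorem hsq_mid (S : ValSetup K F k Fk) [Infinite k] :
    SqueezeSetup (ι := Unit) (Fk := fun _ => Fk) (S.Ov.comap (algebraMap F₀ F))
      (fun _ => S.Ov) (towerRes (E := F₀) (hsq_base S) ()) (fun _ => S.ρ) :=
  squeezeSetup_top (E := F₀) (hsq_base S) ()

/-- the residue field of `S | F₀` is `k(Y)` as soon as it is contained in `k(Y)` and contains
`Y`. -/
theorem hsqRes0_eq (S : ValSetup K F k Fk) [Infinite k] (Yf : Fk)
    (hresY : ∀ g : F₀, algebraMap F₀ F g ∈ S.Ov → S.red (algebraMap F₀ F g) ∈ k⟮Yf⟯)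
    (hY : ∃ y₀ : F₀, algebraMap F₀ F y₀ ∈ S.Ov ∧ S.red (algebraMap F₀ F y₀) = Yf) :
    hsqRes0 (F₀ := F₀) S = k⟮Yf⟯ := by
  apply le_antisymm
  · rintro β ⟨y, hy, rfl⟩
    rw [← S.red_of_mem hy]
    exact hresY y hy
  · rw [IntermediateField.adjoin_simple_le_iff]
    obtain ⟨y₀, hy₀, hy₀'⟩ := hY
    exact ⟨y₀, hy₀, by rw [← S.red_of_mem hy₀, hy₀']⟩

/-- **(SQUEEZE, abstract)** the residue field of `S | F₁` is contained in `k(X)`. -/
theorem hsq_residue_mem (S : ValSetup K F k Fk) [Infinite k] [FiniteDimensional F₀ F]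
    (Yf X : Fk)
    (hresY : ∀ g : F₀, algebraMap F₀ F g ∈ S.Ov → S.red (algebraMap F₀ F g) ∈ k⟮Yf⟯)
    (hY : ∃ y₀ : F₀, algebraMap F₀ F y₀ ∈ S.Ov ∧ S.red (algebraMap F₀ F y₀) = Yf)
    [FiniteDimensional k⟮Yf⟯ Fk] (hdegY : Module.finrank F₀ F ≤ Module.finrank k⟮Yf⟯ Fk)
    (hX : ∃ w : F₁, algebraMap F₁ F w ∈ S.Ov ∧ S.red (algebraMap F₁ F w) = X)
    [FiniteDimensional k⟮X⟯ Fk] (hdegX : Module.finrank k⟮X⟯ Fk = Module.finrank F₁ F)
    (y : F₁) (hy : algebraMap F₁ F y ∈ S.Ov) : S.red (algebraMap F₁ F y) ∈ k⟮X⟯ := by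
  classical
  have hR0 := hsqRes0_eq (F₀ := F₀) S Yf hresY hY
  -- the setup over the middle copy
  have H := hsq_mid (F₀ := F₀) S
  haveI hfin0 : Module.Finite ↥(towerResField F₀ (hsq_base S) ()) Fk := by
    have : Module.Finite ↥(hsqRes0 (F₀ := F₀) S) Fk := by
      rw [hR0]
      infer_instance
    exact this
  have hcomplete : Module.finrank F₀ F ≤
      ∑ _i : Unit, Module.finrank ↥(towerResField F₀ (hsq_base S) ()) Fk := by
    have h1 : Module.finrank ↥(hsqRes0 (F₀ := F₀) S) Fk = Module.finrank k⟮Yf⟯ Fk := by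
      rw [hR0]
    have h2 : Module.finrank ↥(towerResField F₀ (hsq_base S) ()) Fk =
        Module.finrank k⟮Yf⟯ Fk := h1
    simpa [h2] using hdegY
  haveI : ∀ _i : Unit, Module.Finite ↥(towerResField F₀ (hsq_base S) ()) Fk := fun _ => hfin0
  have hsq := tower_squeeze (E := F₁) (Fk := fun _ : Unit => Fk) H
    (fun _ _ _ => Subsingleton.elim _ _) (fun _ => S.ρ_surj) hcomplete ()
  -- the residue field of the restriction to `F₁`, over `k`
  set R := towerResField F₁ H () with hRdef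
  let R' : IntermediateField k Fk := R.restrictScalars k
  have hle : k⟮X⟯ ≤ R' := by
    rw [IntermediateField.adjoin_simple_le_iff]
    obtain ⟨w, hw, hwX⟩ := hX
    exact ⟨w, hw, by rw [← S.red_of_mem hw, hwX]⟩
  have hrank : Module.finrank k⟮X⟯ Fk = Module.finrank ↥R' Fk := by
    rw [hdegX]
    exact hsq.symm
  have heq : k⟮X⟯ = R' := IntermediateField.eq_of_le_of_finrank_eq' hle hrank
  rw [heq]
  exact ⟨y, hy, (S.red_of_mem hy).symm⟩

/-- **(N3), abstract**: the norm formula over the restriction of `S` to `F₁`. -/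
theorem hsq_normRed (S : ValSetup K F k Fk) [Infinite k] [FiniteDimensional F₀ F]
    (Yf X : Fk)
    (hresY : ∀ g : F₀, algebraMap F₀ F g ∈ S.Ov → S.red (algebraMap F₀ F g) ∈ k⟮Yf⟯)
    (hY : ∃ y₀ : F₀, algebraMap F₀ F y₀ ∈ S.Ov ∧ S.red (algebraMap F₀ F y₀) = Yf)
    [FiniteDimensional k⟮Yf⟯ Fk] (hdegY : Module.finrank F₀ F ≤ Module.finrank k⟮Yf⟯ Fk)
    (hX : ∃ w : F₁, algebraMap F₁ F w ∈ S.Ov ∧ S.red (algebraMap F₁ F w) = X)
    [FiniteDimensional k⟮X⟯ Fk] (hdegX : Module.finrank k⟮X⟯ Fk = Module.finrank F₁ F)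
    (t : F) (ht : t ∈ S.Ov) :
    algebraMap F₁ F (Algebra.norm F₁ t) ∈ S.Ov ∧
      S.red (algebraMap F₁ F (Algebra.norm F₁ t)) =
        algebraMap k⟮X⟯ Fk (Algebra.norm k⟮X⟯ (S.red t)) := by
  haveI : Module.Finite F₁ F := FiniteDimensional.right F₀ F₁ F
  have hR1 : ∀ (y : F₁) (hy : algebraMap F₁ F y ∈ S.Ov),
      S.ρ ⟨algebraMap F₁ F y, hy⟩ ∈ (algebraMap k⟮X⟯ Fk).range := by
    intro y hy
    have h := hsq_residue_mem (F₀ := F₀) S Yf X hresY hY hdegY hX hdegX y hy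
    rw [S.red_of_mem hy] at h
    exact ⟨⟨_, h⟩, rfl⟩
  have hker : ∀ y : S.Ov, ¬ IsUnit y → S.ρ y = 0 := fun y hy => (S.ρ_eq_zero_iff y).mpr hy
  obtain ⟨h, hh⟩ := normRed_hor (Ek := k⟮X⟯) S.ρ_surj hker hR1 hdegX.symm t ht
  refine ⟨h, ?_⟩
  rw [S.red_of_mem h, hh, S.red_of_mem ht]

/-- the residue field of `S | F₀` contains `k(X)` for every residue `X` of an element of `F₀`. -/
theorem hsq_residue_surj (S : ValSetup K F k Fk) [Infinite k] (X : Fk)
    (hX : ∃ w : F₀, algebraMap F₀ F w ∈ S.Ov ∧ S.red (algebraMap F₀ F w) = X)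
    (β : Fk) (hβ : β ∈ k⟮X⟯) :
    ∃ y : F₀, algebraMap F₀ F y ∈ S.Ov ∧ S.red (algebraMap F₀ F y) = β := by
  have hle : k⟮X⟯ ≤ hsqRes0 (F₀ := F₀) S := by
    rw [IntermediateField.adjoin_simple_le_iff]
    obtain ⟨w, hw, hwX⟩ := hX
    exact ⟨w, hw, by rw [← S.red_of_mem hw, hwX]⟩
  obtain ⟨y, hy, hyβ⟩ := hle hβ
  exact ⟨y, hy, by rw [S.red_of_mem hy, hyβ]⟩

end Abs

/-! ### the modular wiring: `w_P` over `α F₁` and `β F₁` -/

section Modular

variable {M₀ q : ℕ} [NeZero M₀] [NeZero q] {A : ValuationSubring Qb}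
  {S0 : Fermat.Agent.S18Key.RedSetup Qb (FBar M₀) (IsLocalRing.ResidueField A)
    ↥(modularFunctionFieldFullC (IsLocalRing.ResidueField A) M₀)}
  {P : Place (IsLocalRing.ResidueField A)
    ↥(modularFunctionFieldFullC (IsLocalRing.ResidueField A) M₀)}
  {FkP : Type} [Field FkP] [Algebra (IsLocalRing.ResidueField A) FkP]

/-- `q + 1 ≠ 0` in the residue field. -/
theorem wpsq_succ_ne_zero (hq : q.Prime) (hA : A.LiesOverPrime q) :
    ((q + 1 : ℕ) : IsLocalRing.ResidueField A) ≠ 0 := by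
  haveI : Fact q.Prime := ⟨hq⟩
  haveI := Fermat.Agent.FrobTrace.charP_residueField A hA
  rw [Nat.cast_add, CharP.cast_eq_zero (IsLocalRing.ResidueField A) q, zero_add, Nat.cast_one]
  exact one_ne_zero

/-- `W` lies in `α F₁`. -/
theorem wpsq_W_eq (t : FBar M₀) (a ϖ : Qb) :
    heckeAlphaBar Qb (M₀ * q) q
        ((heckeAlphaBar Qb M₀ q t - algebraMap Qb (FBar (M₀ * q)) a) /
          algebraMap Qb (FBar (M₀ * q)) ϖ) = wpW M₀ q t a ϖ := by
  rw [map_div₀, map_sub, AlgHom.commutes, AlgHom.commutes]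
  rfl

/-- `Zc` lies in `β F₁`. -/
theorem wpsq_Z_eq (t : FBar M₀) (a ϖ : Qb) :
    heckeBetaBar Qb (M₀ * q) q
        ((heckeBetaBar Qb M₀ q t - algebraMap Qb (FBar (M₀ * q)) a) /
          algebraMap Qb (FBar (M₀ * q)) ϖ) = wpZ M₀ q t a ϖ := by
  rw [map_div₀, map_sub, AlgHom.commutes, AlgHom.commutes]
  rfl

/-- `Y` lies in `ι₁ F₀`. -/
theorem wpsq_Y_eq (t : FBar M₀) (a ϖ : Qb) :
    wpdIota1 M₀ q
        ((t - algebraMap Qb (FBar M₀) (a ^ q)) / algebraMap Qb (FBar M₀) (ϖ ^ q)) =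
      wpY M₀ q t a ϖ := by
  rw [map_div₀, map_sub, AlgHom.commutes, AlgHom.commutes]
  rfl

variable (O : WPOut M₀ q A S0 P FkP)

/-- **(SQUEEZE, π₁)** the residue field of `w_P` restricted to `α F₁` is contained in `k(X₁)`
(hence equal to it: `X₁ = red W`). -/
theorem wpsq_alpha_mem (hq : q.Prime) (hqM : ¬ q ∣ M₀) (hA : A.LiesOverPrime q)
    (y : FBar (M₀ * q)) (hy : heckeAlphaBar Qb (M₀ * q) q y ∈ O.S.Ov) :
    O.S.red (heckeAlphaBar Qb (M₀ * q) q y) ∈ (IsLocalRing.ResidueField A)⟮O.H.X1⟯ := by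
  haveI := Fermat.Agent.FrobTrace.isAlgClosed_residueField A
  haveI : Infinite (IsLocalRing.ResidueField A) := IsAlgClosed.instInfinite
  have hq1 := wpsq_succ_ne_zero (A := A) hq hA
  letI a01 : Algebra (FBar M₀) (FBar (M₀ * q)) := algebraAlong (heckeBetaBar Qb M₀ q)
  letI a12 : Algebra (FBar (M₀ * q)) (FBar (M₀ * q * q)) :=
    algebraAlong (heckeAlphaBar Qb (M₀ * q) q)
  letI a02 : Algebra (FBar M₀) (FBar (M₀ * q * q)) := algebraAlong (wpdIota1 M₀ q)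
  haveI : IsScalarTower (FBar M₀) (FBar (M₀ * q)) (FBar (M₀ * q * q)) :=
    IsScalarTower.of_algebraMap_eq fun x => rfl
  haveI : IsScalarTower Qb (FBar M₀) (FBar (M₀ * q * q)) :=
    IsScalarTower.of_algebraMap_eq fun c => ((wpdIota1 M₀ q).commutes c).symm
  obtain ⟨hfd, hrank⟩ := wpd_finrank_iota1 M₀ q hq hqM
  haveI : FiniteDimensional (FBar M₀) (FBar (M₀ * q * q)) := hfd
  haveI := O.H.finiteDimensional_Yf hq1
  haveI := O.H.finiteDimensional_X1
  obtain ⟨-, hα⟩ := Fermat.Agent.S36N.finrank_alpha (N := M₀ * q) (ℓ := q) hq (dvd_mul_left q M₀)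
  refine hsq_residue_mem (F₀ := FBar M₀) (F₁ := FBar (M₀ * q)) O.S O.H.Yf O.H.X1
    (fun g hg => O.res_Y g hg) ?_ ?_ ?_ ?_ y hy
  · refine ⟨(O.t - algebraMap Qb (FBar M₀) (O.a ^ q)) / algebraMap Qb (FBar M₀) (O.ϖ ^ q), ?_, ?_⟩
    · show wpdIota1 M₀ q _ ∈ O.S.Ov
      rw [wpsq_Y_eq]
      exact O.Y_mem
    · show O.S.red (wpdIota1 M₀ q _) = O.H.Yf
      rw [wpsq_Y_eq]
      exact O.red_Y
  · rw [hrank, O.H.finrank_Yf hq1]
  · refine ⟨(heckeAlphaBar Qb M₀ q O.t - algebraMap Qb (FBar (M₀ * q)) O.a) /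
      algebraMap Qb (FBar (M₀ * q)) O.ϖ, ?_, ?_⟩
    · show heckeAlphaBar Qb (M₀ * q) q _ ∈ O.S.Ov
      rw [wpsq_W_eq]
      exact O.W_mem
    · show O.S.red (heckeAlphaBar Qb (M₀ * q) q _) = O.H.X1
      rw [wpsq_W_eq]
      exact O.red_W
  · rw [O.H.finrank_X1 hq1]
    exact hα.symm

/-- **(N3)** the norm formula for `w_P` over `α F₁`:
`red_w (α (N_α t)) = N_{k(H_P) / k(X₁)} (red_w t)` for `t ∈ O_w`. -/
theorem wpsq_normRed_alpha (hq : q.Prime) (hqM : ¬ q ∣ M₀) (hA : A.LiesOverPrime q)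
    (t : FBar (M₀ * q * q)) (ht : t ∈ O.S.Ov) :
    heckeAlphaBar Qb (M₀ * q) q (normAlong (heckeAlphaBar Qb (M₀ * q) q) t) ∈ O.S.Ov ∧
      O.S.red (heckeAlphaBar Qb (M₀ * q) q (normAlong (heckeAlphaBar Qb (M₀ * q) q) t)) =
        algebraMap (IsLocalRing.ResidueField A)⟮O.H.X1⟯ FkP
          (Algebra.norm (IsLocalRing.ResidueField A)⟮O.H.X1⟯ (O.S.red t)) := by
  haveI := Fermat.Agent.FrobTrace.isAlgClosed_residueField A
  haveI : Infinite (IsLocalRing.ResidueField A) := IsAlgClosed.instInfinite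
  have hq1 := wpsq_succ_ne_zero (A := A) hq hA
  letI a01 : Algebra (FBar M₀) (FBar (M₀ * q)) := algebraAlong (heckeBetaBar Qb M₀ q)
  letI a12 : Algebra (FBar (M₀ * q)) (FBar (M₀ * q * q)) :=
    algebraAlong (heckeAlphaBar Qb (M₀ * q) q)
  letI a02 : Algebra (FBar M₀) (FBar (M₀ * q * q)) := algebraAlong (wpdIota1 M₀ q)
  haveI : IsScalarTower (FBar M₀) (FBar (M₀ * q)) (FBar (M₀ * q * q)) :=
    IsScalarTower.of_algebraMap_eq fun x => rfl
  haveI : IsScalarTower Qb (FBar M₀) (FBar (M₀ * q * q)) :=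
    IsScalarTower.of_algebraMap_eq fun c => ((wpdIota1 M₀ q).commutes c).symm
  obtain ⟨hfd, hrank⟩ := wpd_finrank_iota1 M₀ q hq hqM
  haveI : FiniteDimensional (FBar M₀) (FBar (M₀ * q * q)) := hfd
  haveI := O.H.finiteDimensional_Yf hq1
  haveI := O.H.finiteDimensional_X1
  obtain ⟨-, hα⟩ := Fermat.Agent.S36N.finrank_alpha (N := M₀ * q) (ℓ := q) hq (dvd_mul_left q M₀)
  refine hsq_normRed (F₀ := FBar M₀) (F₁ := FBar (M₀ * q)) O.S O.H.Yf O.H.X1
    (fun g hg => O.res_Y g hg) ?_ ?_ ?_ ?_ t ht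
  · refine ⟨(O.t - algebraMap Qb (FBar M₀) (O.a ^ q)) / algebraMap Qb (FBar M₀) (O.ϖ ^ q), ?_, ?_⟩
    · show wpdIota1 M₀ q _ ∈ O.S.Ov
      rw [wpsq_Y_eq]
      exact O.Y_mem
    · show O.S.red (wpdIota1 M₀ q _) = O.H.Yf
      rw [wpsq_Y_eq]
      exact O.red_Y
  · rw [hrank, O.H.finrank_Yf hq1]
  · refine ⟨(heckeAlphaBar Qb M₀ q O.t - algebraMap Qb (FBar (M₀ * q)) O.a) /
      algebraMap Qb (FBar (M₀ * q)) O.ϖ, ?_, ?_⟩
    · show heckeAlphaBar Qb (M₀ * q) q _ ∈ O.S.Ov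
      rw [wpsq_W_eq]
      exact O.W_mem
    · show O.S.red (heckeAlphaBar Qb (M₀ * q) q _) = O.H.X1
      rw [wpsq_W_eq]
      exact O.red_W
  · rw [O.H.finrank_X1 hq1]
    exact hα.symm

/-- **(SQUEEZE, π₂)** the residue field of `w_P` restricted to `β F₁` is contained in `k(X₂)`
(hence equal to it: `X₂ = red Zc`). -/
theorem wpsq_beta_mem (hq : q.Prime) (hqM : ¬ q ∣ M₀) (hA : A.LiesOverPrime q)
    (y : FBar (M₀ * q)) (hy : heckeBetaBar Qb (M₀ * q) q y ∈ O.S.Ov) :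
    O.S.red (heckeBetaBar Qb (M₀ * q) q y) ∈ (IsLocalRing.ResidueField A)⟮O.H.X2⟯ := by
  haveI := Fermat.Agent.FrobTrace.isAlgClosed_residueField A
  haveI : Infinite (IsLocalRing.ResidueField A) := IsAlgClosed.instInfinite
  have hq1 := wpsq_succ_ne_zero (A := A) hq hA
  letI a01 : Algebra (FBar M₀) (FBar (M₀ * q)) := algebraAlong (heckeAlphaBar Qb M₀ q)
  letI a12 : Algebra (FBar (M₀ * q)) (FBar (M₀ * q * q)) :=
    algebraAlong (heckeBetaBar Qb (M₀ * q) q)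
  letI a02 : Algebra (FBar M₀) (FBar (M₀ * q * q)) := algebraAlong (wpdIota1 M₀ q)
  haveI : IsScalarTower (FBar M₀) (FBar (M₀ * q)) (FBar (M₀ * q * q)) :=
    IsScalarTower.of_algebraMap_eq fun x => AlgHom.congr_fun (wpdIota1_eq_beta_alpha M₀ q) x
  haveI : IsScalarTower Qb (FBar M₀) (FBar (M₀ * q * q)) :=
    IsScalarTower.of_algebraMap_eq fun c => ((wpdIota1 M₀ q).commutes c).symm
  obtain ⟨hfd, hrank⟩ := wpd_finrank_iota1 M₀ q hq hqM
  haveI : FiniteDimensional (FBar M₀) (FBar (M₀ * q * q)) := hfd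
  haveI := O.H.finiteDimensional_Yf hq1
  haveI := O.H.finiteDimensional_X2 hq1
  have hM0 : 0 < M₀ := Nat.pos_of_ne_zero (NeZero.ne M₀)
  have hcop : Nat.Coprime q M₀ := (Nat.Prime.coprime_iff_not_dvd hq).mpr hqM
  obtain ⟨D₁, h1Q, h1R⟩ := Fermat.Agent.AtkinLehner.ALData.exists_of_coprime
    (Q := q) (R := M₀) hq.pos hM0 hcop
  obtain ⟨D₂, h2Q, h2R⟩ := Fermat.Agent.AtkinLehner.ALData.exists_of_coprime
    (Q := q * q) (R := M₀) (Nat.mul_pos hq.pos hq.pos) hM0 (Nat.Coprime.mul_left hcop hcop)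
  obtain ⟨-, hβ⟩ := Fermat.Agent.S36N.finrank_beta (N := M₀ * q) (ℓ := q) hq
    (dvd_mul_left q M₀) D₁ D₂ (by rw [h2Q, h1Q]) (by rw [h2R, h1R])
    (by rw [h1Q, h1R, mul_comm]) (by rw [h2Q, h2R]; ring)
  refine hsq_residue_mem (F₀ := FBar M₀) (F₁ := FBar (M₀ * q)) O.S O.H.Yf O.H.X2
    (fun g hg => O.res_Y g hg) ?_ ?_ ?_ ?_ y hy
  · refine ⟨(O.t - algebraMap Qb (FBar M₀) (O.a ^ q)) / algebraMap Qb (FBar M₀) (O.ϖ ^ q), ?_, ?_⟩
    · show wpdIota1 M₀ q _ ∈ O.S.Ov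
      rw [wpsq_Y_eq]
      exact O.Y_mem
    · show O.S.red (wpdIota1 M₀ q _) = O.H.Yf
      rw [wpsq_Y_eq]
      exact O.red_Y
  · rw [hrank, O.H.finrank_Yf hq1]
  · refine ⟨(heckeBetaBar Qb M₀ q O.t - algebraMap Qb (FBar (M₀ * q)) O.a) /
      algebraMap Qb (FBar (M₀ * q)) O.ϖ, ?_, ?_⟩
    · show heckeBetaBar Qb (M₀ * q) q _ ∈ O.S.Ov
      rw [wpsq_Z_eq]
      exact O.Z_mem
    · show O.S.red (heckeBetaBar Qb (M₀ * q) q _) = O.H.X2
      rw [wpsq_Z_eq]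
      exact O.red_Z
  · rw [O.H.finrank_X2 hq1]
    exact hβ.symm

/-- **(N3')** the norm formula for `w_P` over `β F₁`:
`red_w (β (N_β t)) = N_{k(H_P) / k(X₂)} (red_w t)` for `t ∈ O_w`. -/
theorem wpsq_normRed_beta (hq : q.Prime) (hqM : ¬ q ∣ M₀) (hA : A.LiesOverPrime q)
    (t : FBar (M₀ * q * q)) (ht : t ∈ O.S.Ov) :
    heckeBetaBar Qb (M₀ * q) q (normAlong (heckeBetaBar Qb (M₀ * q) q) t) ∈ O.S.Ov ∧
      O.S.red (heckeBetaBar Qb (M₀ * q) q (normAlong (heckeBetaBar Qb (M₀ * q) q) t)) =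
        algebraMap (IsLocalRing.ResidueField A)⟮O.H.X2⟯ FkP
          (Algebra.norm (IsLocalRing.ResidueField A)⟮O.H.X2⟯ (O.S.red t)) := by
  haveI := Fermat.Agent.FrobTrace.isAlgClosed_residueField A
  haveI : Infinite (IsLocalRing.ResidueField A) := IsAlgClosed.instInfinite
  have hq1 := wpsq_succ_ne_zero (A := A) hq hA
  letI a01 : Algebra (FBar M₀) (FBar (M₀ * q)) := algebraAlong (heckeAlphaBar Qb M₀ q)
  letI a12 : Algebra (FBar (M₀ * q)) (FBar (M₀ * q * q)) :=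
    algebraAlong (heckeBetaBar Qb (M₀ * q) q)
  letI a02 : Algebra (FBar M₀) (FBar (M₀ * q * q)) := algebraAlong (wpdIota1 M₀ q)
  haveI : IsScalarTower (FBar M₀) (FBar (M₀ * q)) (FBar (M₀ * q * q)) :=
    IsScalarTower.of_algebraMap_eq fun x => AlgHom.congr_fun (wpdIota1_eq_beta_alpha M₀ q) x
  haveI : IsScalarTower Qb (FBar M₀) (FBar (M₀ * q * q)) :=
    IsScalarTower.of_algebraMap_eq fun c => ((wpdIota1 M₀ q).commutes c).symm
  obtain ⟨hfd, hrank⟩ := wpd_finrank_iota1 M₀ q hq hqM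
  haveI : FiniteDimensional (FBar M₀) (FBar (M₀ * q * q)) := hfd
  haveI := O.H.finiteDimensional_Yf hq1
  haveI := O.H.finiteDimensional_X2 hq1
  have hM0 : 0 < M₀ := Nat.pos_of_ne_zero (NeZero.ne M₀)
  have hcop : Nat.Coprime q M₀ := (Nat.Prime.coprime_iff_not_dvd hq).mpr hqM
  obtain ⟨D₁, h1Q, h1R⟩ := Fermat.Agent.AtkinLehner.ALData.exists_of_coprime
    (Q := q) (R := M₀) hq.pos hM0 hcop
  obtain ⟨D₂, h2Q, h2R⟩ := Fermat.Agent.AtkinLehner.ALData.exists_of_coprime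
    (Q := q * q) (R := M₀) (Nat.mul_pos hq.pos hq.pos) hM0 (Nat.Coprime.mul_left hcop hcop)
  obtain ⟨-, hβ⟩ := Fermat.Agent.S36N.finrank_beta (N := M₀ * q) (ℓ := q) hq
    (dvd_mul_left q M₀) D₁ D₂ (by rw [h2Q, h1Q]) (by rw [h2R, h1R])
    (by rw [h1Q, h1R, mul_comm]) (by rw [h2Q, h2R]; ring)
  refine hsq_normRed (F₀ := FBar M₀) (F₁ := FBar (M₀ * q)) O.S O.H.Yf O.H.X2
    (fun g hg => O.res_Y g hg) ?_ ?_ ?_ ?_ t ht
  · refine ⟨(O.t - algebraMap Qb (FBar M₀) (O.a ^ q)) / algebraMap Qb (FBar M₀) (O.ϖ ^ q), ?_, ?_⟩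
    · show wpdIota1 M₀ q _ ∈ O.S.Ov
      rw [wpsq_Y_eq]
      exact O.Y_mem
    · show O.S.red (wpdIota1 M₀ q _) = O.H.Yf
      rw [wpsq_Y_eq]
      exact O.red_Y
  · rw [hrank, O.H.finrank_Yf hq1]
  · refine ⟨(heckeBetaBar Qb M₀ q O.t - algebraMap Qb (FBar (M₀ * q)) O.a) /
      algebraMap Qb (FBar (M₀ * q)) O.ϖ, ?_, ?_⟩
    · show heckeBetaBar Qb (M₀ * q) q _ ∈ O.S.Ov
      rw [wpsq_Z_eq]
      exact O.Z_mem
    · show O.S.red (heckeBetaBar Qb (M₀ * q) q _) = O.H.X2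
      rw [wpsq_Z_eq]
      exact O.red_Z
  · rw [O.H.finrank_X2 hq1]
    exact hβ.symm

/-- every element of `k(X₁)` is the residue of an element of `α F₁`. -/
theorem wpsq_alpha_surj (β : FkP) (hβ : β ∈ (IsLocalRing.ResidueField A)⟮O.H.X1⟯) :
    ∃ y : FBar (M₀ * q), heckeAlphaBar Qb (M₀ * q) q y ∈ O.S.Ov ∧
      O.S.red (heckeAlphaBar Qb (M₀ * q) q y) = β := by
  haveI := Fermat.Agent.FrobTrace.isAlgClosed_residueField A
  haveI : Infinite (IsLocalRing.ResidueField A) := IsAlgClosed.instInfinite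
  letI a12 : Algebra (FBar (M₀ * q)) (FBar (M₀ * q * q)) :=
    algebraAlong (heckeAlphaBar Qb (M₀ * q) q)
  haveI : IsScalarTower Qb (FBar (M₀ * q)) (FBar (M₀ * q * q)) :=
    IsScalarTower.of_algebraMap_eq fun c => ((heckeAlphaBar Qb (M₀ * q) q).commutes c).symm
  refine hsq_residue_surj (F₀ := FBar (M₀ * q)) O.S O.H.X1 ?_ β hβ
  refine ⟨(heckeAlphaBar Qb M₀ q O.t - algebraMap Qb (FBar (M₀ * q)) O.a) /
    algebraMap Qb (FBar (M₀ * q)) O.ϖ, ?_, ?_⟩
  · show heckeAlphaBar Qb (M₀ * q) q _ ∈ O.S.Ov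
    rw [wpsq_W_eq]
    exact O.W_mem
  · show O.S.red (heckeAlphaBar Qb (M₀ * q) q _) = O.H.X1
    rw [wpsq_W_eq]
    exact O.red_W

/-- every element of `k(X₂)` is the residue of an element of `β F₁`. -/
theorem wpsq_beta_surj (β : FkP) (hβ : β ∈ (IsLocalRing.ResidueField A)⟮O.H.X2⟯) :
    ∃ y : FBar (M₀ * q), heckeBetaBar Qb (M₀ * q) q y ∈ O.S.Ov ∧
      O.S.red (heckeBetaBar Qb (M₀ * q) q y) = β := by
  haveI := Fermat.Agent.FrobTrace.isAlgClosed_residueField A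
  haveI : Infinite (IsLocalRing.ResidueField A) := IsAlgClosed.instInfinite
  letI a12 : Algebra (FBar (M₀ * q)) (FBar (M₀ * q * q)) :=
    algebraAlong (heckeBetaBar Qb (M₀ * q) q)
  haveI : IsScalarTower Qb (FBar (M₀ * q)) (FBar (M₀ * q * q)) :=
    IsScalarTower.of_algebraMap_eq fun c => ((heckeBetaBar Qb (M₀ * q) q).commutes c).symm
  refine hsq_residue_surj (F₀ := FBar (M₀ * q)) O.S O.H.X2 ?_ β hβ
  refine ⟨(heckeBetaBar Qb M₀ q O.t - algebraMap Qb (FBar (M₀ * q)) O.a) /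
    algebraMap Qb (FBar (M₀ * q)) O.ϖ, ?_, ?_⟩
  · show heckeBetaBar Qb (M₀ * q) q _ ∈ O.S.Ov
    rw [wpsq_Z_eq]
    exact O.Z_mem
  · show O.S.red (heckeBetaBar Qb (M₀ * q) q _) = O.H.X2
    rw [wpsq_Z_eq]
    exact O.red_Z

end Modular

end Fermat.Agent.S36G
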