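/-
Cluster G (S36, Carayol at `q² ∥ M`), block NORM, seat MID-W (helper17; statement: helper66).

THE ATKIN–LEHNER INVOLUTION `w = w_{q²}` ON THE MIDDLE EXPANSIONS: `w` maps the middle cusp `z` to
`z⁻¹`.  `F = F_{M₀ q²}`, `D : ALData` with `D.Q = q ^ 2`, `w = wAt D hM`.

1. `midExp_wAt`          : `ε_z (w f) = scaleL z (ε_{z⁻¹} f)`;
2. `gaussSub_top_scaleL` : the substitution `q ↦ z q` (`z ^ q = 1`) preserves the Gauss ring
                           `gaussSub A ⊤` and the residues (`A ∣ q`);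
3. `expOv_wAt_iff`, `expRes_wAt` : `w f ∈ O_z ↔ f ∈ O_{z⁻¹}`, `res_z (w f) = res_{z⁻¹} f`;
4. `midSetup_wAt_mem_iff`, `midSetup_red_wAt` : the same for constant reductions (`IsMidSetup`);
5. `mid_red_wAt_rev`, `mid_prod_red_wAt`, `mid_prod_expRes_wAt` : for the family `ε b`,
   `b : Fin (q - 1)`, attached to `ζ ^ (b + 1)`: `(Sm b).red (w f) = (Sm (Fin.rev b)).red f` and
   `∏_b (Sm b).red (w f) = ∏_b (Sm b).red f`.
-/
import Fermat.Agent.S36.Igusa.Exp
import Fermat.Agent.S36.Igusa.AsmSetup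
import Fermat.Agent.Lib.BadRed.Bridge.NormAt
import Fermat.Agent.Lib.Kronecker.ConjGens2
import Fermat.Agent.Lib.GaussInt.FrobFormal
import Fermat.Agent.Lib.FrobTrace.Residue

set_option autoImplicit false
set_option linter.style.haveILetI false
set_option linter.unusedSectionVars false
set_option linter.unusedVariables false
set_option synthInstance.maxHeartbeats 400000

noncomputable section

namespace Fermat.Agent.S36N

open ModularCurve AlgebraicCurve Fermat.Agent.F3 Fermat.Agent.F3G Fermat.Agent.GaussInt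
  Fermat.Agent.AtkinLehner Fermat.Agent.Kronecker Fermat.Agent.BadRed
  Fermat.Agent.S36G Fermat.Agent.Deuring Fermat.Agent.GaussIntFP

local notation "Qb" => AlgebraicClosure ℚ

attribute [local instance 10000] SubalgebraClass.toAlgebra HahnSeries.powerSeriesAlgebra

/-! ### 2. the substitution `q ↦ z q` and the Gauss ring -/

section Formal

variable {K : Type*} [Field K] (A : ValuationSubring K)

/-- the residue of a `q`-th root of unity is `1` in characteristic `q`. -/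
theorem midw_residue_root (q : ℕ) [Fact q.Prime] [CharP (IsLocalRing.ResidueField A) q]
    (u : Aˣ) (hu : u ^ q = 1) :
    Units.map ((IsLocalRing.residue A : A →+* IsLocalRing.ResidueField A) :
      A →* IsLocalRing.ResidueField A) u = 1 := by
  apply Units.ext
  have h1 : (((Units.map ((IsLocalRing.residue A : A →+* IsLocalRing.ResidueField A) :
      A →* IsLocalRing.ResidueField A) u : (IsLocalRing.ResidueField A)ˣ) :
        IsLocalRing.ResidueField A)) ^ q = 1 := by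
    rw [← Units.val_pow_eq_pow_val, ← map_pow, hu, map_one, Units.val_one]
  apply frobenius_inj (IsLocalRing.ResidueField A) q
  rw [frobenius_def, frobenius_def, h1, Units.val_one, one_pow]

variable {A}

/-- a presentation of `Y` gives a presentation of `Y (z q)` with the same reductions. -/
theorem midw_isPres_scaleL {q : ℕ} [Fact q.Prime] [CharP (IsLocalRing.ResidueField A) q]
    {z : Kˣ} (hz : z ^ q = 1) {Y : LaurentSeries K} {Y₁ Y₂ : LaurentSeries A}
    (h : IsPres A (⊤ : IntermediateField K (LaurentSeries K)) Y Y₁ Y₂) :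
    ∃ Z₁ Z₂ : LaurentSeries A,
      IsPres A (⊤ : IntermediateField K (LaurentSeries K)) (scaleL z Y) Z₁ Z₂ ∧
        red A Z₁ = red A Y₁ ∧ red A Z₂ = red A Y₂ := by
  have hq0 : q ≠ 0 := (Fact.out : q.Prime).ne_zero
  set u : Aˣ := rootUnit A z hq0 hz with hu
  have hū := midw_residue_root A q u (rootUnit_pow A z hq0 hz)
  have hred : ∀ W : LaurentSeries A, red A (scaleL u W) = red A W := by
    intro W
    show coeffMap (IsLocalRing.residue A) (scaleL u W) = _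
    rw [coeffMap_scaleL, hū, scaleL_one]
  have hemb : ∀ W : LaurentSeries A, emb A (scaleL u W) = scaleL z (emb A W) := by
    intro W
    rw [emb_scaleL, map_rootUnit]
  refine ⟨scaleL u Y₁, scaleL u Y₂, ⟨IntermediateField.mem_top, IntermediateField.mem_top, ?_, ?_⟩,
    hred Y₁, hred Y₂⟩
  · rw [hred]
    exact h.prim
  · rw [hemb, hemb, ← map_mul, h.eq]

/-- **2.** `q ↦ z q` preserves the Gauss ring and the residues. -/
theorem gaussSub_top_scaleL_mem {q : ℕ} [Fact q.Prime] [CharP (IsLocalRing.ResidueField A) q]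
    {z : Kˣ} (hz : z ^ q = 1) {Y : LaurentSeries K}
    (hY : Y ∈ gaussSub A (⊤ : IntermediateField K (LaurentSeries K))) :
    scaleL z Y ∈ gaussSub A (⊤ : IntermediateField K (LaurentSeries K)) ∧
      gaussResFun A (⊤ : IntermediateField K (LaurentSeries K)) (scaleL z Y) =
        gaussResFun A (⊤ : IntermediateField K (LaurentSeries K)) Y := by
  obtain ⟨Y₁, Y₂, h⟩ := hY
  obtain ⟨Z₁, Z₂, hZ, h1, h2⟩ := midw_isPres_scaleL hz h
  exact ⟨⟨Z₁, Z₂, hZ⟩, by rw [gaussResFun_eq hZ, gaussResFun_eq h, h1, h2]⟩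

theorem gaussSub_top_scaleL_iff {q : ℕ} [Fact q.Prime] [CharP (IsLocalRing.ResidueField A) q]
    {z : Kˣ} (hz : z ^ q = 1) {Y : LaurentSeries K} :
    scaleL z Y ∈ gaussSub A (⊤ : IntermediateField K (LaurentSeries K)) ↔
      Y ∈ gaussSub A (⊤ : IntermediateField K (LaurentSeries K)) := by
  refine ⟨fun h => ?_, fun h => (gaussSub_top_scaleL_mem hz h).1⟩
  have hz' : z⁻¹ ^ q = 1 := by rw [inv_pow, hz, inv_one]
  have h1 := (gaussSub_top_scaleL_mem hz' h).1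
  rwa [← scaleL_mul, inv_mul_cancel, scaleL_one] at h1

/-- the residue function is invariant under `q ↦ z q` (no membership hypothesis). -/
theorem gaussResFun_top_scaleL {q : ℕ} [Fact q.Prime] [CharP (IsLocalRing.ResidueField A) q]
    {z : Kˣ} (hz : z ^ q = 1) (Y : LaurentSeries K) :
    gaussResFun A (⊤ : IntermediateField K (LaurentSeries K)) (scaleL z Y) =
      gaussResFun A (⊤ : IntermediateField K (LaurentSeries K)) Y := by
  by_cases hY : Y ∈ gaussSub A (⊤ : IntermediateField K (LaurentSeries K))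
  · exact (gaussSub_top_scaleL_mem hz hY).2
  · have hY' : ¬ scaleL z Y ∈ gaussSub A (⊤ : IntermediateField K (LaurentSeries K)) :=
      fun h => hY ((gaussSub_top_scaleL_iff hz).mp h)
    have e1 : gaussResFun A (⊤ : IntermediateField K (LaurentSeries K)) Y = 0 := by
      unfold gaussResFun
      rw [dif_neg]
      exact hY
    have e2 : gaussResFun A (⊤ : IntermediateField K (LaurentSeries K)) (scaleL z Y) = 0 := by
      unfold gaussResFun
      rw [dif_neg]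
      exact hY'
    rw [e1, e2]

end Formal

/-! ### 1. `w` on the middle expansions -/

section Exp

variable {M₀ q : ℕ} [NeZero M₀] [NeZero q]

/-- the middle expansion of a generator `j(T^d)`, `d ∣ M₀ q`. -/
theorem midw_eps_low {z : Qbˣ} {ε : FBar (M₀ * q * q) →ₐ[Qb] LaurentSeries Qb}
    (hε : IsMidExp M₀ q z ε) (d : ℕ) [NeZero d] (hd : d ∣ M₀ * q) (x : FBar (M₀ * q * q))
    (hx : (x : LaurentSeries Qb) = qExpand Qb d (jqModC Qb)) :
    ε x = qExpand Qb d (jqModC Qb) := by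
  have e : x = heckeAlphaBar Qb (M₀ * q) q (jdBar (M₀ * q) d hd) := by
    apply Subtype.ext
    rw [coe_heckeAlphaBar, coe_jdBar, hx]
  rw [e, hε.alpha, coe_jdBar]

/-- the middle expansion of a generator `j(T^{d q²})`, `d ∣ M₀`. -/
theorem midw_eps_high {z : Qbˣ} {ε : FBar (M₀ * q * q) →ₐ[Qb] LaurentSeries Qb}
    (hε : IsMidExp M₀ q z ε) (d : ℕ) [NeZero d] (hd : d ∣ M₀) (m : ℕ) [NeZero m]
    (hm : m = d * q * q) (x : FBar (M₀ * q * q))
    (hx : (x : LaurentSeries Qb) = qExpand Qb m (jqModC Qb)) :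
    ε x = scaleL z (qExpand Qb d (jqModC Qb)) := by
  have e : x = heckeBetaBar Qb (M₀ * q) q (heckeBetaBar Qb M₀ q (jdBar M₀ d hd)) := by
    apply Subtype.ext
    rw [coe_heckeBetaBar, coe_heckeBetaBar, coe_jdBar, hx, qExpand_qExpand, qExpand_qExpand]
    exact qExpand_congr (by rw [hm]; ring) _
  rw [e, hε.beta2, coe_jdBar]

/-- **1.** `ε_z (w f) = (ε_{z⁻¹} f) (z q)`. -/
theorem midExp_wAt (hq : q.Prime) (D : ALData) (hM : M₀ * q * q = D.Q * D.R) (hQ : D.Q = q ^ 2)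
    {z : Qbˣ} (hz : z ^ q = 1) {ε ε' : FBar (M₀ * q * q) →ₐ[Qb] LaurentSeries Qb}
    (hε : IsMidExp M₀ q z ε) (hε' : IsMidExp M₀ q z⁻¹ ε') (f : FBar (M₀ * q * q)) :
    ε (wAt D hM f) = scaleL z (ε' f) := by
  have hR : D.R = M₀ := by
    have h1 : q ^ 2 * D.R = q ^ 2 * M₀ := by
      rw [← hQ, ← hM, hQ]
      ring
    exact Nat.eq_of_mul_eq_mul_left (pow_pos hq.pos 2) h1
  have key : ((ε : FBar (M₀ * q * q) →+* LaurentSeries Qb).comp
      ((wAt D hM : FBar (M₀ * q * q) ≃ₐ[Qb] FBar (M₀ * q * q)) :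
        FBar (M₀ * q * q) →+* FBar (M₀ * q * q))) =
      (scaleL z).comp (ε' : FBar (M₀ * q * q) →+* LaurentSeries Qb) := by
    apply ringHom_ext_FBar
    · intro c
      show ε (wAt D hM (algebraMap Qb _ c)) = scaleL z (ε' (algebraMap Qb _ c))
      rw [AlgEquiv.commutes, AlgHom.commutes, AlgHom.commutes, scaleL_algebraMap]
    · intro d hdne hd
      show ε (wAt D hM (jdBar (M₀ * q * q) d hd)) = scaleL z (ε' (jdBar (M₀ * q * q) d hd))
      have hd' : d ∣ D.Q * D.R := hM ▸ hd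
      obtain ⟨d₁, e₁, d₂, f₂, h1, h2, hdd⟩ := exists_factor D hd'
      obtain ⟨hd₁, he₁, hd₂, hf₂⟩ := factor_pos D h1 h2
      haveI : NeZero d₂ := ⟨hd₂.ne'⟩
      haveI : NeZero (d₁ * d₂) := ⟨(Nat.mul_pos hd₁ hd₂).ne'⟩
      haveI : NeZero (e₁ * d₂) := ⟨(Nat.mul_pos he₁ hd₂).ne'⟩
      have hd₂M : d₂ ∣ M₀ := ⟨f₂, by rw [← hR, h2]⟩
      have hx : ((jdBar (M₀ * q * q) d hd : FBar (M₀ * q * q)) : LaurentSeries Qb) =
          qExpand Qb (d₁ * d₂) (jqModC Qb) := by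
        rw [coe_jdBar]
        exact qExpand_congr hdd _
      have hw := coe_wAt_of_coe_gen D hM d₁ e₁ d₂ f₂ h1 h2 (jdBar (M₀ * q * q) d hd) hx
      have hd₁q : d₁ ∣ q ^ 2 := ⟨e₁, by rw [h1, hQ]⟩
      obtain ⟨j, hj, hd₁j⟩ := (Nat.dvd_prime_pow hq).mp hd₁q
      have hqpos := hq.pos
      interval_cases j
      · -- `d₁ = 1`, `e₁ = q²`
        have hd₁1 : d₁ = 1 := by rw [hd₁j, pow_zero]
        have he₁q : e₁ = q ^ 2 := by rw [← hQ, ← h1, hd₁1, one_mul]
        have hm : e₁ * d₂ = d₂ * q * q := by rw [he₁q]; ring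
        rw [midw_eps_high hε d₂ hd₂M (e₁ * d₂) hm _ hw,
          midw_eps_low hε' (d₁ * d₂) (by rw [hd₁1, one_mul]; exact hd₂M.mul_right q) _ hx]
        congr 1
        exact qExpand_congr (by rw [hd₁1, one_mul]) _
      · -- `d₁ = q`, `e₁ = q`
        have hd₁1 : d₁ = q := by rw [hd₁j, pow_one]
        have he₁q : e₁ = q := by
          have h3 : q * e₁ = q * q := by rw [← hd₁1, h1, hQ, hd₁1]; ring
          exact Nat.eq_of_mul_eq_mul_left hqpos h3
        have hdvd : q * d₂ ∣ M₀ * q := by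
          rw [mul_comm q d₂]
          exact Nat.mul_dvd_mul_right hd₂M q
        rw [midw_eps_low hε (e₁ * d₂) (by rw [he₁q]; exact hdvd) _ hw,
          midw_eps_low hε' (d₁ * d₂) (by rw [hd₁1]; exact hdvd) _ hx, scaleL_qExpand]
        have hz1 : z ^ (d₁ * d₂) = 1 := by rw [hd₁1, pow_mul, hz, one_pow]
        rw [hz1, scaleL_one]
        exact qExpand_congr (by rw [hd₁1, he₁q]) _
      · -- `d₁ = q²`, `e₁ = 1`
        have hd₁1 : d₁ = q ^ 2 := hd₁j
        have he₁q : e₁ = 1 := by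
          have h3 : q ^ 2 * e₁ = q ^ 2 * 1 := by rw [← hd₁1, h1, hQ, hd₁1, mul_one]
          exact Nat.eq_of_mul_eq_mul_left (pow_pos hqpos 2) h3
        have hm : d₁ * d₂ = d₂ * q * q := by rw [hd₁1]; ring
        rw [midw_eps_low hε (e₁ * d₂) (by rw [he₁q, one_mul]; exact hd₂M.mul_right q) _ hw,
          midw_eps_high hε' d₂ hd₂M (d₁ * d₂) hm _ hx, ← scaleL_mul, mul_inv_cancel, scaleL_one]
        exact qExpand_congr (by rw [he₁q, one_mul]) _
  exact congrArg (fun φ : FBar (M₀ * q * q) →+* LaurentSeries Qb => φ f) key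

end Exp

/-! ### 3., 4. residues -/

section Res

variable {M₀ q : ℕ} [NeZero M₀] [NeZero q]

/-- **3.** `w f ∈ O_z ↔ f ∈ O_{z⁻¹}`. -/
theorem expOv_wAt_iff (hq : q.Prime) (A : ValuationSubring Qb) (hA : A.LiesOverPrime q)
    (D : ALData) (hM : M₀ * q * q = D.Q * D.R) (hQ : D.Q = q ^ 2)
    {z : Qbˣ} (hz : z ^ q = 1) {ε ε' : FBar (M₀ * q * q) →ₐ[Qb] LaurentSeries Qb}
    (hε : IsMidExp M₀ q z ε) (hε' : IsMidExp M₀ q z⁻¹ ε') (f : FBar (M₀ * q * q)) :
    wAt D hM f ∈ expOv ε A ↔ f ∈ expOv ε' A := by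
  haveI : Fact q.Prime := ⟨hq⟩
  haveI := Fermat.Agent.FrobTrace.charP_residueField A hA
  rw [mem_expOv_iff, mem_expOv_iff, midExp_wAt hq D hM hQ hz hε hε' f]
  exact gaussSub_top_scaleL_iff hz

/-- **3.** `res_z (w f) = res_{z⁻¹} f` (for every `f`). -/
theorem expRes_wAt (hq : q.Prime) (A : ValuationSubring Qb) (hA : A.LiesOverPrime q)
    (D : ALData) (hM : M₀ * q * q = D.Q * D.R) (hQ : D.Q = q ^ 2)
    {z : Qbˣ} (hz : z ^ q = 1) {ε ε' : FBar (M₀ * q * q) →ₐ[Qb] LaurentSeries Qb}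
    (hε : IsMidExp M₀ q z ε) (hε' : IsMidExp M₀ q z⁻¹ ε') (f : FBar (M₀ * q * q)) :
    expRes ε A (wAt D hM f) = expRes ε' A f := by
  haveI : Fact q.Prime := ⟨hq⟩
  haveI := Fermat.Agent.FrobTrace.charP_residueField A hA
  unfold expRes
  rw [midExp_wAt hq D hM hQ hz hε hε' f]
  exact gaussResFun_top_scaleL hz _

/-- **4.** `w f ∈ O_S ↔ f ∈ O_{S'}` for the constant reductions `S` at `z`, `S'` at `z⁻¹`. -/
theorem midSetup_wAt_mem_iff (hq : q.Prime) (A : ValuationSubring Qb) (hA : A.LiesOverPrime q)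
    (D : ALData) (hM : M₀ * q * q = D.Q * D.R) (hQ : D.Q = q ^ 2)
    {z : Qbˣ} (hz : z ^ q = 1) {ε ε' : FBar (M₀ * q * q) →ₐ[Qb] LaurentSeries Qb}
    (hε : IsMidExp M₀ q z ε) (hε' : IsMidExp M₀ q z⁻¹ ε')
    {S S' : ValSetup Qb (FBar (M₀ * q * q)) (IsLocalRing.ResidueField A)
      ↥(igField (IsLocalRing.ResidueField A) M₀)}
    (hS : IsMidSetup M₀ q A ε S) (hS' : IsMidSetup M₀ q A ε' S') (f : FBar (M₀ * q * q)) :
    wAt D hM f ∈ S.Ov ↔ f ∈ S'.Ov := by
  rw [hS.mem_iff, hS'.mem_iff]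
  exact expOv_wAt_iff hq A hA D hM hQ hz hε hε' f

/-- **4.** `red_S (w f) = red_{S'} f` (for every `f`). -/
theorem midSetup_red_wAt (hq : q.Prime) (A : ValuationSubring Qb) (hA : A.LiesOverPrime q)
    (D : ALData) (hM : M₀ * q * q = D.Q * D.R) (hQ : D.Q = q ^ 2)
    {z : Qbˣ} (hz : z ^ q = 1) {ε ε' : FBar (M₀ * q * q) →ₐ[Qb] LaurentSeries Qb}
    (hε : IsMidExp M₀ q z ε) (hε' : IsMidExp M₀ q z⁻¹ ε')
    {S S' : ValSetup Qb (FBar (M₀ * q * q)) (IsLocalRing.ResidueField A)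
      ↥(igField (IsLocalRing.ResidueField A) M₀)}
    (hS : IsMidSetup M₀ q A ε S) (hS' : IsMidSetup M₀ q A ε' S') (f : FBar (M₀ * q * q)) :
    S.red (wAt D hM f) = S'.red f := by
  by_cases hf : f ∈ S'.Ov
  · have hw : wAt D hM f ∈ S.Ov :=
      (midSetup_wAt_mem_iff hq A hA D hM hQ hz hε hε' hS hS' f).mpr hf
    apply Subtype.ext
    rw [hS.coe_red _ hw, hS'.coe_red _ hf]
    exact expRes_wAt hq A hA D hM hQ hz hε hε' f
  · have hw : wAt D hM f ∉ S.Ov := fun h =>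
      hf ((midSetup_wAt_mem_iff hq A hA D hM hQ hz hε hε' hS hS' f).mp h)
    rw [S.red_of_not_mem hw, S'.red_of_not_mem hf]

end Res

/-! ### 5. the family of the middle expansions -/

section Family

variable {M₀ q : ℕ} [NeZero M₀] [NeZero q]

/-- `ζ ^ (rev b + 1) = (ζ ^ (b + 1))⁻¹`. -/
theorem mid_pow_rev {ζ : Qbˣ} (hζ : ζ ^ q = 1) (b : Fin (q - 1)) :
    ζ ^ (((Fin.rev b : Fin (q - 1)) : ℕ) + 1) = (ζ ^ ((b : ℕ) + 1))⁻¹ := by
  apply eq_inv_of_mul_eq_one_left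
  rw [← pow_add, Fin.val_rev]
  have hb := b.2
  have e : q - 1 - ((b : ℕ) + 1) + 1 + ((b : ℕ) + 1) = q := by omega
  rw [e, hζ]

theorem mid_pow_pow_eq_one {ζ : Qbˣ} (hζ : ζ ^ q = 1) (m : ℕ) : (ζ ^ m) ^ q = 1 := by
  rw [← pow_mul, mul_comm, pow_mul, hζ, one_pow]

variable (hq : q.Prime) (A : ValuationSubring Qb) (hA : A.LiesOverPrime q)
  (D : ALData) (hM : M₀ * q * q = D.Q * D.R) (hQ : D.Q = q ^ 2)
  (ζ : Qbˣ) (hζ : ζ ^ q = 1)
  (ε : Fin (q - 1) → (FBar (M₀ * q * q) →ₐ[Qb] LaurentSeries Qb))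
  (hε : ∀ b : Fin (q - 1), IsMidExp M₀ q (ζ ^ ((b : ℕ) + 1)) (ε b))

include hq hA hQ hζ hε in
/-- **5.** `res_b (w f) = res_{rev b} f`. -/
theorem mid_expRes_wAt_rev (f : FBar (M₀ * q * q)) (b : Fin (q - 1)) :
    expRes (ε b) A (wAt D hM f) = expRes (ε (Fin.rev b)) A f :=
  expRes_wAt hq A hA D hM hQ (mid_pow_pow_eq_one hζ _) (hε b)
    (by rw [← mid_pow_rev hζ b]; exact hε (Fin.rev b)) f

include hq hA hQ hζ hε in
/-- **5.** `∏_b res_b (w f) = ∏_b res_b f`. -/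
theorem mid_prod_expRes_wAt (f : FBar (M₀ * q * q)) :
    ∏ b, expRes (ε b) A (wAt D hM f) = ∏ b, expRes (ε b) A f := by
  rw [Finset.prod_congr rfl (fun b _ => mid_expRes_wAt_rev hq A hA D hM hQ ζ hζ ε hε f b)]
  exact Equiv.prod_comp Fin.revPerm (fun b => expRes (ε b) A f)

variable (Sm : Fin (q - 1) → ValSetup Qb (FBar (M₀ * q * q)) (IsLocalRing.ResidueField A)
    ↥(igField (IsLocalRing.ResidueField A) M₀))
  (hSm : ∀ b, IsMidSetup M₀ q A (ε b) (Sm b))

include hq hA hQ hζ hε hSm in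
/-- **5.** `(Sm b).red (w f) = (Sm (rev b)).red f`. -/
theorem mid_red_wAt_rev (f : FBar (M₀ * q * q)) (b : Fin (q - 1)) :
    (Sm b).red (wAt D hM f) = (Sm (Fin.rev b)).red f :=
  midSetup_red_wAt hq A hA D hM hQ (mid_pow_pow_eq_one hζ _) (hε b)
    (by rw [← mid_pow_rev hζ b]; exact hε (Fin.rev b)) (hSm b) (hSm (Fin.rev b)) f

include hq hA hQ hζ hε hSm in
/-- **5.** `w f ∈ O_{Sm b} ↔ f ∈ O_{Sm (rev b)}`. -/
theorem mid_wAt_mem_rev (f : FBar (M₀ * q * q)) (b : Fin (q - 1)) :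
    wAt D hM f ∈ (Sm b).Ov ↔ f ∈ (Sm (Fin.rev b)).Ov :=
  midSetup_wAt_mem_iff hq A hA D hM hQ (mid_pow_pow_eq_one hζ _) (hε b)
    (by rw [← mid_pow_rev hζ b]; exact hε (Fin.rev b)) (hSm b) (hSm (Fin.rev b)) f

include hq hA hQ hζ hε hSm in
/-- **5.** `∏_b (Sm b).red (w f) = ∏_b (Sm b).red f`. -/
theorem mid_prod_red_wAt (f : FBar (M₀ * q * q)) :
    ∏ b, (Sm b).red (wAt D hM f) = ∏ b, (Sm b).red f := by
  rw [Finset.prod_congr rfl
    (fun b _ => mid_red_wAt_rev hq A hA D hM hQ ζ hζ ε hε Sm hSm f b)]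
  exact Equiv.prod_comp Fin.revPerm (fun b => (Sm b).red f)

end Family

end Fermat.Agent.S36N
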