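/-
Cluster G (S36, Carayol at `q² ∥ M`), block NORM, seat VERT-SEEN (helper17; statement: helper66).

THE RESIDUES AT THE VERTICAL VERTICES OF THE TWO NORMS SEEN IN `F = F_{M₀ q²}`:
  `Nm₁ g = α (Norm_α g)`,   `Nm₂ g = W (α (Norm_α (W g)))`,
`α = heckeAlphaBar Qb (M₀ q) q`, `W = wAt D hM` (`D.Q = q ^ 2`), `v_∞ = Soo` (Gauss setup),
`v_0 = valSetupZeroAt D hM Soo`, `Sm b` the middle constant reductions (`IsMidSetup`),
`S₁` the Gauss setup of `F₁ = F_{M₀ q}`, `ι : F_k(M₀) → igField k M₀` the inclusion.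

* `seen_alpha_inf`   : `Soo.red (α x) = S₁.red x`                       (`x ∈ O_{S₁}`);
* `seen_alpha_mid`   : `(Sm b).red (α x) = ι (S₁.red x)`                (`x ∈ O_{S₁}`);
* `seen_norm_alpha`  : `ι (S₁.red (Norm_α g)) = ι (Soo.red g) * ∏ b, (Sm b).red g`   ((N2) unscaled);
* `seen_nm1_inf` (1∞): `ι (Soo.red (Nm₁ g)) = ι (Soo.red g) * ∏ b, (Sm b).red g`;
* `seen_nm1_mid` (1m): `(Sm b).red (Nm₁ g) = ι (Soo.red (Nm₁ g))`;
* `seen_nm2_zero` (20): `ι (v_0.red (Nm₂ g)) = ι (v_0.red g) * ∏ b, (Sm b).red g`;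
* `seen_nm2_mid` (2m): `(Sm b).red (Nm₂ g) = ι (v_0.red (Nm₂ g))`;
each with the integrality of the left hand side; `g` integral for the valuations involved;
* `seen_nm1_mid_prod`, `seen_nm2_mid_prod` : (1m), (2m) with the product on the right.
(10) = `red_zero_alpha_norm`, (2∞) = `red_inf_W_alpha_norm` are in `S36/Norm/VertSetup.lean`.
-/
import Fermat.Agent.S36.Norm.MidSetup
import Fermat.Agent.S36.Norm.MidW
import Fermat.Agent.S36.Norm.VertSetup

set_option autoImplicit false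
set_option linter.style.haveILetI false
set_option linter.unusedSectionVars false
set_option linter.unusedVariables false
set_option synthInstance.maxHeartbeats 400000

noncomputable section

namespace Fermat.Agent.S36N

open ModularCurve AlgebraicCurve Fermat.Agent.F3 Fermat.Agent.F3G Fermat.Agent.GaussInt
  Fermat.Agent.AtkinLehner Fermat.Agent.Kronecker Fermat.Agent.BadRed Fermat.Agent.HeckeComm
  Fermat.Agent.S36G Fermat.Agent.Deuring

local notation "Qb" => AlgebraicClosure ℚ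

attribute [local instance 10000] SubalgebraClass.toAlgebra HahnSeries.powerSeriesAlgebra

/-- shortcut (the instance found by unification is the same term, after a slow search). -/
local instance (priority := 10000) vertSeenAlgFullC (A : ValuationSubring Qb) (N : ℕ) :
    Algebra (IsLocalRing.ResidueField A)
      (modularFunctionFieldFullC (IsLocalRing.ResidueField A) N) :=
  SubalgebraClass.toAlgebra (modularFunctionFieldFullC (IsLocalRing.ResidueField A) N)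

/-- shortcut. -/
local instance (priority := 10000) vertSeenAlgIg (A : ValuationSubring Qb) (N : ℕ) :
    Algebra (IsLocalRing.ResidueField A) (igField (IsLocalRing.ResidueField A) N) :=
  SubalgebraClass.toAlgebra (igField (IsLocalRing.ResidueField A) N)

section Seen

variable {M₀ q : ℕ} [NeZero M₀] [NeZero q] {A : ValuationSubring Qb}
  (hq : q.Prime) (hA : A.LiesOverPrime q) (ζ : Qbˣ) (hζ : IsPrimitiveRoot ζ q)
  (ε : Fin (q - 1) → (FBar (M₀ * q * q) →ₐ[Qb] LaurentSeries Qb))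
  (hε : ∀ b : Fin (q - 1), IsMidExp M₀ q (ζ ^ ((b : ℕ) + 1)) (ε b))
  (Soo : ValSetup Qb (FBar (M₀ * q * q)) (IsLocalRing.ResidueField A)
    (modularFunctionFieldFullC (IsLocalRing.ResidueField A) M₀))
  (hSoo : IsGaussSetup (M₀ * q * q) M₀ A Soo)
  (Sm : Fin (q - 1) → ValSetup Qb (FBar (M₀ * q * q)) (IsLocalRing.ResidueField A)
    (igField (IsLocalRing.ResidueField A) M₀))
  (hSm : ∀ b, IsMidSetup M₀ q A (ε b) (Sm b))
  (S₁ : ValSetup Qb (FBar (M₀ * q)) (IsLocalRing.ResidueField A)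
    (modularFunctionFieldFullC (IsLocalRing.ResidueField A) M₀))
  (hS₁ : IsGaussSetup (M₀ * q) M₀ A S₁)
  (D : ALData) (hM : M₀ * q * q = D.Q * D.R) (hQ : D.Q = q ^ 2)

/-! ### the residues of `α x` -/

include hSoo hS₁ in
/-- **`v_∞ ∘ α`**: `Soo.red (α x) = S₁.red x` for `x ∈ O_{S₁}`. -/
theorem seen_alpha_inf {x : FBar (M₀ * q)} (hx : x ∈ S₁.Ov) :
    heckeAlphaBar Qb (M₀ * q) q x ∈ Soo.Ov ∧
      Soo.red (heckeAlphaBar Qb (M₀ * q) q x) = S₁.red x :=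
  ⟨alpha_mem_Ov A S₁ Soo hS₁ hSoo hx, Subtype.ext (coe_red_alpha A S₁ Soo hS₁ hSoo hx)⟩

include hq hA hS₁ in
/-- **`v_m ∘ α`**: `(Sm b).red (α x) = ι (S₁.red x)` for `x ∈ O_{S₁}`, for a middle constant
reduction attached to a middle expansion `ε`. -/
theorem seen_alpha_mid_one {z : Qbˣ} {ε₀ : FBar (M₀ * q * q) →ₐ[Qb] LaurentSeries Qb}
    (hε₀ : IsMidExp M₀ q z ε₀)
    {S : ValSetup Qb (FBar (M₀ * q * q)) (IsLocalRing.ResidueField A)
      (igField (IsLocalRing.ResidueField A) M₀)} (hS : IsMidSetup M₀ q A ε₀ S)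
    {x : FBar (M₀ * q)} (hx : x ∈ S₁.Ov) :
    heckeAlphaBar Qb (M₀ * q) q x ∈ S.Ov ∧
      S.red (heckeAlphaBar Qb (M₀ * q) q x) =
        IntermediateField.inclusion (fullC_le_igField (IsLocalRing.ResidueField A) M₀)
          (S₁.red x) := by
  have h1 : (x : LaurentSeries Qb) ∈ gaussSub A (modularFunctionFieldBar (M₀ * q)) :=
    (hS₁.mem_iff x).mp hx
  have h2 : x ∈ gaussOv (M₀ * q) hq A hA := (mem_gaussValSub_iff _ x).mpr h1
  have h3 : heckeAlphaBar Qb (M₀ * q) q x ∈ S.Ov :=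
    (hS.mem_iff _).mpr ((ig_alpha_mem_expOv_iff M₀ q hq A hA hε₀ x).mpr h2)
  refine ⟨h3, Subtype.ext ?_⟩
  rw [hS.coe_red _ h3, ig_expRes_alpha M₀ q hq A hA hε₀ h2, IntermediateField.coe_inclusion,
    hS₁.coe_red x hx]

include hq hA hε hSm hS₁ in
/-- **`v_m ∘ α`** for the family. -/
theorem seen_alpha_mid (b : Fin (q - 1)) {x : FBar (M₀ * q)} (hx : x ∈ S₁.Ov) :
    heckeAlphaBar Qb (M₀ * q) q x ∈ (Sm b).Ov ∧
      (Sm b).red (heckeAlphaBar Qb (M₀ * q) q x) =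
        IntermediateField.inclusion (fullC_le_igField (IsLocalRing.ResidueField A) M₀)
          (S₁.red x) :=
  seen_alpha_mid_one hq hA S₁ hS₁ (hε b) (hSm b) hx

/-! ### (N2), unscaled -/

set_option maxHeartbeats 1000000 in
include hq hA hζ hε hSoo hSm hS₁ in
/-- **(N2), `ValSetup` form, unscaled**:
`ι (S₁.red (Norm_α g)) = ι (Soo.red g) * ∏ b, (Sm b).red g` for `g` integral at `v_∞` and at all
the middle valuations. -/
theorem seen_norm_alpha {g : FBar (M₀ * q * q)} (hg : g ∈ Soo.Ov) (hgm : ∀ b, g ∈ (Sm b).Ov) :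
    normAlong (heckeAlphaBar Qb (M₀ * q) q) g ∈ S₁.Ov ∧
      IntermediateField.inclusion (fullC_le_igField (IsLocalRing.ResidueField A) M₀)
          (S₁.red (normAlong (heckeAlphaBar Qb (M₀ * q) q) g)) =
        IntermediateField.inclusion (fullC_le_igField (IsLocalRing.ResidueField A) M₀)
            (Soo.red g) * ∏ b, (Sm b).red g := by
  classical
  have hg_g : (g : LaurentSeries Qb) ∈ gaussSub A (modularFunctionFieldBar (M₀ * q * q)) :=
    (hSoo.mem_iff _).mp hg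
  have hg_top : (g : LaurentSeries Qb) ∈
      gaussSub A (⊤ : IntermediateField Qb (LaurentSeries Qb)) := gaussSub_mono le_top hg_g
  have hg_exp : ∀ b, g ∈ expOv (ε b) A := fun b => ((hSm b).mem_iff _).mp (hgm b)
  obtain ⟨hx_top, hx_res⟩ := gaussRes_norm_alpha_mid (A := A) hq ζ hζ ε hε hg_top hg_exp
  obtain ⟨hx_mem, hx_red⟩ := mem_S₁_of_top hq hA S₁ hS₁ hx_top
  refine ⟨hx_mem, Subtype.ext ?_⟩
  rw [IntermediateField.coe_inclusion, hx_red, hx_res, MulMemClass.coe_mul,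
    IntermediateField.coe_inclusion, hSoo.coe_red _ hg, gaussResFun_mono le_top hg_g,
    IntermediateField.coe_prod]
  congr 1
  refine Finset.prod_congr rfl fun b _ => ?_
  rw [(hSm b).coe_red _ (hgm b)]

/-! ### `Nm₁ = α ∘ Norm_α` -/

include hq hA hζ hε hSoo hSm hS₁ in
/-- **(1∞)** `ι (Soo.red (Nm₁ g)) = ι (Soo.red g) * ∏ b, (Sm b).red g`. -/
theorem seen_nm1_inf {g : FBar (M₀ * q * q)} (hg : g ∈ Soo.Ov) (hgm : ∀ b, g ∈ (Sm b).Ov) :
    heckeAlphaBar Qb (M₀ * q) q (normAlong (heckeAlphaBar Qb (M₀ * q) q) g) ∈ Soo.Ov ∧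
      IntermediateField.inclusion (fullC_le_igField (IsLocalRing.ResidueField A) M₀)
          (Soo.red (heckeAlphaBar Qb (M₀ * q) q (normAlong (heckeAlphaBar Qb (M₀ * q) q) g))) =
        IntermediateField.inclusion (fullC_le_igField (IsLocalRing.ResidueField A) M₀)
            (Soo.red g) * ∏ b, (Sm b).red g := by
  obtain ⟨h1, h2⟩ := seen_norm_alpha hq hA ζ hζ ε hε Soo hSoo Sm hSm S₁ hS₁ hg hgm
  obtain ⟨h3, h4⟩ := seen_alpha_inf Soo hSoo S₁ hS₁ h1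
  exact ⟨h3, by rw [h4, h2]⟩

include hq hA hζ hε hSoo hSm hS₁ in
/-- **(1m)** `(Sm b).red (Nm₁ g) = ι (Soo.red (Nm₁ g))`. -/
theorem seen_nm1_mid {g : FBar (M₀ * q * q)} (hg : g ∈ Soo.Ov) (hgm : ∀ b, g ∈ (Sm b).Ov)
    (b : Fin (q - 1)) :
    heckeAlphaBar Qb (M₀ * q) q (normAlong (heckeAlphaBar Qb (M₀ * q) q) g) ∈ (Sm b).Ov ∧
      (Sm b).red (heckeAlphaBar Qb (M₀ * q) q (normAlong (heckeAlphaBar Qb (M₀ * q) q) g)) =
        IntermediateField.inclusion (fullC_le_igField (IsLocalRing.ResidueField A) M₀)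
          (Soo.red (heckeAlphaBar Qb (M₀ * q) q
            (normAlong (heckeAlphaBar Qb (M₀ * q) q) g))) := by
  obtain ⟨h1, -⟩ := seen_norm_alpha hq hA ζ hζ ε hε Soo hSoo Sm hSm S₁ hS₁ hg hgm
  obtain ⟨-, h4⟩ := seen_alpha_inf Soo hSoo S₁ hS₁ h1
  obtain ⟨h5, h6⟩ := seen_alpha_mid hq hA ζ ε hε Sm hSm S₁ hS₁ b h1
  exact ⟨h5, by rw [h6, h4]⟩

/-- **(1m), product form**: `(Sm b).red (Nm₁ g) = ι (Soo.red g) * ∏ b, (Sm b).red g`. -/
theorem seen_nm1_mid_prod (hq : q.Prime) (hA : A.LiesOverPrime q) (ζ : Qbˣ)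
    (hζ : IsPrimitiveRoot ζ q)
    (ε : Fin (q - 1) → (FBar (M₀ * q * q) →ₐ[Qb] LaurentSeries Qb))
    (hε : ∀ b : Fin (q - 1), IsMidExp M₀ q (ζ ^ ((b : ℕ) + 1)) (ε b))
    (Soo : ValSetup Qb (FBar (M₀ * q * q)) (IsLocalRing.ResidueField A)
      (modularFunctionFieldFullC (IsLocalRing.ResidueField A) M₀))
    (hSoo : IsGaussSetup (M₀ * q * q) M₀ A Soo)
    (Sm : Fin (q - 1) → ValSetup Qb (FBar (M₀ * q * q)) (IsLocalRing.ResidueField A)
      (igField (IsLocalRing.ResidueField A) M₀))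
    (hSm : ∀ b, IsMidSetup M₀ q A (ε b) (Sm b))
    (S₁ : ValSetup Qb (FBar (M₀ * q)) (IsLocalRing.ResidueField A)
      (modularFunctionFieldFullC (IsLocalRing.ResidueField A) M₀))
    (hS₁ : IsGaussSetup (M₀ * q) M₀ A S₁)
    {g : FBar (M₀ * q * q)} (hg : g ∈ Soo.Ov) (hgm : ∀ b, g ∈ (Sm b).Ov) (b : Fin (q - 1)) :
    (Sm b).red (heckeAlphaBar Qb (M₀ * q) q (normAlong (heckeAlphaBar Qb (M₀ * q) q) g)) =
      IntermediateField.inclusion (fullC_le_igField (IsLocalRing.ResidueField A) M₀)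
          (Soo.red g) * ∏ b, (Sm b).red g := by
  rw [(seen_nm1_mid hq hA ζ hζ ε hε Soo hSoo Sm hSm S₁ hS₁ hg hgm b).2,
    (seen_nm1_inf hq hA ζ hζ ε hε Soo hSoo Sm hSm S₁ hS₁ hg hgm).2]

/-! ### `Nm₂ = W ∘ α ∘ Norm_α ∘ W` -/

include hq hA hζ hε hSoo hSm hS₁ hQ in
/-- **(20)** `ι (v_0.red (Nm₂ g)) = ι (v_0.red g) * ∏ b, (Sm b).red g`. -/
theorem seen_nm2_zero {g : FBar (M₀ * q * q)} (hg : g ∈ (valSetupZeroAt D hM Soo).Ov)
    (hgm : ∀ b, g ∈ (Sm b).Ov) :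
    wAt D hM (heckeAlphaBar Qb (M₀ * q) q
        (normAlong (heckeAlphaBar Qb (M₀ * q) q) (wAt D hM g))) ∈
        (valSetupZeroAt D hM Soo).Ov ∧
      IntermediateField.inclusion (fullC_le_igField (IsLocalRing.ResidueField A) M₀)
          ((valSetupZeroAt D hM Soo).red (wAt D hM (heckeAlphaBar Qb (M₀ * q) q
            (normAlong (heckeAlphaBar Qb (M₀ * q) q) (wAt D hM g))))) =
        IntermediateField.inclusion (fullC_le_igField (IsLocalRing.ResidueField A) M₀)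
            ((valSetupZeroAt D hM Soo).red g) * ∏ b, (Sm b).red g := by
  have hg' : wAt D hM g ∈ Soo.Ov := (mem_valSetupZeroAt_Ov D hM Soo g).mp hg
  have hgm' : ∀ b, wAt D hM g ∈ (Sm b).Ov := fun b =>
    (mid_wAt_mem_rev hq A hA D hM hQ ζ hζ.pow_eq_one ε hε Sm hSm g b).mpr (hgm (Fin.rev b))
  obtain ⟨h1, h2⟩ := seen_nm1_inf hq hA ζ hζ ε hε Soo hSoo Sm hSm S₁ hS₁ hg' hgm'
  rw [mem_valSetupZeroAt_Ov_wAt, valSetupZeroAt_red_wAt, valSetupZeroAt_red]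
  refine ⟨h1, ?_⟩
  rw [h2, mid_prod_red_wAt hq A hA D hM hQ ζ hζ.pow_eq_one ε hε Sm hSm g]

include hq hA hζ hε hSoo hSm hS₁ hQ in
/-- **(2m)** `(Sm b).red (Nm₂ g) = ι (v_0.red (Nm₂ g))`. -/
theorem seen_nm2_mid {g : FBar (M₀ * q * q)} (hg : g ∈ (valSetupZeroAt D hM Soo).Ov)
    (hgm : ∀ b, g ∈ (Sm b).Ov) (b : Fin (q - 1)) :
    wAt D hM (heckeAlphaBar Qb (M₀ * q) q
        (normAlong (heckeAlphaBar Qb (M₀ * q) q) (wAt D hM g))) ∈ (Sm b).Ov ∧
      (Sm b).red (wAt D hM (heckeAlphaBar Qb (M₀ * q) q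
          (normAlong (heckeAlphaBar Qb (M₀ * q) q) (wAt D hM g)))) =
        IntermediateField.inclusion (fullC_le_igField (IsLocalRing.ResidueField A) M₀)
          ((valSetupZeroAt D hM Soo).red (wAt D hM (heckeAlphaBar Qb (M₀ * q) q
            (normAlong (heckeAlphaBar Qb (M₀ * q) q) (wAt D hM g))))) := by
  have hg' : wAt D hM g ∈ Soo.Ov := (mem_valSetupZeroAt_Ov D hM Soo g).mp hg
  have hgm' : ∀ b, wAt D hM g ∈ (Sm b).Ov := fun b =>
    (mid_wAt_mem_rev hq A hA D hM hQ ζ hζ.pow_eq_one ε hε Sm hSm g b).mpr (hgm (Fin.rev b))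
  obtain ⟨h1, h2⟩ := seen_nm1_mid hq hA ζ hζ ε hε Soo hSoo Sm hSm S₁ hS₁ hg' hgm' (Fin.rev b)
  rw [mid_wAt_mem_rev hq A hA D hM hQ ζ hζ.pow_eq_one ε hε Sm hSm _ b,
    mid_red_wAt_rev hq A hA D hM hQ ζ hζ.pow_eq_one ε hε Sm hSm _ b, valSetupZeroAt_red_wAt]
  exact ⟨h1, h2⟩

include hq hA hζ hε hSoo hSm hS₁ hQ in
/-- **(2m), product form**: `(Sm b).red (Nm₂ g) = ι (v_0.red g) * ∏ b, (Sm b).red g`. -/
theorem seen_nm2_mid_prod {g : FBar (M₀ * q * q)} (hg : g ∈ (valSetupZeroAt D hM Soo).Ov)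
    (hgm : ∀ b, g ∈ (Sm b).Ov) (b : Fin (q - 1)) :
    (Sm b).red (wAt D hM (heckeAlphaBar Qb (M₀ * q) q
        (normAlong (heckeAlphaBar Qb (M₀ * q) q) (wAt D hM g)))) =
      IntermediateField.inclusion (fullC_le_igField (IsLocalRing.ResidueField A) M₀)
          ((valSetupZeroAt D hM Soo).red g) * ∏ b, (Sm b).red g := by
  rw [(seen_nm2_mid hq hA ζ hζ ε hε Soo hSoo Sm hSm S₁ hS₁ D hM hQ hg hgm b).2,
    (seen_nm2_zero hq hA ζ hζ ε hε Soo hSoo Sm hSm S₁ hS₁ D hM hQ hg hgm).2]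

end Seen

end Fermat.Agent.S36N
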