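/-
Cluster G (S36), block NORM, seat INERT-MID (helper45): the inertia group at `A` acts trivially
on the residues of the MIDDLE valuations, in `galFun` form.

(1) uniqueness of the middle expansion = `S36G.igMidExpUnique` (helper34, `S36/Igusa/Exp.lean`);
(2) `ε_{σ z} (f^σ) = σ (ε_z f)` = `S36G.igMidGalois_of_unique` (helper37, `S36/Igusa/Gal.lean`);
    here restated for `galFun`: `isMidExp_galFun`, `mem_expOv_galFun_iff`;
(3) NEW: `expRes_galFun_of_inertia`: for `σ` in the inertia group of `A` (over `ℚ`),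
    `f ∈ O_z ⟹ f^σ ∈ O_{σ z}` and `res_{σ z} (f^σ) = res_z f`;
    `expRes_galFun_of_decomposition`: for `σ` in the decomposition group the residues are
    conjugate by the induced automorphism of the residue field.
-/
import Mathlib
import Fermat.Agent.S36.Igusa.Gal
import Fermat.Agent.S36.Igusa.Exp
import Fermat.Agent.Lib.GaussInt.Galois
import Fermat.Agent.S17.Pts.Galois

set_option autoImplicit false
set_option linter.style.haveILetI false

noncomputable section

namespace Fermat.Agent.S36N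

open ModularCurve AlgebraicCurve Fermat.Agent.GaussInt Fermat.Agent.Kronecker
  Fermat.Agent.S36G Fermat.Agent.S17.Pts

local notation "Qb" => AlgebraicClosure ℚ

variable {M₀ q : ℕ} [NeZero M₀] [NeZero q]

/-- **(2), `galFun` form**: the middle expansion attached to `σ z` of the conjugate function
`f^σ` is the coefficientwise conjugate of the middle expansion attached to `z` of `f`. -/
theorem isMidExp_galFun (hq : q.Prime) (σ : Qb ≃ₐ[ℚ] Qb) {z z' : Qbˣ}
    (hz : (z' : Qb) = σ (z : Qb))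
    {ε ε' : ↥(modularFunctionFieldBar (M₀ * q * q)) →ₐ[Qb] LaurentSeries Qb}
    (hε : IsMidExp M₀ q z ε) (hε' : IsMidExp M₀ q z' ε')
    (f : ↥(modularFunctionFieldBar (M₀ * q * q))) :
    ε' (galFun (M₀ * q * q) σ f) = coeffMap (σ : Qb →+* Qb) (ε f) := by
  have hT : igTwist σ ε' = ε :=
    igMidExpUnique M₀ q hq z _ _ (isMidExp_igTwist σ hz hε') hε
  have h := congrArg (fun e => coeffMap (σ : Qb →+* Qb) (e f)) hT
  simp only [igTwist_apply, igGal_coeffMap_symm'] at h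
  exact h

/-- **(2), `galFun` form**: `f ∈ O_z ↔ f^σ ∈ O_{σ z}` for `σ` preserving `A`. -/
theorem mem_expOv_galFun_iff (hq : q.Prime) (A : ValuationSubring Qb) (σ : Qb ≃ₐ[ℚ] Qb)
    (hσ : ∀ c : Qb, c ∈ A ↔ σ c ∈ A) {z z' : Qbˣ} (hz : (z' : Qb) = σ (z : Qb))
    {ε ε' : ↥(modularFunctionFieldBar (M₀ * q * q)) →ₐ[Qb] LaurentSeries Qb}
    (hε : IsMidExp M₀ q z ε) (hε' : IsMidExp M₀ q z' ε')
    (f : ↥(modularFunctionFieldBar (M₀ * q * q))) :
    f ∈ expOv ε A ↔ galFun (M₀ * q * q) σ f ∈ expOv ε' A := by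
  rw [mem_expOv_iff, mem_expOv_iff, isMidExp_galFun hq σ hz hε hε' f]
  exact igGal_mem_gaussSub_iff A σ hσ (ε f)

/-- **(3) INERTIA**: for `σ` in the inertia group at `A`, `f ∈ O_z ⟹ f^σ ∈ O_{σ z}` and the
residues agree: `res_{σ z} (f^σ) = res_z f`. -/
theorem expRes_galFun_of_inertia (hq : q.Prime) (A : ValuationSubring Qb) (σ : Qb ≃ₐ[ℚ] Qb)
    (hσ : σ ∈ A.inertiaSubgroupIn ℚ) {z z' : Qbˣ} (hz : (z' : Qb) = σ (z : Qb))
    {ε ε' : ↥(modularFunctionFieldBar (M₀ * q * q)) →ₐ[Qb] LaurentSeries Qb}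
    (hε : IsMidExp M₀ q z ε) (hε' : IsMidExp M₀ q z' ε')
    {f : ↥(modularFunctionFieldBar (M₀ * q * q))} (hf : f ∈ expOv ε A) :
    galFun (M₀ * q * q) σ f ∈ expOv ε' A ∧
      expRes ε' A (galFun (M₀ * q * q) σ f) = expRes ε A f := by
  have hF : ∀ y ∈ (⊤ : IntermediateField Qb (LaurentSeries Qb)),
      coeffMap (σ : Qb →+* Qb) y ∈ (⊤ : IntermediateField Qb (LaurentSeries Qb)) :=
    fun _ _ => IntermediateField.mem_top
  have hf' : ε f ∈ gaussSub A (⊤ : IntermediateField Qb (LaurentSeries Qb)) := hf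
  refine ⟨?_, ?_⟩
  · rw [mem_expOv_iff, isMidExp_galFun hq σ hz hε hε' f]
    exact coeffMap_mem_gaussSub_of_inertia σ hσ hF hf'
  · unfold expRes
    rw [isMidExp_galFun hq σ hz hε hε' f]
    exact gaussResFun_inertia σ hσ hF hf'

/-- **(3') DECOMPOSITION GROUP**: for `σ` in the decomposition group at `A`,
`f ∈ O_z ⟹ f^σ ∈ O_{σ z}` and `res_{σ z} (f^σ) = σ̄ (res_z f)` coefficientwise. -/
theorem expRes_galFun_of_decomposition (hq : q.Prime) (A : ValuationSubring Qb)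
    (σ : Qb ≃ₐ[ℚ] Qb) (hσ : σ ∈ A.decompositionSubgroup ℚ) {z z' : Qbˣ}
    (hz : (z' : Qb) = σ (z : Qb))
    {ε ε' : ↥(modularFunctionFieldBar (M₀ * q * q)) →ₐ[Qb] LaurentSeries Qb}
    (hε : IsMidExp M₀ q z ε) (hε' : IsMidExp M₀ q z' ε')
    {f : ↥(modularFunctionFieldBar (M₀ * q * q))} (hf : f ∈ expOv ε A) :
    galFun (M₀ * q * q) σ f ∈ expOv ε' A ∧
      expRes ε' A (galFun (M₀ * q * q) σ f) =
        coeffMap (MulSemiringAction.toRingHom (A.decompositionSubgroup ℚ)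
          (IsLocalRing.ResidueField A) ⟨σ, hσ⟩) (expRes ε A f) := by
  have hF : ∀ y ∈ (⊤ : IntermediateField Qb (LaurentSeries Qb)),
      coeffMap (σ : Qb →+* Qb) y ∈ (⊤ : IntermediateField Qb (LaurentSeries Qb)) :=
    fun _ _ => IntermediateField.mem_top
  have hf' : ε f ∈ gaussSub A (⊤ : IntermediateField Qb (LaurentSeries Qb)) := hf
  have h := gaussResFun_decomposition σ hσ hF hf'
  refine ⟨?_, ?_⟩
  · rw [mem_expOv_iff, isMidExp_galFun hq σ hz hε hε' f]
    exact h.1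
  · unfold expRes
    rw [isMidExp_galFun hq σ hz hε hε' f]
    exact h.2

/-- **(3), same root of unity**: if `σ` in the inertia group fixes `z` then `O_z` is stable under
`f ↦ f^σ` and the residue map is invariant. -/
theorem expRes_galFun_of_inertia_fix (hq : q.Prime) (A : ValuationSubring Qb) (σ : Qb ≃ₐ[ℚ] Qb)
    (hσ : σ ∈ A.inertiaSubgroupIn ℚ) {z : Qbˣ} (hz : σ (z : Qb) = (z : Qb))
    {ε : ↥(modularFunctionFieldBar (M₀ * q * q)) →ₐ[Qb] LaurentSeries Qb}
    (hε : IsMidExp M₀ q z ε)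
    {f : ↥(modularFunctionFieldBar (M₀ * q * q))} (hf : f ∈ expOv ε A) :
    galFun (M₀ * q * q) σ f ∈ expOv ε A ∧
      expRes ε A (galFun (M₀ * q * q) σ f) = expRes ε A f :=
  expRes_galFun_of_inertia hq A σ hσ hz.symm hε hε hf

end Fermat.Agent.S36N
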