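import Fermat.Agent.S36.Norm.VertProd
import Fermat.Agent.S36.Igusa.Defs

set_option autoImplicit false
set_option linter.style.haveILetI false
set_option linter.unusedSectionVars false

/-!
# S36 (Carayol), block NORM, (N2) in explicit form: the norm along `π₁` at the cusp `∞`  (helper66)

`q` prime, `F₁ = F_{M₀ q} ⊂ F = F_{M₀ q q}` (`α = π₁^*`).  Above the cusp `∞` of `X₀(M₀ q)` lie the
cusp `∞` of `X₀(M₀ q²)` and the `q - 1` middle cusps, all unramified.  With the middle expansions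
`ε_b` (`IsMidExp M₀ q (ζ ^ (b + 1)) (ε b)`, `b < q - 1`, helper52's `S36/Igusa/Defs.lean`):

    `Norm_α f = f · ∏_{b < q - 1} ε_b f`          (as Laurent series, for EVERY `f ∈ F`).

Proof: the `q` ring homomorphisms `f ↦ f`, `f ↦ ε_b f` agree on `α F₁`, are pairwise distinct
(coefficient of `q⁻¹` of the image of `j(q^{q²})`), and `[F : α F₁] = q` (`finrank_alpha`).
No hypothesis `q ∤ M₀`.
-/

noncomputable section

namespace Fermat.Agent.S36N

open ModularCurve AlgebraicCurve Fermat.Agent.F3 Fermat.Agent.F3G Fermat.Agent.GaussInt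
  Fermat.Agent.AtkinLehner Fermat.Agent.Kronecker Fermat.Agent.BadRed Fermat.Agent.HeckeComm
  Fermat.Agent.S36G

local notation "Qb" => AlgebraicClosure ℚ

set_option synthInstance.maxHeartbeats 400000

variable {M₀ q : ℕ} [NeZero M₀] [NeZero q]

/-- the standard expansion of `F_M`, as a ring homomorphism. -/
def stdEmb (M : ℕ) : FBar M →+* LaurentSeries Qb := algebraMap (FBar M) (LaurentSeries Qb)

theorem stdEmb_apply (M : ℕ) (x : FBar M) : stdEmb M x = (x : LaurentSeries Qb) := rfl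

/-- `j(q^{q²})` as an element of `F_{M₀ q q}`: `β (β j)`. -/
def jBetaBeta (M₀ q : ℕ) [NeZero M₀] [NeZero q] : FBar (M₀ * q * q) :=
  heckeBetaBar Qb (M₀ * q) q (heckeBetaBar Qb M₀ q (Fermat.Agent.S24.jBar M₀))

theorem coe_jBetaBeta :
    ((jBetaBeta M₀ q : FBar (M₀ * q * q)) : LaurentSeries Qb) =
      qExpand Qb (q * q) (jqModC Qb) := by
  unfold jBetaBeta
  rw [coe_heckeBetaBar, coe_heckeBetaBar, Fermat.Agent.S24.coe_jBar_eq_jqModC, qExpand_qExpand]

theorem coeff_neg_one_jBetaBeta (hq : 1 < q) :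
    ((jBetaBeta M₀ q : FBar (M₀ * q * q)) : LaurentSeries Qb).coeff (-1) = 0 := by
  rw [coe_jBetaBeta]
  apply qExpand_coeff_of_not_dvd
  intro hdvd
  have h1 : ((q * q : ℕ) : ℤ) ∣ 1 := (Int.dvd_neg).mp hdvd
  have h2 : (q * q : ℕ) ∣ 1 := by exact_mod_cast h1
  have h3 := Nat.le_of_dvd Nat.one_pos h2
  nlinarith

theorem coeff_neg_one_mid {z : Qbˣ}
    {ε : FBar (M₀ * q * q) →ₐ[Qb] LaurentSeries Qb} (hε : IsMidExp M₀ q z ε) :
    (ε (jBetaBeta M₀ q)).coeff (-1) = ((z⁻¹ : Qbˣ) : Qb) := by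
  unfold jBetaBeta
  rw [hε.beta2, scaleL_coeff, Fermat.Agent.S24.coe_jBar_eq_jqModC, coeff_jqModC_neg_one, mul_one,
    zpow_neg_one]

/-- **(N2), product form.** -/
theorem norm_alpha_mid_expansion (hq : q.Prime) (ζ : Qbˣ) (hζ : IsPrimitiveRoot ζ q)
    (ε : Fin (q - 1) → (FBar (M₀ * q * q) →ₐ[Qb] LaurentSeries Qb))
    (hε : ∀ b : Fin (q - 1), IsMidExp M₀ q (ζ ^ ((b : ℕ) + 1)) (ε b))
    (f : FBar (M₀ * q * q)) :
    ((normAlong (heckeAlphaBar Qb (M₀ * q) q) f : FBar (M₀ * q)) : LaurentSeries Qb) =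
      (f : LaurentSeries Qb) * ∏ b : Fin (q - 1), ε b f := by
  obtain ⟨hfd, hrank⟩ := finrank_alpha (N := M₀ * q) hq (dvd_mul_left q M₀)
  let τ : Option (Fin (q - 1)) → (FBar (M₀ * q * q) →+* LaurentSeries Qb) := fun i =>
    i.elim (stdEmb (M₀ * q * q)) (fun b => (ε b).toRingHom)
  have hτ : ∀ i (x : FBar (M₀ * q)), τ i (heckeAlphaBar Qb (M₀ * q) q x) = stdEmb (M₀ * q) x := by
    intro i x
    cases i with
    | none => exact coe_heckeAlphaBar (L := Qb) (M₀ * q) q x
    | some b => exact (hε b).alpha x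
  have hval : ∀ i : Option (Fin (q - 1)), (τ i (jBetaBeta M₀ q)).coeff (-1) =
      i.elim 0 (fun b => (((ζ ^ ((b : ℕ) + 1))⁻¹ : Qbˣ) : Qb)) := by
    intro i
    cases i with
    | none => exact coeff_neg_one_jBetaBeta hq.one_lt
    | some b => exact coeff_neg_one_mid (hε b)
  have hinj : Function.Injective τ := by
    intro i j hij
    have h1 : i.elim 0 (fun b : Fin (q - 1) => (((ζ ^ ((b : ℕ) + 1))⁻¹ : Qbˣ) : Qb)) =
        j.elim 0 (fun b : Fin (q - 1) => (((ζ ^ ((b : ℕ) + 1))⁻¹ : Qbˣ) : Qb)) := by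
      rw [← hval i, ← hval j, hij]
    cases i with
    | none =>
      cases j with
      | none => rfl
      | some b' => exact absurd h1.symm (Units.ne_zero _)
    | some b =>
      cases j with
      | none => exact absurd h1 (Units.ne_zero _)
      | some b' =>
        have h2 : ζ ^ ((b : ℕ) + 1) = ζ ^ ((b' : ℕ) + 1) := inv_inj.mp (Units.ext h1)
        have hb : (b : ℕ) + 1 < q := by have := b.2; omega
        have hb' : (b' : ℕ) + 1 < q := by have := b'.2; omega
        have h3 := hζ.pow_inj hb hb' h2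
        exact congrArg some (Fin.ext (by omega))
  have hcard : (letI := algebraAlong (heckeAlphaBar Qb (M₀ * q) q)
      Module.finrank (FBar (M₀ * q)) (FBar (M₀ * q * q))) ≤ Fintype.card (Option (Fin (q - 1))) := by
    rw [hrank, Fintype.card_option, Fintype.card_fin]
    have := hq.one_lt
    omega
  have h := norm_eq_prod_ringHom (heckeAlphaBar Qb (M₀ * q) q) hfd (stdEmb (M₀ * q)) τ hτ hinj
    hcard f
  rw [Fintype.prod_option] at h
  exact h

end Fermat.Agent.S36N
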