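import Mathlib

set_option autoImplicit false

/-!
# S36 (Carayol), block NORM: descent of `n`-th roots (abstract, Mathlib only)  (helper66)

`k` algebraically closed, `k ⊆ K₀ ⊆ L` fields (`ι : K₀ →ₐ[k] L`).

* `exists_const_of_isAlgebraic` : an element of `L` which is algebraic over `k` is a constant;
* `exists_const_of_pow_eq_one`  : the `n`-th roots of unity of `L` are constants;
* `exists_root_of_pow_eq`       : if `ρ = κ sⁿ` in `K₀` (`κ ∈ kˣ`) and `X ∈ L` has `Xⁿ = ι ρ`, then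
  `X = ι H` with `H ∈ K₀`, `Hⁿ = ρ`.

Use (S36, Step 3, vertical roots): `K₀ = F_k(M₀)`, `L = igField k M₀`,
`ρ = red_∞ (Norm g) = (h_∞ ∏_b y_b)ⁿ` computed in `L` by (N2), `ρ = κ sⁿ` because `Norm g = a uⁿ`:
the root `h_∞ ∏_b y_b` of (N2) lies in `F_k(M₀)`.  No Galois theory of `igField / F_k(M₀)` is needed.
-/

namespace Fermat.Agent.S36N

variable {k K₀ L : Type*} [Field k] [IsAlgClosed k] [Field K₀] [Algebra k K₀] [Field L]
  [Algebra k L]

/-- an element which is algebraic over an algebraically closed field is a constant. -/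
theorem exists_const_of_isAlgebraic {x : L} (hx : IsAlgebraic k x) :
    ∃ c : k, algebraMap k L c = x := by
  have hirr := minpoly.irreducible hx.isIntegral
  have hdeg := IsAlgClosed.degree_eq_one_of_irreducible k hirr
  exact minpoly.mem_range_of_degree_eq_one k x hdeg

/-- the `n`-th roots of unity are constants. -/
theorem exists_const_of_pow_eq_one {n : ℕ} (hn : n ≠ 0) {μ : L} (hμ : μ ^ n = 1) :
    ∃ c : k, algebraMap k L c = μ ∧ c ^ n = 1 := by
  have halg : IsAlgebraic k μ := by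
    refine ⟨Polynomial.X ^ n - 1, ?_, ?_⟩
    · exact Polynomial.X_pow_sub_C_ne_zero (Nat.pos_of_ne_zero hn) (1 : k)
    · simp [hμ]
  obtain ⟨c, hc⟩ := exists_const_of_isAlgebraic halg
  refine ⟨c, hc, ?_⟩
  apply (algebraMap k L).injective
  rw [map_pow, hc, hμ, map_one]

/-- **descent of `n`-th roots.** -/
theorem exists_root_of_pow_eq (ι : K₀ →ₐ[k] L) {n : ℕ} (hn : n ≠ 0) {ρ : K₀} {κ : k} {s : K₀}
    (hκ : κ ≠ 0) (hs : s ≠ 0) (hρ : ρ = algebraMap k K₀ κ * s ^ n) {X : L}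
    (hX : X ^ n = ι ρ) : ∃ H : K₀, H ≠ 0 ∧ ι H = X ∧ H ^ n = ρ := by
  obtain ⟨κ₀, hκ₀⟩ := IsAlgClosed.exists_pow_nat_eq κ (Nat.pos_of_ne_zero hn)
  have hκ₀0 : κ₀ ≠ 0 := by
    rintro rfl
    rw [zero_pow hn] at hκ₀
    exact hκ hκ₀.symm
  set Y₀ : K₀ := algebraMap k K₀ κ₀ * s with hY₀
  have hY₀0 : Y₀ ≠ 0 := mul_ne_zero ((map_ne_zero _).mpr hκ₀0) hs
  have hY₀n : Y₀ ^ n = ρ := by
    rw [hY₀, mul_pow, ← map_pow, hκ₀, hρ]
  have hιY : ι Y₀ ≠ 0 := (map_ne_zero ι.toRingHom).mpr hY₀0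
  have hμ : (X / ι Y₀) ^ n = 1 := by
    rw [div_pow, hX, ← map_pow, hY₀n]
    exact div_self ((map_ne_zero ι.toRingHom).mpr (hY₀n ▸ pow_ne_zero n hY₀0))
  obtain ⟨c, hc, hcn⟩ := exists_const_of_pow_eq_one (k := k) hn hμ
  have hc0 : c ≠ 0 := by
    rintro rfl
    rw [zero_pow hn] at hcn
    exact zero_ne_one hcn
  refine ⟨algebraMap k K₀ c * Y₀, mul_ne_zero ((map_ne_zero _).mpr hc0) hY₀0, ?_, ?_⟩
  · rw [map_mul, AlgHom.commutes, hc, div_mul_cancel₀ _ hιY]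
  · rw [mul_pow, ← map_pow, hcn, map_one, one_mul, hY₀n]

end Fermat.Agent.S36N
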