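/-
Cluster G (S36), block NORM, seat VAL-NORM (helper45), pure algebra: the residue of a norm.

`A` a discrete valuation ring, `B` a Dedekind domain which is finite free over `A`, all residue
degrees `1`:  if `b ≡ c_P mod P` for every prime `P` of `B` above the maximal ideal of `A`, then
`N_{B/A}(b) ≡ ∏_P c_P ^ e_P` modulo the maximal ideal (`vn_norm_mod`).  Ingredients: the norm
commutes with reduction (`vn_norm_quotient_mk`), the norm of a finite product of algebras
(`vn_norm_pi`), the norm of `c + nilpotent` (`vn_norm_add_nilpotent`).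
-/
import Mathlib
import Fermat.Agent.S36.Norm.Multi

set_option autoImplicit false
set_option linter.deprecated false
set_option linter.unusedSectionVars false

noncomputable section

namespace Fermat.Agent.S36

open IsLocalRing Module

section Quot

variable {R S : Type*} [CommRing R] [CommRing S] [Algebra R S] [Module.Free R S]
  [Module.Finite R S]

attribute [local instance] Ideal.Quotient.field

/-- the norm commutes with reduction modulo the maximal ideal. -/
theorem vn_norm_quotient_mk [IsLocalRing R] (x : S) :
    Algebra.norm (R ⧸ maximalIdeal R)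
        (Ideal.Quotient.mk (Ideal.map (algebraMap R S) (maximalIdeal R)) x) =
      Ideal.Quotient.mk (maximalIdeal R) (Algebra.norm R x) := by
  let ι := Module.Free.ChooseBasisIndex R S
  let b : Module.Basis ι R S := Module.Free.chooseBasis R S
  rw [Algebra.norm_eq_matrix_det b, Algebra.norm_eq_matrix_det (basisQuotient b),
    RingHom.map_det]
  congr 1
  ext i j
  simp only [Algebra.leftMulMatrix_apply, Algebra.coe_lmul_eq_mul, LinearMap.toMatrix_apply,
    basisQuotient_apply, LinearMap.mul_apply', RingHom.mapMatrix_apply, Matrix.map_apply,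
    ← map_mul, basisQuotient_repr]

end Quot

section Nilp

variable {k C : Type*} [Field k] [CommRing C] [Algebra k C] [Module.Finite k C]

/-- norm of `c + n`, `n` nilpotent. -/
theorem vn_norm_add_nilpotent (c : k) {n : C} (hn : IsNilpotent n) :
    Algebra.norm k (algebraMap k C c + n) = c ^ Module.finrank k C := by
  have hN : IsNilpotent (Algebra.lmul k C (-n)) := by
    obtain ⟨m, hm⟩ := hn
    refine ⟨m, ?_⟩
    rw [← map_pow, neg_pow, hm, mul_zero, map_zero]
  have h1 := IsNilpotent.charpoly_eq_X_pow_finrank hN
  have h2 : Algebra.lmul k C (algebraMap k C c + n) =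
      algebraMap k (Module.End k C) c - Algebra.lmul k C (-n) := by
    ext y
    simp [Algebra.algebraMap_eq_smul_one]
  rw [Algebra.norm_apply, h2, ← LinearMap.eval_charpoly, h1]
  simp

end Nilp

section Pi

variable {k : Type*} [Field k] {ι : Type*} [Fintype ι] [DecidableEq ι]
  {C : ι → Type*} [∀ i, CommRing (C i)] [∀ i, Algebra k (C i)] [∀ i, Module.Finite k (C i)]

/-- the norm of an element of a finite product of finite-dimensional algebras. -/
theorem vn_norm_pi (x : ∀ i, C i) :
    Algebra.norm k x = ∏ i, Algebra.norm k (x i) := by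
  classical
  let b : ∀ i, Module.Basis (Module.Free.ChooseBasisIndex k (C i)) k (C i) :=
    fun i => Module.Free.chooseBasis k (C i)
  rw [Algebra.norm_eq_matrix_det (Pi.basis b)]
  have h : Algebra.leftMulMatrix (Pi.basis b) x =
      Matrix.blockDiagonal' (fun i => Algebra.leftMulMatrix (b i) (x i)) := by
    ext ⟨i, a⟩ ⟨j, c⟩
    rw [Algebra.leftMulMatrix_eq_repr_mul, Matrix.blockDiagonal'_apply, Pi.basis_repr,
      Pi.basis_apply]
    by_cases hij : i = j
    · subst hij
      simp [Algebra.leftMulMatrix_eq_repr_mul]
    · rw [dif_neg hij]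
      have : (x * Pi.single j ((b j) c)) i = 0 := by
        rw [Pi.mul_apply, Pi.single_eq_of_ne hij, mul_zero]
      simp [this]
  rw [h, det_blockDiagonal'_eq_prod]
  refine Finset.prod_congr rfl fun i _ => ?_
  rw [Algebra.norm_eq_matrix_det (b i)]

end Pi

section Dedekind

open Ideal UniqueFactorizationMonoid

variable {A B : Type*} [CommRing A] [IsDomain A] [IsDiscreteValuationRing A]
  [CommRing B] [IsDedekindDomain B] [Algebra A B] [Module.Finite A B] [Module.Free A B]

attribute [local instance] Ideal.Quotient.field
attribute [local instance] Ideal.Quotient.algebraQuotientOfRamificationIdxNeZero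

/-- **the residue of a norm**: if `b ≡ c P` modulo every prime `P` of `B` above the maximal ideal
of the discrete valuation ring `A` and all the residue degrees are `1`, then
`N(b) ≡ ∏ (c P) ^ e_P`. -/
theorem vn_norm_mod (hp : map (algebraMap A B) (maximalIdeal A) ≠ ⊥)
    (hf : ∀ P : (factors (map (algebraMap A B) (maximalIdeal A))).toFinset,
      inertiaDeg' (maximalIdeal A) (P : Ideal B) = 1)
    (b : B) (c : (factors (map (algebraMap A B) (maximalIdeal A))).toFinset → A)
    (hc : ∀ P : (factors (map (algebraMap A B) (maximalIdeal A))).toFinset,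
      b - algebraMap A B (c P) ∈ (P : Ideal B)) :
    Ideal.Quotient.mk (maximalIdeal A) (Algebra.norm A b) =
      ∏ P, Ideal.Quotient.mk (maximalIdeal A) (c P) ^
        ramificationIdx' (maximalIdeal A) (P : Ideal B) := by
  classical
  rw [← vn_norm_quotient_mk]
  let e₀ := Factors.piQuotientLinearEquiv B (maximalIdeal A) hp
  let e : (B ⧸ map (algebraMap A B) (maximalIdeal A)) ≃ₐ[A ⧸ maximalIdeal A]
      (∀ P : (factors (map (algebraMap A B) (maximalIdeal A))).toFinset,
        B ⧸ (P : Ideal B) ^ ramificationIdx' (maximalIdeal A) (P : Ideal B)) :=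
    AlgEquiv.ofLinearEquiv e₀ (map_one (Factors.piQuotientEquiv (maximalIdeal A) hp))
      (map_mul (Factors.piQuotientEquiv (maximalIdeal A) hp))
  rw [← Algebra.norm_eq_of_algEquiv e, vn_norm_pi]
  refine Finset.prod_congr rfl fun P _ => ?_
  have h1 : e (Ideal.Quotient.mk _ b) P =
      algebraMap (A ⧸ maximalIdeal A) _ (Ideal.Quotient.mk (maximalIdeal A) (c P)) +
        Ideal.Quotient.mk ((P : Ideal B) ^ ramificationIdx' (maximalIdeal A) (P : Ideal B))
          (b - algebraMap A B (c P)) := by
    show Ideal.Quotient.mk _ b = _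
    rw [Quotient.algebraMap_quotient_pow_ramificationIdx, ← map_add]
    congr 1
    ring
  have hnil : IsNilpotent
      (Ideal.Quotient.mk ((P : Ideal B) ^ ramificationIdx' (maximalIdeal A) (P : Ideal B))
        (b - algebraMap A B (c P))) := by
    refine ⟨ramificationIdx' (maximalIdeal A) (P : Ideal B), ?_⟩
    rw [← map_pow, Ideal.Quotient.eq_zero_iff_mem]
    exact Ideal.pow_mem_pow (hc P) _
  rw [h1, vn_norm_add_nilpotent _ hnil, Factors.finrank_pow_ramificationIdx, hf P, mul_one]

end Dedekind

end Fermat.Agent.S36
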