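/-
Cluster G (S36), block NORM, seat VAL-NORM (helper45): VALUES OF NORMS at places.

`F'/F` a finite separable extension of function fields over an algebraically closed field `K`,
`v` a place of `F`, `f ∈ F'` taking the value `c w` at every place `w` of `F'` above `v`.  Then
`N_{F'/F}(f)` takes the value `∏_{w ∣ v} (c w) ^ e(w ∣ v)` at `v`  (`vn_valAt_norm`;
`vn_valAt_normAlong` for a morphism `φ : F →ₐ[K] F'`).

Values are expressed by `Fermat.Agent.BadRed.ValAt` (junk-value safe).
Used in Step 3 of the blueprint (cocycle of `N_{π}(g)` on the graph).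
-/
import Mathlib
import Fermat.Agent.S36.Norm.ValNormAlg
import Fermat.Agent.Lib.HeckeInputs.FundId
import Fermat.Agent.Lib.BadRed.Nodal.Setup
import Fermat.Agent.R38.P.NormSep

set_option autoImplicit false
set_option linter.deprecated false
set_option linter.unusedSectionVars false
set_option linter.style.haveILetI false

noncomputable section

open IsDedekindDomain WithZero AlgebraicCurve

namespace Fermat.Agent.S36

open Fermat.Agent.BadRed (ValAt)
open Fermat.Agent.HeckeInputs

/-- a function with a value at a place is regular there. -/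
theorem vn_mem_of_valAt {K F : Type*} [Field K] [Field F] [Algebra K F] (w : Place K F) {f : F}
    {c : K} (h : ValAt w f c) : f ∈ w.toValuationSubring := by
  rcases h with h | h
  · rw [h]
    exact w.algebraMap_mem' c
  · have h1 : f - algebraMap K F c ∈ w.toValuationSubring :=
      Fermat.Agent.S24Res.mem_of_ord_nonneg w h.le
    have h2 := add_mem h1 (w.algebraMap_mem' c)
    rwa [sub_add_cancel] at h2

section DVR

variable {K F F' A B : Type*} [Field K] [Field F] [Field F']
  [Algebra K F] [Algebra K F'] [Algebra F F'] [IsScalarTower K F F'] [FiniteDimensional F F']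
  [CommRing A] [IsDomain A] [IsDiscreteValuationRing A] [Algebra A F] [IsFractionRing A F]
  [Algebra A F'] [IsScalarTower A F F'] [Algebra K A] [IsScalarTower K A F]
  [CommRing B] [IsDedekindDomain B] [Algebra A B] [Algebra B F'] [IsFractionRing B F']
  [IsScalarTower A B F'] [Module.Finite A B] [Module.IsTorsionFree A B]
  [Algebra K B] [IsScalarTower K B F']

variable (v : Place K F)
  (hv : ∀ x : F, x ∈ v.toValuationSubring ↔ x ∈ Set.range (algebraMap A F))

/-- positive order at the place of a height one prime means membership. -/
theorem vn_mem_of_ord_pos (P : HeightOneSpectrum B) (b : B)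
    (h : 0 < (hi_place K F' P).ord (algebraMap B F' b)) : b ∈ P.asIdeal := by
  have hb0 : algebraMap B F' b ≠ 0 := by
    intro h0
    rw [h0, Place.ord_zero] at h
    exact lt_irrefl _ h
  rw [Fermat.Agent.S24Bridge.ord_ofHeightOneSpectrum] at h
  have hval0 : P.valuation F' (algebraMap B F' b) ≠ 0 := (Valuation.ne_zero_iff _).mpr hb0
  have h1 : WithZero.log (P.valuation F' (algebraMap B F' b)) < 0 := by omega
  rw [WithZero.log_lt_iff_lt_exp hval0, WithZero.exp_zero] at h1
  exact (HeightOneSpectrum.valuation_lt_one_iff_mem P b).mp h1

variable (A B) in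
include hv in
/-- **values of norms**, local form. -/
theorem vn_valAt_norm_dvr [IsAlgClosed K] [HasPrincipalDivisors K F'] [IsIntegralClosure B A F']
    (hres : Function.Surjective
      ((Ideal.Quotient.mk (IsLocalRing.maximalIdeal A)).comp (algebraMap K A)))
    (f : F') (c : Place K F' → K) (hf : ∀ w ∈ v.fiber F', ValAt w f (c w)) :
    ValAt v (Algebra.norm F f) (∏ w ∈ v.fiber F', c w ^ w.ramificationIndex F) := by
  classical
  haveI : Module.Free A B := Module.free_of_finite_type_torsion_free'
  have hp0 := hi_maximalIdeal_ne_bot (A := A)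
  have hconst : ∀ c : K,
      algebraMap B F' (algebraMap A B (algebraMap K A c)) = algebraMap K F' c := by
    intro c
    rw [← IsScalarTower.algebraMap_apply A B F', IsScalarTower.algebraMap_apply A F F',
      ← IsScalarTower.algebraMap_apply K A F, ← IsScalarTower.algebraMap_apply K F F']
  -- `f` comes from `B`
  obtain ⟨b, rfl⟩ : ∃ b : B, algebraMap B F' b = f := by
    have hmem : f ∈ (algebraMap B F').range := by
      apply HeightOneSpectrum.mem_integers_of_valuation_le_one
      intro P
      have hw : hi_place K F' P ∈ v.fiber F' :=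
        Place.mem_fiber.mpr (hi_restrict_place A v hv P)
      exact (Fermat.Agent.S24Bridge.mem_ofHeightOneSpectrum_iff (K := K) P f).mp
        (vn_mem_of_valAt _ (hf _ hw))
    exact hmem
  -- the constants
  set cP : (UniqueFactorizationMonoid.factors
      (Ideal.map (algebraMap A B) (IsLocalRing.maximalIdeal A))).toFinset → A :=
    fun P => algebraMap K A (c (hi_place K F' (hi_toH P.1 P.2))) with hcP
  have hc : ∀ P : (UniqueFactorizationMonoid.factors
      (Ideal.map (algebraMap A B) (IsLocalRing.maximalIdeal A))).toFinset,
      b - algebraMap A B (cP P) ∈ (P : Ideal B) := by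
    intro P
    have hw : hi_place K F' (hi_toH P.1 P.2) ∈ v.fiber F' :=
      Place.mem_fiber.mpr (hi_restrict_place A v hv _)
    have hmap : algebraMap B F' (b - algebraMap A B (cP P)) =
        algebraMap B F' b - algebraMap K F' (c (hi_place K F' (hi_toH P.1 P.2))) := by
      rw [map_sub, hcP, hconst]
    rcases hf _ hw with h | h
    · have h0 : algebraMap B F' (b - algebraMap A B (cP P)) = 0 := by
        rw [hmap, h, sub_self]
      rw [(map_eq_zero_iff _ (IsFractionRing.injective B F')).mp h0]
      exact zero_mem _
    · rw [← hmap] at h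
      exact vn_mem_of_ord_pos (K := K) (hi_toH P.1 P.2) _ h
  have hp : Ideal.map (algebraMap A B) (IsLocalRing.maximalIdeal A) ≠ ⊥ := by
    rw [Ne, Ideal.map_eq_bot_iff_of_injective (FaithfulSMul.algebraMap_injective A B)]
    exact hp0
  have hfdeg : ∀ P : (UniqueFactorizationMonoid.factors
      (Ideal.map (algebraMap A B) (IsLocalRing.maximalIdeal A))).toFinset,
      Ideal.inertiaDeg' (IsLocalRing.maximalIdeal A) (P : Ideal B) = 1 :=
    fun P => hi_inertiaDeg'_eq_one hres (hi_toH P.1 P.2)
  have key := vn_norm_mod hp hfdeg b cP hc
  -- the product over the fibre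
  have hprod : algebraMap K A (∏ w ∈ v.fiber F', c w ^ w.ramificationIndex F) =
      ∏ P : (UniqueFactorizationMonoid.factors
        (Ideal.map (algebraMap A B) (IsLocalRing.maximalIdeal A))).toFinset,
        cP P ^ Ideal.ramificationIdx' (IsLocalRing.maximalIdeal A) (P : Ideal B) := by
    rw [hi_fiber_eq A B v hv, Finset.prod_image (fun P _ Q _ h => hi_place_toH_injective h),
      map_prod, Finset.univ_eq_attach]
    refine Finset.prod_congr rfl fun P _ => ?_
    rw [map_pow, hi_ramificationIndex_eq v hv]
    rfl
  -- conclusion
  have hnorm : Algebra.norm F (algebraMap B F' b) = algebraMap A F (Algebra.norm A b) := by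
    rw [← Algebra.algebraMap_intNorm (A := A) (K := F) (L := F') (B := B),
      Algebra.intNorm_eq_norm]
  have hmem : Algebra.norm A b -
      algebraMap K A (∏ w ∈ v.fiber F', c w ^ w.ramificationIndex F) ∈
        IsLocalRing.maximalIdeal A := by
    rw [← Ideal.Quotient.eq, key, hprod, map_prod]
    refine Finset.prod_congr rfl fun P _ => ?_
    rw [map_pow]
  set C : K := ∏ w ∈ v.fiber F', c w ^ w.ramificationIndex F with hC
  set a : A := Algebra.norm A b - algebraMap K A C with ha
  have haF : algebraMap A F a = Algebra.norm F (algebraMap B F' b) - algebraMap K F C := by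
    rw [ha, map_sub, hnorm, ← IsScalarTower.algebraMap_apply K A F]
  by_cases ha0 : a = 0
  · left
    have : algebraMap A F a = 0 := by rw [ha0, map_zero]
    rw [haF, sub_eq_zero] at this
    exact this
  · right
    rw [← haF, hi_ord_eq v hv]
    have hval0 : (hi_v₀ A).valuation F (algebraMap A F a) ≠ 0 :=
      (Valuation.ne_zero_iff _).mpr
        ((map_ne_zero_iff _ (IsFractionRing.injective A F)).mpr ha0)
    have hlt : (hi_v₀ A).valuation F (algebraMap A F a) < 1 :=
      (HeightOneSpectrum.valuation_lt_one_iff_mem (hi_v₀ A) a).mpr hmem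
    have h1 : WithZero.log ((hi_v₀ A).valuation F (algebraMap A F a)) < 0 := by
      rw [WithZero.log_lt_iff_lt_exp hval0, WithZero.exp_zero]
      exact hlt
    omega

end DVR

section Global

open Fermat.Agent.R38 Fermat.Agent.S24Diff

variable {K F F' : Type*} [Field K] [Field F] [Field F']
  [Algebra K F] [Algebra K F'] [Algebra F F'] [IsScalarTower K F F'] [FiniteDimensional F F']
  [IsAlgClosed K]

/-- **VALUES OF NORMS**: if `f` takes the value `c w` at every place `w` above `v`, then
`N_{F'/F} f` takes the value `∏_{w ∣ v} (c w) ^ e(w ∣ v)` at `v`. -/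
theorem vn_valAt_norm [Algebra.IsSeparable F F'] [HasPrincipalDivisors K F'] {x : F}
    (h : IsFunctionFieldOver K F x) (v : Place K F) (f : F') (c : Place K F' → K)
    (hf : ∀ w ∈ v.fiber F', ValAt w f (c w)) :
    ValAt v (Algebra.norm F f) (∏ w ∈ v.fiber F', c w ^ w.ramificationIndex F) := by
  letI := r38pl_algA (F' := F') v
  haveI := r38pl_towerA (F' := F') v
  haveI := r38pl_towerKA (F' := F') v
  haveI : IsDedekindDomain (integralClosure v.toValuationSubring F') :=
    integralClosure.isDedekindDomain v.toValuationSubring F F'
  haveI : IsFractionRing (integralClosure v.toValuationSubring F') F' :=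
    integralClosure.isFractionRing_of_finite_extension F F'
  haveI : Module.Finite v.toValuationSubring (integralClosure v.toValuationSubring F') :=
    IsIntegralClosure.finite v.toValuationSubring F F' _
  haveI : Module.IsTorsionFree v.toValuationSubring (integralClosure v.toValuationSubring F') := by
    haveI : Module.IsTorsionFree v.toValuationSubring F' :=
      .trans_faithfulSMul v.toValuationSubring F F'
    exact IsIntegralClosure.isTorsionFree v.toValuationSubring F'
  exact vn_valAt_norm_dvr v.toValuationSubring (integralClosure v.toValuationSubring F') v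
    (r38pl_hv v) (r38pl_hres v h) f c hf

/-- the same for a single value: `f ≡ c` at ALL places above `v` gives `N f ≡ c ^ [F' : F]`;
here in the product form (use `hi_sum_ramificationIndex` to sum the exponents). -/
theorem vn_valAt_norm_const [Algebra.IsSeparable F F'] [HasPrincipalDivisors K F'] {x : F}
    (h : IsFunctionFieldOver K F x) (v : Place K F) (f : F') (c : K)
    (hf : ∀ w ∈ v.fiber F', ValAt w f c) :
    ValAt v (Algebra.norm F f) (∏ w ∈ v.fiber F', c ^ w.ramificationIndex F) :=
  vn_valAt_norm h v f (fun _ => c) hf

end Global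

section Along

open Fermat.Agent.S24Diff

variable {K F F' : Type*} [Field K] [Field F] [Field F'] [Algebra K F] [Algebra K F']
  [IsAlgClosed K]

/-- **VALUES OF NORMS along a finite separable morphism** `φ : F → F'` of function fields. -/
theorem vn_valAt_normAlong (φ : F →ₐ[K] F') (hfin : FiniteAlong K φ)
    (hsep : letI := algebraAlong φ; Algebra.IsSeparable F F')
    [HasPrincipalDivisors K F'] {x : F} (h : IsFunctionFieldOver K F x)
    (hφ : φ.toRingHom.IsIntegral) (v : Place K F) (f : F') (c : Place K F' → K)
    (hf : ∀ w ∈ Place.fiberAlong φ hφ v, ValAt w f (c w)) :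
    ValAt v ((letI := algebraAlong φ; Algebra.norm F) f)
      (∏ w ∈ Place.fiberAlong φ hφ v, c w ^ w.ramificationIndexAlong φ) := by
  letI := algebraAlong φ
  haveI := isScalarTower_along φ
  haveI : FiniteDimensional F F' := hfin
  haveI : Algebra.IsSeparable F F' := hsep
  exact vn_valAt_norm h v f c hf

end Along

end Fermat.Agent.S36
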